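import Fermat.Agent.S28.Defs

/-!
# S28, piece AN-A : bridge between Mathlib's analytic `E₄`, `Δ` and the Prelude's formal series
-/

set_option autoImplicit false

open ModularCurve UpperHalfPlane ModularForm Filter Topology
open scoped MatrixGroups Manifold

namespace Fermat.Agent.S28Lib

noncomputable section

local notation "Δ" => ModularForm.discriminant

namespace BridgeAux

/-- Taylor series at `0`. -/
def tay (F : ℂ → ℂ) : PowerSeries ℂ :=
  .mk fun m ↦ ((m.factorial : ℂ))⁻¹ * iteratedDeriv m F 0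

lemma tay_coeff (F : ℂ → ℂ) (m : ℕ) :
    (tay F).coeff m = ((m.factorial : ℂ))⁻¹ * iteratedDeriv m F 0 := by
  simp [tay]

lemma qExpansion_eq_tay (h : ℝ) (f : ℍ → ℂ) : qExpansion h f = tay (cuspFunction h f) := rfl

lemma tay_congr {F G : ℂ → ℂ} (h : F =ᶠ[𝓝 0] G) : tay F = tay G := by
  ext m
  rw [tay_coeff, tay_coeff, h.iteratedDeriv_eq]

lemma tay_mul {F G : ℂ → ℂ} (hf : AnalyticAt ℂ F 0) (hg : AnalyticAt ℂ G 0) :
    tay (F * G) = tay F * tay G := by
  ext
  simp only [tay_coeff, iteratedDeriv_mul hf.contDiffAt hg.contDiffAt, Finset.mul_sum,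
    PowerSeries.coeff_mul, Finset.Nat.sum_antidiagonal_eq_sum_range_succ_mk, Nat.succ_eq_add_one]
  refine Finset.sum_congr rfl fun i hi ↦ ?_
  rw [Nat.cast_choose _ (by grind)]
  field_simp [Nat.factorial_ne_zero]

lemma tay_one : tay (1 : ℂ → ℂ) = 1 := by
  ext m
  have h2 : iteratedDeriv m (1 : ℂ → ℂ) 0 = if m = 0 then 1 else 0 := by
    simpa [ite_apply] using! iteratedDeriv_const
  simp +contextual [tay_coeff, h2]

lemma tay_pow {F : ℂ → ℂ} (hf : AnalyticAt ℂ F 0) (n : ℕ) : tay (F ^ n) = tay F ^ n := by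
  induction n with
  | zero => simp [tay_one]
  | succ n ih => rw [pow_succ, pow_succ, tay_mul (hf.pow n) hf, ih]

lemma tay_sub {F G : ℂ → ℂ} (hf : AnalyticAt ℂ F 0) (hg : AnalyticAt ℂ G 0) :
    tay (F - G) = tay F - tay G := by
  ext m
  simp [tay_coeff, iteratedDeriv_sub hf.contDiffAt hg.contDiffAt, mul_sub]

lemma tay_id : tay (id : ℂ → ℂ) = PowerSeries.X := by
  ext m
  rw [tay_coeff, PowerSeries.coeff_X]
  rcases m with _ | _ | m
  · simp
  · simp [iteratedDeriv_succ]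
  · have : iteratedDeriv (m + 1 + 1) (id : ℂ → ℂ) = 0 := by
      rw [iteratedDeriv_succ', iteratedDeriv_succ']
      have h1 : deriv (id : ℂ → ℂ) = fun _ => 1 := by ext; simp
      rw [h1]
      have h2 : deriv (fun _ : ℂ => (1 : ℂ)) = fun _ => 0 := by ext; simp
      rw [h2]
      ext x
      simp
    rw [this]; simp

lemma analyticAt_prod {ι : Type*} (s : Finset ι) {F : ι → ℂ → ℂ}
    (h : ∀ i ∈ s, AnalyticAt ℂ (F i) 0) : AnalyticAt ℂ (∏ i ∈ s, F i) 0 :=
  Finset.analyticAt_prod s h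

lemma tay_prod {ι : Type*} (s : Finset ι) {F : ι → ℂ → ℂ}
    (h : ∀ i ∈ s, AnalyticAt ℂ (F i) 0) : tay (∏ i ∈ s, F i) = ∏ i ∈ s, tay (F i) := by
  classical
  induction s using Finset.induction_on with
  | empty => simp [tay_one]
  | insert a s ha ih =>
    rw [Finset.prod_insert ha, Finset.prod_insert ha,
      tay_mul (h a (Finset.mem_insert_self a s))
        (analyticAt_prod s fun i hi => h i (Finset.mem_insert_of_mem hi)),
      ih fun i hi => h i (Finset.mem_insert_of_mem hi)]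

lemma tendsto_iteratedDeriv {ι : Type*} {φ : Filter ι} {F : ι → ℂ → ℂ} {f : ℂ → ℂ} {U : Set ℂ}
    (hU : IsOpen U) (m : ℕ) :
    TendstoLocallyUniformlyOn F f φ U → (∀ᶠ n in φ, DifferentiableOn ℂ (F n) U) →
    TendstoLocallyUniformlyOn (fun n => iteratedDeriv m (F n)) (iteratedDeriv m f) φ U ∧
      ∀ᶠ n in φ, DifferentiableOn ℂ (iteratedDeriv m (F n)) U := by
  intro hF hd
  induction m with
  | zero => simpa using ⟨hF, hd⟩
  | succ m ih =>
    simp only [iteratedDeriv_succ]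
    exact ⟨ih.1.deriv ih.2 hU, ih.2.mono fun n hn => hn.deriv hU⟩

lemma tendsto_tay_coeff {ι : Type*} {φ : Filter ι} {F : ι → ℂ → ℂ} {f : ℂ → ℂ} {U : Set ℂ}
    (hU : IsOpen U) (h0 : (0 : ℂ) ∈ U) (hF : TendstoLocallyUniformlyOn F f φ U)
    (hd : ∀ᶠ n in φ, DifferentiableOn ℂ (F n) U) (m : ℕ) :
    Tendsto (fun n => (tay (F n)).coeff m) φ (𝓝 ((tay f).coeff m)) := by
  simp only [tay_coeff]
  exact ((tendsto_iteratedDeriv hU m hF hd).1.tendsto_at h0).const_mul _

/-- the analytic Euler product -/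
def Gf (q : ℂ) : ℂ := ∏' n : ℕ, (1 - q ^ (n + 1))

lemma analyticAt_factor (n : ℕ) : AnalyticAt ℂ ((1 : ℂ → ℂ) - id ^ (n + 1)) 0 :=
  analyticAt_const.sub (analyticAt_id.pow _)

lemma tay_factor (n : ℕ) : tay ((1 : ℂ → ℂ) - id ^ (n + 1)) = 1 - PowerSeries.X ^ (n + 1) := by
  have h1 : AnalyticAt ℂ (1 : ℂ → ℂ) 0 := analyticAt_const
  rw [tay_sub h1 (analyticAt_id.pow _), tay_one, tay_pow analyticAt_id, tay_id]

lemma tay_Gf : tay Gf = etaProd.map (Int.castRingHom ℂ) := by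
  ext m
  have h1 : TendstoLocallyUniformlyOn
      (fun (s : Finset ℕ) (q : ℂ) => ∏ n ∈ s, (1 - q ^ (n + 1))) Gf atTop (Metric.ball 0 1) :=
    hasProdLocallyUniformlyOn_iff_tendstoLocallyUniformlyOn.mp
      multipliableLocallyUniformlyOn_one_sub_pow.hasProdLocallyUniformlyOn
  have h2 := tendsto_tay_coeff Metric.isOpen_ball (Metric.mem_ball_self one_pos) h1
    (.of_forall fun s => by
      simpa [Finset.prod_fn] using
        DifferentiableOn.finsetProd (u := s) (f := fun n (q : ℂ) => 1 - q ^ (n + 1))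
          (s := Metric.ball (0 : ℂ) 1) (fun _ _ ↦ by fun_prop)) m
  have h3 : ∀ s : Finset ℕ, tay (fun q : ℂ => ∏ n ∈ s, (1 - q ^ (n + 1))) =
      (∏ n ∈ s, (1 - PowerSeries.X ^ (n + 1) : PowerSeries ℤ)).map (Int.castRingHom ℂ) := by
    intro s
    have : (fun q : ℂ => ∏ n ∈ s, (1 - q ^ (n + 1))) =
        ∏ n ∈ s, ((1 : ℂ → ℂ) - id ^ (n + 1)) := by
      ext q; simp
    rw [this, tay_prod s fun n _ => analyticAt_factor n, map_prod]
    refine Finset.prod_congr rfl fun n _ => ?_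
    rw [tay_factor]; simp
  simp only [h3, PowerSeries.coeff_map] at h2
  have h4 : Tendsto (fun s : Finset ℕ =>
      (∏ n ∈ s, (1 - PowerSeries.X ^ (n + 1) : PowerSeries ℤ)).coeff m) atTop
      (𝓝 (etaProd.coeff m)) := by
    open scoped PowerSeries.WithPiTopology in
    exact ((PowerSeries.WithPiTopology.continuous_coeff ℤ m).tendsto _).comp
      (PowerSeries.WithPiTopology.multipliable_one_sub_X_pow ℤ).hasProd
  have h5 : Tendsto (fun s : Finset ℕ => (Int.castRingHom ℂ)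
      ((∏ n ∈ s, (1 - PowerSeries.X ^ (n + 1) : PowerSeries ℤ)).coeff m)) atTop
      (𝓝 ((Int.castRingHom ℂ) (etaProd.coeff m))) :=
    ((continuous_of_discreteTopology (f := (Int.castRingHom ℂ))).tendsto _).comp h4
  rw [PowerSeries.coeff_map]
  exact tendsto_nhds_unique h2 h5

lemma analyticAt_Gf : AnalyticAt ℂ Gf 0 :=
  differentiableOn_tprod_one_sub_pow.analyticAt (Metric.ball_mem_nhds 0 one_pos)

end BridgeAux

open BridgeAux

theorem qExpansion_E4 :
    qExpansion 1 (E₄ : ℍ → ℂ) = eisenstein4.map (Int.castRingHom ℂ) := by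
  ext n
  rw [EisensteinSeries.E_qExpansion_coeff _ ⟨2, rfl⟩, PowerSeries.coeff_map, eisenstein4,
    PowerSeries.coeff_mk]
  split_ifs with h
  · simp
  · norm_num [show bernoulli 4 = -1 / 30 by decide +kernel, ArithmeticFunction.sigma_apply]

theorem qExpansion_Delta :
    qExpansion 1 (Δ : ℍ → ℂ) = (PowerSeries.X * dedekindEtaUnit).map (Int.castRingHom ℂ) := by
  rw [qExpansion_eq_tay]
  have h1 : cuspFunction 1 Δ =ᶠ[𝓝 0] (id * Gf ^ 24) := by
    filter_upwards [Metric.ball_mem_nhds (0 : ℂ) one_pos] with q hq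
    rw [discriminant_cuspFunction_eqOn hq]
    simp only [Pi.mul_apply, id, Pi.pow_apply, Gf]
    rw [(multipliable_one_sub_pow (by simpa using hq)).tprod_pow 24]
  rw [tay_congr h1, tay_mul analyticAt_id (analyticAt_Gf.pow 24), tay_id, tay_pow analyticAt_Gf,
    tay_Gf, dedekindEtaUnit]
  simp

end

end Fermat.Agent.S28Lib
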