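import Mathlib
import Fermat.Prelude.Def_ModularForm_HeckeOperator
import Fermat.Agent.Lib.Modular.LevelRaise

/-!
# S28 AN-B : translates of `τ ↦ f (d τ)`
-/

set_option autoImplicit false

open UpperHalfPlane ModularForm Matrix.SpecialLinearGroup
open scoped MatrixGroups Manifold Polynomial

namespace Fermat.Agent.S28Lib

noncomputable section

/-- `τ ↦ (a τ + b) / a'` -/
def utr (a b a' : ℕ) (τ : ℍ) : ℍ :=
  if h : (a : ℝ) * (a' : ℝ) ≠ 0 then upperTriangularGL a b a' h • τ else τ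

namespace TranslateAux

open Fermat.Agent.LevelRaise

lemma utr_eq_triMat (a b a' : ℕ) (τ : ℍ) : utr a b a' τ = triMat a a' (b : ℤ) • τ := by
  unfold utr triMat
  split_ifs with h
  · simp
  · simp

lemma utr_eq_heckeDiag {d : ℕ} (hd : d ≠ 0) (τ : ℍ) : utr d 0 1 τ = heckeDiagMatrix d • τ := by
  rw [utr_eq_triMat]
  congr 1
  apply Units.ext
  rw [val_heckeDiagMatrix hd, val_triMat hd one_ne_zero]
  simp

lemma triMat_shift {A D : ℕ} (hA : A ≠ 0) (hD : D ≠ 0) (B m : ℤ) :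
    ∃ g : SL(2, ℤ), triMat A D (B + m * D) = (g : GL (Fin 2) ℝ) * triMat A D B := by
  obtain ⟨g, e00, e01, e10, e11⟩ : ∃ g : SL(2, ℤ), g 0 0 = 1 ∧ g 0 1 = m ∧ g 1 0 = 0 ∧
      g 1 1 = 1 :=
    ⟨⟨!![1, m; 0, 1], by rw [Matrix.det_fin_two_of]; ring⟩, rfl, rfl, rfl, rfl⟩
  refine ⟨g, ?_⟩
  apply Units.ext
  rw [Units.val_mul, val_triMat hA hD, val_triMat hA hD]
  ext i j
  fin_cases i <;> fin_cases j <;>
    simp [Matrix.mul_apply, Fin.sum_univ_two, e00, e01, e10, e11]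

end TranslateAux

open TranslateAux Fermat.Agent.LevelRaise

theorem coe_utr {a b a' : ℕ} (ha : 0 < a) (ha' : 0 < a') (τ : ℍ) :
    ((utr a b a' τ : ℍ) : ℂ) = ((a : ℂ) * τ + b) / a' := by
  rw [utr_eq_triMat, UpperHalfPlane.coe_smul_of_det_pos (det_triMat_pos ha.ne' ha'.ne' _)]
  simp [UpperHalfPlane.num, UpperHalfPlane.denom, val_triMat ha.ne' ha'.ne']

/-- Hermite normal form + modularity. -/
theorem slash_dilate {k : ℤ} {f : ℍ → ℂ} (hf : ∀ γ : SL(2, ℤ), f ∣[k] γ = f) {d : ℕ} (hd : 0 < d)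
    (γ : SL(2, ℤ)) :
    ∃ a b a' : ℕ, 0 < a ∧ 0 < a' ∧ a * a' = d ∧ a = Int.gcd d (γ 1 0) ∧
      ∀ τ : ℍ, ((fun z => f (utr d 0 1 z)) ∣[k] γ) τ = (a' : ℂ) ^ (-k) * f (utr a b a' τ) := by
  have hd0 : d ≠ 0 := hd.ne'
  obtain ⟨A, D, B, hAD, hA, h⟩ := raise_slash_eq k hd0 hf γ
  have hA0 : A ≠ 0 := by rintro rfl; simp at hAD; exact hd0 hAD.symm
  have hD0 : D ≠ 0 := by rintro rfl; simp at hAD; exact hd0 hAD.symm
  have hDpos : (0 : ℤ) < D := by exact_mod_cast Nat.pos_of_ne_zero hD0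
  have hd' : (d : ℂ) ≠ 0 := by exact_mod_cast hd0
  refine ⟨A, (B % D).toNat, D, Nat.pos_of_ne_zero hA0, Nat.pos_of_ne_zero hD0, hAD, hA,
    fun τ => ?_⟩
  have hb : (((B % D).toNat : ℕ) : ℤ) = B % D := Int.toNat_of_nonneg (Int.emod_nonneg _ hDpos.ne')
  obtain ⟨g, hg⟩ := triMat_shift hA0 hD0 (B % D) (B / D)
  have hB : B % D + B / D * D = B := by rw [mul_comm]; exact Int.emod_add_mul_ediv B D
  rw [hB] at hg
  have hfun : (fun z => f (utr d 0 1 z)) = raise d f := by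
    funext z; rw [utr_eq_heckeDiag hd0, raise_apply]
  rw [hfun, h, hg, SlashAction.slash_mul, ← SL_slash, hf, Pi.smul_apply,
    slash_triMat_apply k hA0 hD0, smul_eq_mul, utr_eq_triMat, hb]
  have : (A : ℂ) * D = d := by exact_mod_cast hAD
  rw [this, ← mul_assoc, ← mul_assoc, inv_mul_cancel₀ (zpow_ne_zero _ hd'), one_mul]

end

end Fermat.Agent.S28Lib
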