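import Mathlib
import Fermat.Prelude.Def_ModularForm_HeckeOperator
import Fermat.Prelude.Thm_UpperHalfPlane_qExpansion_prod
import Fermat.Prelude.Thm_UpperHalfPlane_qExpansion_coeff_nat_mul
import Fermat.Agent.S28.Translate

/-!
# S28 AN-C : functions with `O`-integral `q^{1/n}`-expansion
-/

set_option autoImplicit false

open UpperHalfPlane ModularForm Matrix.SpecialLinearGroup
open scoped MatrixGroups Manifold Polynomial

namespace Fermat.Agent.S28Lib

noncomputable section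

local notation "𝕢" => Function.Periodic.qParam

/-- `F` is `n`-periodic, holomorphic, bounded at `i∞`, and its expansion in `exp (2 π i τ / n)` has
coefficients in `O`. -/
structure QI (O : Subring ℂ) (n : ℕ) (F : ℍ → ℂ) : Prop where
  per : Function.Periodic (F ∘ ofComplex) n
  holo : MDiff F
  bdd : IsBoundedAtImInfty F
  int : ∀ m, (qExpansion n F).coeff m ∈ O

variable {O : Subring ℂ} {n : ℕ}

lemma QI.per' {F : ℍ → ℂ} (hF : QI O n F) : Function.Periodic (F ∘ ofComplex) ((n : ℝ) : ℂ) := by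
  simpa using hF.per

lemma QI.analytic (hn : 0 < n) {F : ℍ → ℂ} (hF : QI O n F) :
    AnalyticAt ℂ (cuspFunction n F) 0 :=
  analyticAt_cuspFunction_zero (by exact_mod_cast hn) hF.per' hF.holo hF.bdd

lemma QI.hasSum (hn : 0 < n) {F : ℍ → ℂ} (hF : QI O n F) (τ : ℍ) :
    HasSum (fun m => (qExpansion n F).coeff m • 𝕢 n (τ : ℂ) ^ m) (F τ) :=
  hasSum_qExpansion (by exact_mod_cast hn) hF.per' hF.holo hF.bdd τ

lemma QIAux.qParam_add_period {h : ℝ} (hh : h ≠ 0) (w : ℂ) : 𝕢 h (w + h) = 𝕢 h w := by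
  have hh' : (h : ℂ) ≠ 0 := by exact_mod_cast hh
  simp only [Function.Periodic.qParam]
  rw [show 2 * Real.pi * Complex.I * (w + h) / h
    = 2 * Real.pi * Complex.I * w / h + 2 * Real.pi * Complex.I by field_simp]
  exact Complex.exp_periodic _

/-- uniqueness of `q`-expansion coefficients, for plain functions -/
lemma QIAux.coeff_unique {h : ℝ} {f : ℍ → ℂ} {c : ℕ → ℂ} (hh : 0 < h)
    (hfanalytic : AnalyticAt ℂ (cuspFunction h f) 0)
    (hf : ∀ τ : ℍ, HasSum (fun m ↦ c m • 𝕢 h (τ : ℂ) ^ m) (f τ)) (m : ℕ) :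
    c m = (qExpansion h f).coeff m := by
  let _ : FunLike (ℍ → ℂ) ℍ ℂ := ⟨id, fun _ _ h => h⟩
  exact qExpansion_coeff_unique (F := ℍ → ℂ) f hh hfanalytic hf m

lemma QI.of_hasSum (hn : 0 < n) {F : ℍ → ℂ} (hol : MDiff F) {c : ℕ → ℂ} (hc : ∀ m, c m ∈ O)
    (h : ∀ τ : ℍ, HasSum (fun m => c m • 𝕢 n (τ : ℂ) ^ m) (F τ)) : QI O n F := by
  have hn' : (0 : ℝ) < n := by exact_mod_cast hn
  have hper : Function.Periodic (F ∘ ofComplex) ((n : ℝ) : ℂ) := by
    intro w
    by_cases hw : 0 < w.im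
    · have hw' : 0 < (w + ((n : ℝ) : ℂ)).im := by simpa using hw
      simp only [Function.comp_apply, ofComplex_apply_of_im_pos hw', ofComplex_apply_of_im_pos hw]
      refine (h ⟨_, hw'⟩).unique ?_
      have := h ⟨w, hw⟩
      convert this using 4
      exact QIAux.qParam_add_period hn'.ne' w
    · have hw1 : w.im ≤ 0 := not_lt.mp hw
      have hw' : (w + ((n : ℝ) : ℂ)).im ≤ 0 := by simpa using hw1
      simp only [Function.comp_apply, ofComplex_apply_of_im_nonpos hw',
        ofComplex_apply_of_im_nonpos hw1]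
  have hbdd := isBoundedAtImInfty_of_hasSum_qExpansion hn' h
  refine ⟨by simpa using hper, hol, hbdd, fun m => ?_⟩
  rw [← QIAux.coeff_unique hn' (analyticAt_cuspFunction_zero hn' hper hol hbdd) h m]
  exact hc m

lemma QIAux.mdiff_comp_coe {g : ℂ → ℂ} (hg : Differentiable ℂ g) : MDiff (fun τ : ℍ => g (τ : ℂ)) :=
  hg.mdifferentiable.comp mdifferentiable_coe


theorem QI.const (hn : 0 < n) {c : ℂ} (hc : c ∈ O) : QI O n (fun _ => c) := by
  refine QI.of_hasSum hn mdifferentiable_const (c := fun m => if m = 0 then c else 0)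
    (fun m => by split_ifs; exacts [hc, O.zero_mem]) (fun τ => ?_)
  convert hasSum_single (f := fun m : ℕ => (if m = 0 then c else 0) • 𝕢 n (τ : ℂ) ^ m) 0
    (fun m hm => by simp [hm]) using 1
  simp

theorem QI.add (hn : 0 < n) {F G : ℍ → ℂ} (hF : QI O n F) (hG : QI O n G) : QI O n (F + G) where
  per := hF.per.add hG.per
  holo := hF.holo.add hG.holo
  bdd := hF.bdd.add hG.bdd
  int m := by
    rw [qExpansion_add (hF.analytic hn) (hG.analytic hn), map_add]
    exact O.add_mem (hF.int m) (hG.int m)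

theorem QI.mul (hn : 0 < n) {F G : ℍ → ℂ} (hF : QI O n F) (hG : QI O n G) : QI O n (F * G) where
  per := hF.per.mul hG.per
  holo := hF.holo.mul hG.holo
  bdd := hF.bdd.mul hG.bdd
  int m := by
    rw [qExpansion_mul (hF.analytic hn) (hG.analytic hn), PowerSeries.coeff_mul]
    exact O.sum_mem fun p _ => O.mul_mem (hF.int _) (hG.int _)

theorem QI.neg (hn : 0 < n) {F : ℍ → ℂ} (hF : QI O n F) : QI O n (-F) where
  per := fun w => by simpa using congrArg Neg.neg (hF.per w)
  holo := hF.holo.neg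
  bdd := hF.bdd.neg_left
  int m := by
    rw [qExpansion_neg (hF.analytic hn), map_neg]
    exact O.neg_mem (hF.int m)

theorem QI.pow (hn : 0 < n) {F : ℍ → ℂ} (hF : QI O n F) (e : ℕ) : QI O n (F ^ e) := by
  induction e with
  | zero => rw [pow_zero]; exact (QI.const hn O.one_mem : QI O n (fun _ => (1 : ℂ)))
  | succ e ih => rw [pow_succ]; exact ih.mul hn hF

theorem QI.sum (hn : 0 < n) {ι : Type*} (s : Finset ι) {F : ι → ℍ → ℂ} (h : ∀ i ∈ s, QI O n (F i)) :
    QI O n (∑ i ∈ s, F i) := by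
  classical
  induction s using Finset.induction_on with
  | empty => rw [Finset.sum_empty]; exact (QI.const hn O.zero_mem : QI O n (fun _ => (0 : ℂ)))
  | insert a s ha ih =>
    rw [Finset.sum_insert ha]
    exact (h a (Finset.mem_insert_self a s)).add hn
      (ih fun i hi => h i (Finset.mem_insert_of_mem hi))

theorem QI.prod (hn : 0 < n) {ι : Type*} (s : Finset ι) {F : ι → ℍ → ℂ}
    (h : ∀ i ∈ s, QI O n (F i)) : QI O n (∏ i ∈ s, F i) := by
  classical
  induction s using Finset.induction_on with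
  | empty => rw [Finset.prod_empty]; exact (QI.const hn O.one_mem : QI O n (fun _ => (1 : ℂ)))
  | insert a s ha ih =>
    rw [Finset.prod_insert ha]
    exact (h a (Finset.mem_insert_self a s)).mul hn
      (ih fun i hi => h i (Finset.mem_insert_of_mem hi))

theorem QI.qParam_pow (hn : 0 < n) (e : ℕ) : QI O n (fun τ : ℍ => 𝕢 n τ ^ e) := by
  refine QI.of_hasSum hn
    (QIAux.mdiff_comp_coe (g := fun z => 𝕢 n z ^ e) (Function.Periodic.differentiable_qParam.pow e))
    (c := fun m => if m = e then 1 else 0)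
    (fun m => by split_ifs; exacts [O.one_mem, O.zero_mem]) (fun τ => ?_)
  convert hasSum_single (f := fun m : ℕ => (if m = e then (1 : ℂ) else 0) • 𝕢 n (τ : ℂ) ^ m) e
    (fun m hm => by simp [hm]) using 1
  simp


lemma QIAux.mdiff_comp_utr {W : ℍ → ℂ} (hW : MDiff W) {a b a' : ℕ} (ha : 0 < a) (ha' : 0 < a') :
    MDiff (fun τ => W (utr a b a' τ)) := by
  have h : (fun τ => W (utr a b a' τ)) =
      ((a : ℂ) * a') • (W ∣[(0 : ℤ)] LevelRaise.triMat a a' (b : ℤ)) := by
    funext τ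
    have h1 : ((a : ℂ) * a') ≠ 0 :=
      mul_ne_zero (by exact_mod_cast ha.ne') (by exact_mod_cast ha'.ne')
    rw [Pi.smul_apply, LevelRaise.slash_triMat_apply 0 ha.ne' ha'.ne', TranslateAux.utr_eq_triMat,
      smul_eq_mul]
    simp only [zero_sub, zpow_neg, zpow_one, neg_zero, zpow_zero, mul_one]
    rw [← mul_assoc, mul_inv_cancel₀ h1, one_mul]
  rw [h]
  exact (hW.slash 0 _).const_smul _

lemma QIAux.hasSum_reindex {e : ℕ} (he : 0 < e) (w : ℕ → ℂ) (q S : ℂ)
    (h : HasSum (fun m => w m • (q ^ e) ^ m) S) :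
    HasSum (fun j => (if e ∣ j then w (j / e) else 0) • q ^ j) S := by
  have hinj : Function.Injective (fun m : ℕ => e * m) :=
    fun x y hxy => Nat.eq_of_mul_eq_mul_left he hxy
  rw [← hinj.hasSum_iff]
  · convert h using 2 with m
    simp [Function.comp, Nat.mul_div_cancel_left _ he, pow_mul]
  · intro m hm
    have : ¬ e ∣ m := by
      rintro ⟨j, rfl⟩
      exact hm ⟨j, rfl⟩
    simp [this]

lemma QIAux.qParam_utr {a b a' t : ℕ} (ha : 0 < a) (ha' : 0 < a') (ht : 0 < t) (τ : ℍ) :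
    𝕢 1 ((utr a b a' τ : ℍ) : ℂ) =
      Complex.exp (2 * Real.pi * Complex.I / ((a' * t : ℕ) : ℂ)) ^ (b * t) *
        𝕢 ((a' * t : ℕ) : ℝ) (τ : ℂ) ^ (a * t) := by
  have h1 : (a' : ℂ) ≠ 0 := by exact_mod_cast ha'.ne'
  have h2 : (t : ℂ) ≠ 0 := by exact_mod_cast ht.ne'
  rw [coe_utr ha ha', Function.Periodic.qParam, Function.Periodic.qParam, ← Complex.exp_nat_mul,
    ← Complex.exp_nat_mul, ← Complex.exp_add]
  congr 1
  push_cast
  field_simp
  ring

lemma QIAux.hasSum_comp_utr {W : ℍ → ℂ} (hW : QI O 1 W) {a b a' t : ℕ} (ha : 0 < a) (ha' : 0 < a')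
    (ht : 0 < t) (τ : ℍ) :
    HasSum (fun j => (if a * t ∣ j then (qExpansion 1 W).coeff (j / (a * t)) *
        (Complex.exp (2 * Real.pi * Complex.I / ((a' * t : ℕ) : ℂ)) ^ (b * t)) ^ (j / (a * t))
        else 0) • 𝕢 ((a' * t : ℕ) : ℝ) (τ : ℂ) ^ j) (W (utr a b a' τ)) := by
  apply QIAux.hasSum_reindex (Nat.mul_pos ha ht)
    (fun m => (qExpansion 1 W).coeff m *
      (Complex.exp (2 * Real.pi * Complex.I / ((a' * t : ℕ) : ℂ)) ^ (b * t)) ^ m)
  have h := hW.hasSum one_pos (utr a b a' τ)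
  simp only [Nat.cast_one] at h
  rw [QIAux.qParam_utr ha ha' ht] at h
  convert h using 2 with m
  rw [mul_pow, smul_eq_mul, smul_eq_mul, mul_assoc]

/-- substitution `τ ↦ (a τ + b)/a'`, `a' ∣ n`. -/
theorem QI.comp_utr (hn : 0 < n) (hζ : Complex.exp (2 * Real.pi * Complex.I / n) ∈ O)
    {W : ℍ → ℂ} (hW : QI O 1 W) {a b a' : ℕ} (ha : 0 < a) (ha' : 0 < a') (hdvd : a' ∣ n) :
    QI O n (fun τ => W (utr a b a' τ)) := by
  obtain ⟨t, rfl⟩ := hdvd
  have ht : 0 < t := Nat.pos_of_mul_pos_left hn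
  refine QI.of_hasSum hn (QIAux.mdiff_comp_utr hW.holo ha ha') ?_ (QIAux.hasSum_comp_utr hW ha ha' ht)
  intro j
  split_ifs
  · refine O.mul_mem ?_ (O.pow_mem (O.pow_mem hζ _) _)
    simpa using hW.int (j / (a * t))
  · exact O.zero_mem

/-- a `1`-periodic function with integral `q^{1/n}`-expansion has integral `q`-expansion. -/
theorem QI.descend (hn : 0 < n) {F : ℍ → ℂ} (hF : QI O n F)
    (hper : Function.Periodic (F ∘ ofComplex) 1) : QI O 1 F where
  per := by simpa using hper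
  holo := hF.holo
  bdd := hF.bdd
  int m := by
    have h := UpperHalfPlane.qExpansion_coeff_nat_mul (h := 1) one_pos (by simpa using hper)
      hF.holo hF.bdd hn (n * m)
    rw [if_pos (Dvd.intro _ rfl), Nat.mul_div_cancel_left _ hn, mul_one] at h
    simp only [Nat.cast_one]
    rw [← h]
    exact hF.int _

/-- `q`-expansion of `τ ↦ W (d τ)`. -/
theorem qExpansion_dilate {W : ℍ → ℂ} (hW : QI ⊤ 1 W) {d : ℕ} (hd : d ≠ 0) :
    qExpansion 1 (fun τ => W (utr d 0 1 τ)) = PowerSeries.expand d hd (qExpansion 1 W) := by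
  have hQ : QI ⊤ 1 (fun τ => W (utr d 0 1 τ)) :=
    QI.comp_utr one_pos (Subring.mem_top _) hW (Nat.pos_of_ne_zero hd) one_pos (one_dvd _)
  ext j
  have han := hQ.analytic one_pos
  simp only [Nat.cast_one] at han
  have h := fun τ => QIAux.hasSum_comp_utr (b := 0) (a' := 1) (t := 1) hW (Nat.pos_of_ne_zero hd)
    one_pos one_pos τ
  simp only [mul_one, Nat.cast_one, pow_zero, one_pow] at h
  rw [← QIAux.coeff_unique one_pos han h j, PowerSeries.coeff_expand]

end

end Fermat.Agent.S28Lib
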