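import Fermat.Agent.S28.Defs
import Fermat.Agent.S20.Defs
import Fermat.Agent.S28.QI
import Fermat.Prelude.Thm_ModularForm_sturm_bound_Gamma0
import Fermat.Prelude.Thm_CongruenceSubgroup_one_mem_strictPeriods_Gamma0

/-!
# S28 AN-F : rational `q`-expansions of forms on `Γ₀(N)` (generic part)
-/

set_option autoImplicit false

open ModularCurve UpperHalfPlane ModularForm Matrix.SpecialLinearGroup
open scoped MatrixGroups Manifold Polynomial
open Fermat.Agent.S20Lib

namespace Fermat.Agent.S28Lib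

noncomputable section

variable (N : ℕ) [NeZero N]

theorem isMF_dilate {k : ℤ} {f : ℍ → ℂ} (hf : IsMF ⊤ k f) {d : ℕ} (hd : d ∣ N) :
    IsMF (CongruenceSubgroup.Gamma0 N) k (fun τ => f (utr d 0 1 τ)) := by
  have hd0 : d ≠ 0 := by
    rintro rfl
    exact NeZero.ne N (Nat.eq_zero_of_zero_dvd hd)
  have hle : CongruenceSubgroup.Gamma0 N ≤ CongruenceSubgroup.Gamma0 d := by
    intro g hg
    rw [CongruenceSubgroup.Gamma0_mem, ZMod.intCast_zmod_eq_zero_iff_dvd] at hg ⊢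
    exact (Int.natCast_dvd_natCast.mpr hd).trans hg
  have hfun : (fun τ => f (utr d 0 1 τ)) = LevelRaise.raise d f := by
    funext z; rw [TranslateAux.utr_eq_heckeDiag hd0, LevelRaise.raise_apply]
  rw [hfun]
  exact IsMF.mono hle ⟨LevelRaise.raise_mdiff hd0 hf.holo,
    fun γ hγ => LevelRaise.raise_slash_of_mem k hd0 hf.top_slash hγ,
    fun γ => LevelRaise.raise_slash_bdd k hd0 hf.top_slash (by simpa using hf.bdd 1) γ⟩

/-- `s` is the `q`-expansion of a modular form of weight `k` on `Γ₀(N)`. -/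
def IsQ (k : ℕ) (s : PowerSeries ℚ) : Prop :=
  ∃ f : ℍ → ℂ, IsMF (CongruenceSubgroup.Gamma0 N) k f ∧ qExpansion 1 f = s.map (algebraMap ℚ ℂ)

variable {N}

lemma IsQAux.analytic {k : ℤ} {f : ℍ → ℂ} (hf : IsMF (CongruenceSubgroup.Gamma0 N) k f) :
    AnalyticAt ℂ (cuspFunction 1 f) 0 :=
  ModularFormClass.analyticAt_cuspFunction_zero hf.toModularForm one_pos
    (CongruenceSubgroup.one_mem_strictPeriods_Gamma0 N)

lemma IsQAux.periodic {k : ℤ} {f : ℍ → ℂ} (hf : IsMF (CongruenceSubgroup.Gamma0 N) k f) :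
    Function.Periodic (f ∘ ofComplex) 1 := by
  have := SlashInvariantFormClass.periodic_comp_ofComplex (h := 1) hf.toModularForm
    (CongruenceSubgroup.one_mem_strictPeriods_Gamma0 N)
  simpa using this

/-- a modular form on `Γ₀(N)` is `QI ⊤ 1`. -/
lemma IsQAux.qi_top {k : ℤ} {f : ℍ → ℂ} (hf : IsMF (CongruenceSubgroup.Gamma0 N) k f) :
    QI ⊤ 1 f where
  per := by simpa using IsQAux.periodic hf
  holo := hf.holo
  bdd := by simpa using hf.bdd 1
  int _ := Subring.mem_top _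

theorem IsQ.add {k : ℕ} {s s' : PowerSeries ℚ} (h : IsQ N k s) (h' : IsQ N k s') :
    IsQ N k (s + s') := by
  obtain ⟨f, hf, hs⟩ := h
  obtain ⟨f', hf', hs'⟩ := h'
  exact ⟨f + f', hf.add hf', by
    rw [qExpansion_add (IsQAux.analytic hf) (IsQAux.analytic hf'), hs, hs', map_add]⟩

theorem IsQ.smul {k : ℕ} {s : PowerSeries ℚ} (c : ℚ) (h : IsQ N k s) : IsQ N k (c • s) := by
  obtain ⟨f, hf, hs⟩ := h
  refine ⟨(c : ℂ) • f, hf.smul _, ?_⟩
  rw [qExpansion_smul (IsQAux.analytic hf), hs]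
  ext m
  simp

theorem IsQ.mul {k k' : ℕ} {s s' : PowerSeries ℚ} (h : IsQ N k s) (h' : IsQ N k' s') :
    IsQ N (k + k') (s * s') := by
  obtain ⟨f, hf, hs⟩ := h
  obtain ⟨f', hf', hs'⟩ := h'
  exact ⟨f * f', hf.mul' hf' (by push_cast; ring), by
    rw [qExpansion_mul (IsQAux.analytic hf) (IsQAux.analytic hf'), hs, hs', map_mul]⟩

/-- Sturm bound (Prelude `ModularForm.sturm_bound_Gamma0`). -/
theorem IsQ.eq_zero {k : ℕ} {s : PowerSeries ℚ} (h : IsQ N k s)
    (h0 : ∀ n ≤ k * idx N / 12, s.coeff n = 0) : s = 0 := by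
  obtain ⟨f, hf, hs⟩ := h
  have h1 : hf.toModularForm = 0 := by
    apply ModularForm.sturm_bound_Gamma0 N
    intro n hn
    have hn' : n ≤ k * idx N / 12 := by
      have : ((k : ℤ) * ((CongruenceSubgroup.Gamma0 N).index : ℤ)).toNat = k * idx N := by
        rw [idx, ← Nat.cast_mul, Int.toNat_natCast]
      rwa [this] at hn
    rw [IsMF.coe_toModularForm, hs, PowerSeries.coeff_map, h0 n hn', map_zero]
  have h2 : f = 0 := by
    have := congrArg (fun F : ModularForm _ _ => (F : ℍ → ℂ)) h1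
    simpa using this
  rw [h2, qExpansion_zero] at hs
  ext m
  have := congrArg (PowerSeries.coeff m) hs
  simpa using this.symm

variable (N)

theorem isQ_zero (k : ℕ) : IsQ N k 0 :=
  ⟨0, IsMF.zero_mf, by rw [qExpansion_zero, map_zero]⟩

theorem isQ_one : IsQ N 0 1 := by
  refine ⟨1, ⟨mdifferentiable_const, fun γ _ => ?_, fun γ => ?_⟩, by rw [qExpansion_one, map_one]⟩
  · exact is_invariant_one γ
  · have : ((1 : ℍ → ℂ) ∣[((0 : ℕ) : ℤ)] γ) = 1 := is_invariant_one γ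
    rw [this]
    exact Filter.const_boundedAtFilter _ (1 : ℂ)

/-- `q`-expansion of `f(dτ)` for a level one form `f` with rational `q`-expansion. -/
theorem isQ_dilate {k : ℕ} {f : ℍ → ℂ} (hf : IsMF ⊤ k f) {s : PowerSeries ℚ}
    (hs : qExpansion 1 f = s.map (algebraMap ℚ ℂ)) {d : ℕ} (hd : d ∣ N) (hd0 : d ≠ 0) :
    IsQ N k (PowerSeries.expand d hd0 s) := by
  refine ⟨_, isMF_dilate N hf hd, ?_⟩
  have hq : QI ⊤ 1 f := IsQAux.qi_top (N := 1) (hf.mono le_top)
  rw [qExpansion_dilate hq hd0, hs, PowerSeries.map_expand]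

end

end Fermat.Agent.S28Lib
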