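import Mathlib
import Fermat.Prelude.Def_ModularCurve_IgusaScheme
import Fermat.Prelude.Def_ModularCurve_X0ModL

/-!
# S28 (Igusa): common definitions

`HH N κ` is the `q`-expansion (coefficients in `κ`) of the weight-0 eta quotient
`H = (∏_{d ∣ N} Δ(dτ)^{μ(N/d) d}) / Δ(τ)^{φ(N)}`.
-/

set_option autoImplicit false

open ModularCurve HahnSeries

namespace Fermat.Agent.S28Lib

noncomputable section

/-- the exponent of `Δ(dτ)` in the eta quotient `h₀`. -/
def rExp (N d : ℕ) : ℤ := ArithmeticFunction.moebius (N / d) * d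

/-- `(weight of h₀)/12`; equals `φ(N)`. -/
def MM (N : ℕ) : ℤ := ∑ d ∈ N.divisors, rExp N d

/-- order of `h₀` at `∞`; equals `J₂(N)`. -/
def ZZ (N : ℕ) : ℤ := ∑ d ∈ N.divisors, rExp N d * d

/-- `MM` as a natural number. -/
def Mn (N : ℕ) : ℕ := (MM N).toNat

/-- index of `Γ₀(N)` in `SL₂(ℤ)`. -/
def idx (N : ℕ) : ℕ := (CongruenceSubgroup.Gamma0 N).index

/-- `∏ (1 - qⁿ)^24` as a unit of `ℤ⟦q⟧`. -/
def etaU : (PowerSeries ℤ)ˣ where
  val := dedekindEtaUnit
  inv := dedekindEtaUnitInv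
  val_inv := dedekindEtaUnit_mul_inv
  inv_val := by rw [mul_comm]; exact dedekindEtaUnit_mul_inv

/-- `∏ (1 - q^{dn})^24` as a unit of `ℤ⟦q⟧` (junk value `1` for `d = 0`). -/
def expU (d : ℕ) : (PowerSeries ℤ)ˣ :=
  if hd : d = 0 then 1 else Units.map (PowerSeries.expand d hd : PowerSeries ℤ →ₐ[ℤ] PowerSeries ℤ) etaU

/-- the unit part of `h₀ = q^{ZZ} * wU`. -/
def wU (N : ℕ) : (PowerSeries ℤ)ˣ := ∏ d ∈ N.divisors, expU d ^ rExp N d

/-- the unit part of `H = q^{ZZ - MM} * HNum`. -/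
def HNum (N : ℕ) : PowerSeries ℤ := ((wU N * etaU ^ (-(MM N)) : (PowerSeries ℤ)ˣ) : PowerSeries ℤ)

/-- `q`-expansion of `H` with coefficients in `κ`. -/
def HH (N : ℕ) (κ : Type*) [CommRing κ] : LaurentSeries κ :=
  HahnSeries.single (ZZ N - MM N) 1 *
    HahnSeries.ofPowerSeries ℤ κ ((HNum N).map (Int.castRingHom κ))

/-- evaluation of a polynomial at `j`. -/
def evJ (κ : Type*) [CommRing κ] : Polynomial κ →+* LaurentSeries κ :=
  (Polynomial.aeval (R := κ) (jqModC κ)).toRingHom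

/-- evaluation of a two-variable polynomial at `(j, H)`. -/
def ev2 (N : ℕ) (κ : Type*) [CommRing κ] (p : Polynomial (Polynomial κ)) : LaurentSeries κ :=
  p.eval₂ (evJ κ) (HH N κ)

end

end Fermat.Agent.S28Lib
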