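import Mathlib
import Fermat.Agent.S28.Defs

/-!
# S28, piece Cnt: every element of the function field is a `ℚ(j)`-combination of
`1, H, …, H^{idx - 1}`

Everything is proved against an abstract interface `CntIface N Q` (`Q k s` = "`s` is the
`q`-expansion of a weight `k` modular form on `Γ₀(N)` with rational coefficients").
-/

set_option autoImplicit false

open ModularCurve HahnSeries
open scoped Polynomial

namespace Fermat.Agent.S28Lib

noncomputable section

namespace Cnt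

/-- `E₄` as a rational power series -/
def E4q : PowerSeries ℚ := eisenstein4.map (Int.castRingHom ℚ)

/-- `Δ` as a rational power series -/
def Dq : PowerSeries ℚ := (PowerSeries.X * dedekindEtaUnit).map (Int.castRingHom ℚ)

/-- `h₀` as a rational power series -/
def h0q (N : ℕ) : PowerSeries ℚ :=
  (PowerSeries.X ^ (ZZ N).toNat * (wU N : PowerSeries ℤ)).map (Int.castRingHom ℚ)

/-- The abstract interface. -/
structure Iface (N : ℕ) (Q : ℕ → PowerSeries ℚ → Prop) : Prop where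
  add : ∀ {k : ℕ} {s s' : PowerSeries ℚ}, Q k s → Q k s' → Q k (s + s')
  smul : ∀ {k : ℕ} {s : PowerSeries ℚ} (c : ℚ), Q k s → Q k (c • s)
  mul : ∀ {k k' : ℕ} {s s' : PowerSeries ℚ}, Q k s → Q k' s' → Q (k + k') (s * s')
  eq_zero : ∀ {k : ℕ} {s : PowerSeries ℚ}, Q k s →
    (∀ n ≤ k * idx N / 12, s.coeff n = 0) → s = 0
  zero : ∀ k, Q k 0
  one : Q 0 1
  E4 : ∀ {d : ℕ} (_ : d ∣ N) (hd0 : d ≠ 0), Q 4 (PowerSeries.expand d hd0 E4q)
  Delta : ∀ {d : ℕ} (_ : d ∣ N) (hd0 : d ≠ 0), Q 12 (PowerSeries.expand d hd0 Dq)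
  h0 : Q (12 * Mn N) (h0q N)

local notation "ι" => HahnSeries.ofPowerSeries ℤ ℚ

lemma iota_injective : Function.Injective (ι) := HahnSeries.ofPowerSeries_injective

lemma iota_ne_zero {p : PowerSeries ℚ} (hp : p ≠ 0) : ι p ≠ 0 := by
  intro h
  exact hp (iota_injective (by rw [h, map_zero]))

lemma qExpand_iota (d : ℕ) [NeZero d] (hd : d ≠ 0) (p : PowerSeries ℚ) :
    qExpand ℚ d (ι p) = ι (PowerSeries.expand d hd p) := by
  ext k
  by_cases hk : (d : ℤ) ∣ k
  · obtain ⟨m, rfl⟩ := hk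
    rw [qExpand_coeff_mul]
    rcases le_or_gt 0 m with hm | hm
    · lift m to ℕ using hm
      rw [HahnSeries.ofPowerSeries_apply_coeff,
        show (d : ℤ) * (m : ℤ) = ((d * m : ℕ) : ℤ) by push_cast; ring,
        HahnSeries.ofPowerSeries_apply_coeff, PowerSeries.coeff_expand_mul]
    · rw [ofPowerSeries_coeff_of_neg _ hm, ofPowerSeries_coeff_of_neg]
      have : (0 : ℤ) < d := by exact_mod_cast Nat.pos_of_ne_zero hd
      nlinarith
  · rw [qExpand_coeff_of_not_dvd d _ hk]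
    rcases le_or_gt 0 k with hk0 | hk0
    · lift k to ℕ using hk0
      rw [HahnSeries.ofPowerSeries_apply_coeff, PowerSeries.coeff_expand_of_not_dvd]
      intro h
      exact hk (by exact_mod_cast h)
    · rw [ofPowerSeries_coeff_of_neg _ hk0]

lemma iota_X_pow (n : ℕ) : ι (PowerSeries.X ^ n) = HahnSeries.single (n : ℤ) 1 := by
  rw [map_pow, HahnSeries.ofPowerSeries_X, HahnSeries.single_pow, one_pow]
  simp

lemma j_mul_D : jqModC ℚ * ι Dq = ι (E4q ^ 3) := by
  have h1 : jNum * dedekindEtaUnit = eisenstein4 ^ 3 := by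
    rw [jNum, mul_assoc, mul_comm dedekindEtaUnitInv, dedekindEtaUnit_mul_inv, mul_one]
  have h2 : E4q ^ 3 = (jNum.map (Int.castRingHom ℚ)) * (dedekindEtaUnit.map (Int.castRingHom ℚ)) := by
    rw [E4q, ← map_pow, ← h1, map_mul]
  rw [h2, jqModC, Dq, map_mul, PowerSeries.map_X, map_mul, map_mul, HahnSeries.ofPowerSeries_X]
  have h3 : (HahnSeries.single (-1 : ℤ) (1 : ℚ)) * HahnSeries.single (1 : ℤ) 1 = 1 := by
    rw [HahnSeries.single_mul_single]; simp
  calc _ = (HahnSeries.single (-1 : ℤ) (1 : ℚ) * HahnSeries.single (1 : ℤ) 1) *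
        (ι (jNum.map (Int.castRingHom ℚ)) * ι (dedekindEtaUnit.map (Int.castRingHom ℚ))) := by ring
    _ = _ := by rw [h3, one_mul]

lemma H_mul_D_pow (N : ℕ) (hMM : 0 ≤ MM N) (hZZ : 0 ≤ ZZ N) :
    HH N ℚ * ι Dq ^ Mn N = ι (h0q N) := by
  have hM : ((Mn N : ℕ) : ℤ) = MM N := Int.toNat_of_nonneg hMM
  have h1 : HNum N * dedekindEtaUnit ^ Mn N = (wU N : PowerSeries ℤ) := by
    have : (wU N * etaU ^ (-(MM N)) : (PowerSeries ℤ)ˣ) * etaU ^ (Mn N) = wU N := by
      rw [mul_assoc, ← zpow_natCast etaU (Mn N), hM, ← zpow_add]; simp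
    have h := congrArg (fun u : (PowerSeries ℤ)ˣ => (u : PowerSeries ℤ)) this
    simpa [HNum, etaU] using h
  rw [HH, h0q, Dq, map_mul, map_mul, PowerSeries.map_X, map_mul, HahnSeries.ofPowerSeries_X,
    mul_pow, HahnSeries.single_pow, one_pow, map_pow, PowerSeries.map_X, map_mul, iota_X_pow,
    ← h1, map_mul, map_mul, map_pow, map_pow]
  have h3 : (HahnSeries.single (ZZ N - MM N) (1 : ℚ)) * HahnSeries.single (Mn N • (1 : ℤ)) 1
      = HahnSeries.single (((ZZ N).toNat : ℕ) : ℤ) 1 := by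
    rw [HahnSeries.single_mul_single, Int.toNat_of_nonneg hZZ]
    congr 1
    · simp [hM]
    · simp
  rw [← h3]
  ring

lemma Dq_coeff_one : Dq.coeff 1 = 1 := by
  rw [Dq, PowerSeries.coeff_map, show (1 : ℕ) = 0 + 1 from rfl, PowerSeries.coeff_succ_X_mul,
    PowerSeries.coeff_zero_eq_constantCoeff_apply, constantCoeff_dedekindEtaUnit]
  simp

lemma Dq_ne_zero : Dq ≠ 0 := by
  intro h
  have := Dq_coeff_one
  rw [h] at this
  simp at this

lemma expand_Dq_ne_zero (d : ℕ) (hd : d ≠ 0) : PowerSeries.expand d hd Dq ≠ 0 := by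
  intro h
  have h1 : (PowerSeries.expand d hd Dq).coeff (d * 1) = 1 := by
    rw [PowerSeries.coeff_expand_mul, Dq_coeff_one]
  rw [h] at h1
  simp at h1

/-- `y` is a quotient of two forms of the same weight. -/
def IsFrac (Q : ℕ → PowerSeries ℚ → Prop) (y : LaurentSeries ℚ) : Prop :=
  ∃ (k : ℕ) (f g : PowerSeries ℚ), Q k f ∧ Q k g ∧ g ≠ 0 ∧ y * ι g = ι f

variable {N : ℕ} {Q : ℕ → PowerSeries ℚ → Prop}

lemma isFrac_of_mem (hQ : Iface N Q) (y : LaurentSeries ℚ)
    (hy : y ∈ modularFunctionFieldFull N) : IsFrac Q y := by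
  unfold modularFunctionFieldFull at hy
  induction hy using IntermediateField.adjoin_induction with
  | mem x hx =>
    obtain ⟨d, hne, hd, rfl⟩ := hx
    have hd0 : d ≠ 0 := NeZero.ne d
    refine ⟨12, (PowerSeries.expand d hd0 E4q) ^ 3, PowerSeries.expand d hd0 Dq, ?_,
      hQ.Delta hd hd0, expand_Dq_ne_zero d hd0, ?_⟩
    · have h := hQ.mul (hQ.mul (hQ.E4 hd hd0) (hQ.E4 hd hd0)) (hQ.E4 hd hd0)
      have e : (PowerSeries.expand d hd0 E4q) ^ 3 = PowerSeries.expand d hd0 E4q *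
          PowerSeries.expand d hd0 E4q * PowerSeries.expand d hd0 E4q := by ring
      rw [e]
      exact h
    · have h := congrArg (qExpand ℚ d) j_mul_D
      rw [map_mul, qExpand_iota d hd0, qExpand_iota d hd0, map_pow] at h
      exact h
  | algebraMap c =>
    refine ⟨0, c • 1, 1, hQ.smul c hQ.one, hQ.one, one_ne_zero, ?_⟩
    rw [map_one, mul_one, algebraMap_apply_eq_single, PowerSeries.smul_eq_C_mul, mul_one,
      HahnSeries.ofPowerSeries_C]
    rfl
  | add x y _ _ hx hy =>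
    obtain ⟨k, f, g, hf, hg, hg0, h⟩ := hx
    obtain ⟨k', f', g', hf', hg', hg0', h'⟩ := hy
    refine ⟨k + k', f * g' + g * f', g * g', hQ.add (hQ.mul hf hg') (hQ.mul hg hf'),
      hQ.mul hg hg', mul_ne_zero hg0 hg0', ?_⟩
    rw [map_mul, map_add, map_mul, map_mul, ← h, ← h']
    ring
  | inv x _ hx =>
    obtain ⟨k, f, g, hf, hg, hg0, h⟩ := hx
    by_cases hx0 : x = 0
    · refine ⟨k, 0, g, hQ.zero k, hg, hg0, ?_⟩
      rw [hx0, inv_zero, zero_mul, map_zero]
    · have hf0 : f ≠ 0 := by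
        rintro rfl
        rw [map_zero] at h
        exact (mul_ne_zero hx0 (iota_ne_zero hg0)) h
      refine ⟨k, g, f, hg, hf, hf0, ?_⟩
      rw [← h, ← mul_assoc, inv_mul_cancel₀ hx0, one_mul]
  | mul x y _ _ hx hy =>
    obtain ⟨k, f, g, hf, hg, hg0, h⟩ := hx
    obtain ⟨k', f', g', hf', hg', hg0', h'⟩ := hy
    refine ⟨k + k', f * f', g * g', hQ.mul hf hf', hQ.mul hg hg', mul_ne_zero hg0 hg0', ?_⟩
    rw [map_mul, map_mul, ← h, ← h']
    ring

lemma Iface.pow (hQ : Iface N Q) {k : ℕ} {s : PowerSeries ℚ} (h : Q k s) (n : ℕ) :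
    Q (n * k) (s ^ n) := by
  induction n with
  | zero => simpa using hQ.one
  | succ n ih =>
    rw [pow_succ, Nat.succ_mul]
    exact hQ.mul ih h

lemma Iface.sum (hQ : Iface N Q) {k : ℕ} {α : Type*} (t : Finset α) (v : α → PowerSeries ℚ)
    (h : ∀ i ∈ t, Q k (v i)) : Q k (∑ i ∈ t, v i) :=
  Finset.sum_induction _ _ (fun _ _ => hQ.add) (hQ.zero k) h

/-- Siegel's lemma, trivial version. -/
lemma exists_relation {α : Type} [Fintype α] (v : α → PowerSeries ℚ) (B : ℕ)
    (h : B + 1 < Fintype.card α) :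
    ∃ c : α → ℚ, c ≠ 0 ∧ ∀ n ≤ B, (∑ i, c i • v i).coeff n = 0 := by
  classical
  let L : (α → ℚ) →ₗ[ℚ] (Fin (B + 1) → ℚ) :=
    LinearMap.pi fun n => (PowerSeries.coeff (R := ℚ) (n : ℕ)) ∘ₗ (Fintype.linearCombination ℚ v)
  have hker : LinearMap.ker L ≠ ⊥ := by
    apply LinearMap.ker_ne_bot_of_finrank_lt
    simpa using h
  obtain ⟨c, hc, hc0⟩ := (Submodule.ne_bot_iff _).1 hker
  refine ⟨c, hc0, fun n hn => ?_⟩
  have := congrFun (LinearMap.mem_ker.1 hc) ⟨n, Nat.lt_succ_of_le hn⟩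
  simpa [L, Fintype.linearCombination_apply] using this

lemma sumFin_coeff {R : Type*} [Semiring R] {n : ℕ} (f : Fin n → R) (i : Fin n) :
    (∑ a : Fin n, Polynomial.C (f a) * Polynomial.X ^ (a : ℕ)).coeff i = f i := by
  classical
  rw [Polynomial.finsetSum_coeff]
  simp only [Polynomial.coeff_C_mul, Polynomial.coeff_X_pow]
  rw [Finset.sum_eq_single i]
  · simp
  · intro b _ hb
    have : (i : ℕ) ≠ b := fun h => hb (Fin.ext h.symm)
    simp [this]
  · simp

lemma Q_cast {k k' : ℕ} {s : PowerSeries ℚ} (h : k = k') (hs : Q k s) : Q k' s := h ▸ hs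

lemma evJ_sumFin {n : ℕ} (f : Fin n → ℚ) :
    evJ ℚ (∑ a : Fin n, Polynomial.C (f a) * Polynomial.X ^ (a : ℕ))
      = ∑ a : Fin n, algebraMap ℚ (LaurentSeries ℚ) (f a) * jqModC ℚ ^ (a : ℕ) := by
  rw [map_sum]
  refine Finset.sum_congr rfl fun a _ => ?_
  simp only [evJ, AlgHom.toRingHom_eq_coe, RingHom.coe_coe, map_mul, Polynomial.aeval_C, map_pow,
    Polynomial.aeval_X]

lemma ev2_sumFin (N : ℕ) {n : ℕ} (f : Fin n → ℚ[X]) :
    ev2 N ℚ (∑ i : Fin n, Polynomial.C (f i) * Polynomial.X ^ (i : ℕ))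
      = ∑ i : Fin n, evJ ℚ (f i) * HH N ℚ ^ (i : ℕ) := by
  rw [ev2, Polynomial.eval₂_finsetSum]
  refine Finset.sum_congr rfl fun a _ => ?_
  simp

lemma natDegree_sumFin_lt {R : Type*} [Semiring R] {n : ℕ} (hn : 0 < n) (f : Fin n → R) :
    (∑ i : Fin n, Polynomial.C (f i) * Polynomial.X ^ (i : ℕ)).natDegree < n := by
  by_cases h0 : (∑ i : Fin n, Polynomial.C (f i) * Polynomial.X ^ (i : ℕ)) = 0
  · rw [h0]; simpa using hn
  · exact (Polynomial.natDegree_lt_iff_degree_lt h0).2 (Polynomial.degree_sum_fin_lt f)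

theorem span_HH_of (N : ℕ) [NeZero N] (hQ : Iface N Q) (hMM : 0 ≤ MM N) (hZZ : 0 ≤ ZZ N)
    (hindep : ∀ p : ℚ[X][X], p ≠ 0 → ev2 N ℚ p = 0 → idx N ≤ p.natDegree)
    (y : LaurentSeries ℚ) (hy : y ∈ modularFunctionFieldFull N) :
    ∃ (b : ℚ[X]) (a : ℚ[X][X]), b ≠ 0 ∧ a.natDegree < idx N ∧ evJ ℚ b * y = ev2 N ℚ a := by
  classical
  obtain ⟨k, f, g, hf, hg, hg0, hy⟩ := isFrac_of_mem hQ y hy
  have hT : 0 < idx N := Nat.pos_of_ne_zero (Subgroup.FiniteIndex.index_ne_zero)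
  set T := idx N with hTdef
  set M := Mn N with hMdef
  have D1 : Q 12 Dq := by
    have := hQ.Delta (one_dvd N) one_ne_zero
    rwa [PowerSeries.expand_one_apply] at this
  have E1 : Q 12 (E4q ^ 3) := by
    have := hQ.E4 (one_dvd N) one_ne_zero
    rw [PowerSeries.expand_one_apply] at this
    exact hQ.pow this 3
  set k0 := k + 12 * (M * (T - 1)) with hk0
  -- numerators
  let nn : Option (Fin T) → PowerSeries ℚ := fun o =>
    match o with
    | none => f * Dq ^ (M * (T - 1))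
    | some i => g * (h0q N ^ (i : ℕ) * Dq ^ (M * (T - 1 - i)))
  have hnn : ∀ o, Q k0 (nn o) := by
    intro o
    cases o with
    | none =>
      exact Q_cast (by rw [hk0]; ring) (hQ.mul hf (hQ.pow D1 (M * (T - 1))))
    | some i =>
      refine Q_cast ?_ (hQ.mul hg (hQ.mul (hQ.pow hQ.h0 (i : ℕ)) (hQ.pow D1 (M * (T - 1 - i)))))
      have hi : T - 1 = (i : ℕ) + (T - 1 - i) := by have := i.2; omega
      rw [hk0]
      generalize T - 1 - (i : ℕ) = t at hi ⊢
      rw [hi]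
      ring
  set A := k0 * T with hA
  let v : Option (Fin T) × Fin (A + 1) → PowerSeries ℚ := fun x =>
    (E4q ^ 3) ^ (x.2 : ℕ) * Dq ^ (A - x.2) * nn x.1
  set W := 12 * A + k0 with hW
  have hv : ∀ x, Q W (v x) := by
    intro x
    refine Q_cast ?_ (hQ.mul (hQ.mul (hQ.pow E1 (x.2 : ℕ)) (hQ.pow D1 (A - x.2))) (hnn x.1))
    have hx : (x.2 : ℕ) + (A - x.2) = A := by have := x.2.2; omega
    rw [hW]
    conv_rhs => rw [← hx]
    ring
  set B := W * T / 12 with hB
  have hBle : B ≤ A * T + A := by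
    rw [hB]
    apply Nat.div_le_of_le_mul
    rw [hW, hA]
    nlinarith [Nat.zero_le (k0 * T), Nat.zero_le (k0 * T * T)]
  have hcard : B + 1 < Fintype.card (Option (Fin T) × Fin (A + 1)) := by
    simp only [Fintype.card_prod, Fintype.card_option, Fintype.card_fin]
    nlinarith
  obtain ⟨c, hc0, hc⟩ := exists_relation v B hcard
  have hΨ : (∑ x, c x • v x) = 0 :=
    hQ.eq_zero (hQ.sum _ _ fun x _ => hQ.smul (c x) (hv x)) hc
  -- pass to Laurent series
  set J := jqModC ℚ with hJ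
  set Dι := ι Dq with hDι
  set H := HH N ℚ with hH
  have hDι0 : Dι ≠ 0 := iota_ne_zero Dq_ne_zero
  let Pn : Option (Fin T) → ℚ[X] := fun o =>
    ∑ a : Fin (A + 1), Polynomial.C (c (o, a)) * Polynomial.X ^ (a : ℕ)
  have hιv : ∀ x, ι (v x) = J ^ (x.2 : ℕ) * Dι ^ A * ι (nn x.1) := by
    intro x
    have hx : (x.2 : ℕ) + (A - x.2) = A := by have := x.2.2; omega
    simp only [v]
    rw [map_mul, map_mul, map_pow (ι) (E4q ^ 3), ← j_mul_D, map_pow, mul_pow,
      mul_assoc (J ^ (x.2 : ℕ)), ← _root_.pow_add, hx]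
  have hsmul : ∀ (r : ℚ) (s : PowerSeries ℚ),
      ι (r • s) = algebraMap ℚ (LaurentSeries ℚ) r * ι s := by
    intro r s
    rw [PowerSeries.smul_eq_C_mul, map_mul, HahnSeries.ofPowerSeries_C,
      algebraMap_apply_eq_single]
    rfl
  have h1 : Dι ^ A * ∑ o, evJ ℚ (Pn o) * ι (nn o) = 0 := by
    have := congrArg (ι) hΨ
    rw [map_zero, map_sum, Fintype.sum_prod_type] at this
    rw [← this, Finset.mul_sum]
    refine Finset.sum_congr rfl fun o _ => ?_
    rw [evJ_sumFin, Finset.sum_mul, Finset.mul_sum]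
    refine Finset.sum_congr rfl fun a _ => ?_
    rw [hsmul, hιv]
    ring
  have h2 : ∑ o, evJ ℚ (Pn o) * ι (nn o) = 0 :=
    (mul_eq_zero.1 h1).resolve_left (pow_ne_zero _ hDι0)
  have hnone : ι (nn none) = (ι g * Dι ^ (M * (T - 1))) * y := by
    simp only [nn]
    rw [map_mul, map_pow, ← hy]
    ring
  have hsome : ∀ i : Fin T, ι (nn (some i)) = (ι g * Dι ^ (M * (T - 1))) * H ^ (i : ℕ) := by
    intro i
    have hi : M * (i : ℕ) + M * (T - 1 - i) = M * (T - 1) := by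
      have := i.2
      rw [← Nat.mul_add]
      congr 1
      omega
    simp only [nn]
    rw [map_mul, map_mul, map_pow, map_pow, ← H_mul_D_pow N hMM hZZ, mul_pow, ← pow_mul, ← hi,
      _root_.pow_add]
    ring
  have h3 : (ι g * Dι ^ (M * (T - 1))) *
      (evJ ℚ (Pn none) * y + ∑ i : Fin T, evJ ℚ (Pn (some i)) * H ^ (i : ℕ)) = 0 := by
    rw [Fintype.sum_option, hnone] at h2
    rw [← h2, mul_add, Finset.mul_sum]
    congr 1
    · ring
    · refine Finset.sum_congr rfl fun i _ => ?_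
      rw [hsome]
      ring
  have h4 : evJ ℚ (Pn none) * y + ∑ i : Fin T, evJ ℚ (Pn (some i)) * H ^ (i : ℕ) = 0 :=
    (mul_eq_zero.1 h3).resolve_left (mul_ne_zero (iota_ne_zero hg0) (pow_ne_zero _ hDι0))
  set p : ℚ[X][X] := ∑ i : Fin T, Polynomial.C (Pn (some i)) * Polynomial.X ^ (i : ℕ) with hp
  have hev : ev2 N ℚ p = ∑ i : Fin T, evJ ℚ (Pn (some i)) * H ^ (i : ℕ) := ev2_sumFin N _
  have hdeg : p.natDegree < T := natDegree_sumFin_lt hT _
  by_cases hb : Pn none = 0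
  · exfalso
    have hp0 : p ≠ 0 := by
      intro hp0
      apply hc0
      funext x
      obtain ⟨o, a⟩ := x
      cases o with
      | none =>
        have := sumFin_coeff (fun a : Fin (A + 1) => c (none, a)) a
        rw [show (∑ a : Fin (A + 1), Polynomial.C (c (none, a)) * Polynomial.X ^ (a : ℕ))
          = Pn none from rfl, hb] at this
        simpa using this.symm
      | some i =>
        have h5 := sumFin_coeff (fun i : Fin T => Pn (some i)) i
        rw [← hp, hp0] at h5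
        have := sumFin_coeff (fun a : Fin (A + 1) => c (some i, a)) a
        rw [show (∑ a : Fin (A + 1), Polynomial.C (c (some i, a)) * Polynomial.X ^ (a : ℕ))
          = Pn (some i) from rfl, ← h5] at this
        simpa using this.symm
    have : ev2 N ℚ p = 0 := by
      rw [hev]
      rw [hb, map_zero, zero_mul, zero_add] at h4
      exact h4
    exact absurd (hindep p hp0 this) (not_le.2 hdeg)
  · refine ⟨Pn none, -p, hb, by rwa [Polynomial.natDegree_neg], ?_⟩
    have : ev2 N ℚ (-p) = - ev2 N ℚ p := by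
      simp [ev2, Polynomial.eval₂_neg]
    rw [this, hev]
    exact eq_neg_of_add_eq_zero_left h4

end Cnt

end

end Fermat.Agent.S28Lib
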