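import Fermat.Agent.S28.Defs
import Fermat.Agent.S28.Bridge
import Fermat.Agent.S20.Defs
import Fermat.Agent.S20.LevelOne

/-!
# S28, piece AN-E : symmetric functions of the conjugates, level one structure
-/

set_option autoImplicit false

open ModularCurve UpperHalfPlane ModularForm Matrix.SpecialLinearGroup Filter Topology
open scoped MatrixGroups Manifold Polynomial
open Fermat.Agent.S20Lib

namespace Fermat.Agent.S28Lib

noncomputable section

local notation "Δ" => ModularForm.discriminant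

variable (N : ℕ) [NeZero N]

instance instFintypeQuotGamma0 : Fintype (SL(2, ℤ) ⧸ CongruenceSubgroup.Gamma0 N) :=
  Fintype.ofFinite _

/-- `i`-th elementary symmetric function of the conjugates of `f`. -/
def esymmConj (k : ℤ) (f : ℍ → ℂ) (i : ℕ) : ℍ → ℂ :=
  ∑ s ∈ Finset.powersetCard i (Finset.univ : Finset (SL(2, ℤ) ⧸ CongruenceSubgroup.Gamma0 N)),
    ∏ x ∈ s, conj (CongruenceSubgroup.Gamma0 N) k f x

namespace EsymmAux

lemma prod_slash {ι : Type*} (s : Finset ι) (k : ℤ) (F : ι → ℍ → ℂ) (g : SL(2, ℤ)) :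
    (∏ x ∈ s, F x) ∣[(s.card : ℤ) * k] g = ∏ x ∈ s, (F x ∣[k] g) := by
  classical
  induction s using Finset.induction_on with
  | empty =>
    simp only [Finset.prod_empty, Finset.card_empty, Nat.cast_zero, zero_mul]
    exact is_invariant_one g
  | insert a s ha ih =>
    rw [Finset.prod_insert ha, Finset.prod_insert ha, Finset.card_insert_of_notMem ha]
    have : ((s.card + 1 : ℕ) : ℤ) * k = k + (s.card : ℤ) * k := by push_cast; ring
    rw [this, mul_slash_SL2, ih]

lemma mdiff_prod {ι : Type*} (s : Finset ι) (F : ι → ℍ → ℂ) (h : ∀ x ∈ s, MDiff (F x)) :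
    MDiff (∏ x ∈ s, F x) := by
  classical
  induction s using Finset.induction_on with
  | empty =>
    simp only [Finset.prod_empty]
    exact fun _ => mdifferentiableAt_const
  | insert a s ha ih =>
    rw [Finset.prod_insert ha]
    exact (h a (Finset.mem_insert_self a s)).mul (ih fun x hx => h x (Finset.mem_insert_of_mem hx))

lemma mdiff_sum {ι : Type*} (s : Finset ι) (F : ι → ℍ → ℂ) (h : ∀ x ∈ s, MDiff (F x)) :
    MDiff (∑ x ∈ s, F x) := by
  classical
  induction s using Finset.induction_on with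
  | empty =>
    simp only [Finset.sum_empty]
    exact fun _ => mdifferentiableAt_const
  | insert a s ha ih =>
    rw [Finset.sum_insert ha]
    exact (h a (Finset.mem_insert_self a s)).add (ih fun x hx => h x (Finset.mem_insert_of_mem hx))

lemma bdd_prod {ι : Type*} (s : Finset ι) (F : ι → ℍ → ℂ)
    (h : ∀ x ∈ s, IsBoundedAtImInfty (F x)) : IsBoundedAtImInfty (∏ x ∈ s, F x) := by
  classical
  induction s using Finset.induction_on with
  | empty =>
    simp only [Finset.prod_empty]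
    exact Filter.const_boundedAtFilter _ (1 : ℂ)
  | insert a s ha ih =>
    rw [Finset.prod_insert ha]
    exact (h a (Finset.mem_insert_self a s)).mul (ih fun x hx => h x (Finset.mem_insert_of_mem hx))

lemma bdd_sum {ι : Type*} (s : Finset ι) (F : ι → ℍ → ℂ)
    (h : ∀ x ∈ s, IsBoundedAtImInfty (F x)) : IsBoundedAtImInfty (∑ x ∈ s, F x) := by
  classical
  induction s using Finset.induction_on with
  | empty =>
    simp only [Finset.sum_empty]
    exact zero_form_isBoundedAtImInfty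
  | insert a s ha ih =>
    rw [Finset.sum_insert ha]
    exact (h a (Finset.mem_insert_self a s)).add (ih fun x hx => h x (Finset.mem_insert_of_mem hx))

end EsymmAux

open EsymmAux

theorem esymmConj_slash {k : ℤ} {f : ℍ → ℂ}
    (hf : ∀ γ ∈ CongruenceSubgroup.Gamma0 N, f ∣[k] γ = f) (i : ℕ) (g : SL(2, ℤ)) :
    esymmConj N k f i ∣[(i : ℤ) * k] g = esymmConj N k f i := by
  classical
  unfold esymmConj
  rw [SlashAction.sum_slash]
  set e : (SL(2, ℤ) ⧸ CongruenceSubgroup.Gamma0 N) ≃ (SL(2, ℤ) ⧸ CongruenceSubgroup.Gamma0 N) :=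
    MulAction.toPerm g⁻¹ with he
  have h1 : ∀ s ∈ Finset.powersetCard i
      (Finset.univ : Finset (SL(2, ℤ) ⧸ CongruenceSubgroup.Gamma0 N)),
      (∏ x ∈ s, conj (CongruenceSubgroup.Gamma0 N) k f x) ∣[(i : ℤ) * k] g =
        ∏ x ∈ s.map e.toEmbedding, conj (CongruenceSubgroup.Gamma0 N) k f x := by
    intro s hs
    rw [Finset.mem_powersetCard] at hs
    rw [← hs.2, EsymmAux.prod_slash, Finset.prod_map]
    refine Finset.prod_congr rfl fun x _ => ?_
    rw [conj_slash hf]
    rfl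
  rw [Finset.sum_congr rfl h1]
  have h2 : Finset.powersetCard i
      (Finset.univ : Finset (SL(2, ℤ) ⧸ CongruenceSubgroup.Gamma0 N)) =
      Finset.map (Finset.mapEmbedding e.toEmbedding).toEmbedding (Finset.powersetCard i
      (Finset.univ : Finset (SL(2, ℤ) ⧸ CongruenceSubgroup.Gamma0 N))) := by
    rw [← Finset.powersetCard_map, Finset.map_univ_equiv]
  conv_rhs => rw [h2, Finset.sum_map]
  rfl

theorem isMF_esymmConj {k : ℤ} {f : ℍ → ℂ} (hf : IsMF (CongruenceSubgroup.Gamma0 N) k f) (i : ℕ) :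
    IsMF ⊤ (i * k) (esymmConj N k f i) where
  holo := mdiff_sum _ _ fun s _ => mdiff_prod _ _ fun x _ => hf.conj_holo x
  inv γ _ := esymmConj_slash N hf.inv i γ
  bdd γ := by
    rw [esymmConj_slash N hf.inv i γ]
    exact bdd_sum _ _ fun s _ => bdd_prod _ _ fun x _ => hf.conj_bdd x

theorem card_quot_eq_idx : Fintype.card (SL(2, ℤ) ⧸ CongruenceSubgroup.Gamma0 N) = idx N := by
  rw [idx, Subgroup.index_eq_card, Nat.card_eq_fintype_card]

theorem sum_esymmConj_mul_pow {k : ℤ} {f : ℍ → ℂ}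
    (hf : ∀ γ ∈ CongruenceSubgroup.Gamma0 N, f ∣[k] γ = f) :
    ∑ i ∈ Finset.range (idx N + 1), (-1 : ℂ) ^ i • (esymmConj N k f i * f ^ (idx N - i)) = 0 := by
  classical
  ext τ
  set c : (SL(2, ℤ) ⧸ CongruenceSubgroup.Gamma0 N) → ℂ :=
    fun x => conj (CongruenceSubgroup.Gamma0 N) k f x τ with hc
  have h1 := Multiset.prod_X_sub_X_eq_sum_esymm
    ((Finset.univ : Finset (SL(2, ℤ) ⧸ CongruenceSubgroup.Gamma0 N)).val.map c)
  have h2 := congrArg (Polynomial.eval (f τ)) h1
  have hcard : Multiset.card ((Finset.univ : Finset (SL(2, ℤ) ⧸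
      CongruenceSubgroup.Gamma0 N)).val.map c) = idx N := by
    rw [Multiset.card_map]
    exact card_quot_eq_idx N
  rw [hcard] at h2
  have h3 : Polynomial.eval (f τ) (Multiset.map (fun t => Polynomial.X - Polynomial.C t)
      ((Finset.univ : Finset (SL(2, ℤ) ⧸ CongruenceSubgroup.Gamma0 N)).val.map c)).prod = 0 := by
    rw [Multiset.map_map, Polynomial.eval_multiset_prod, Multiset.map_map]
    apply Multiset.prod_eq_zero
    rw [Multiset.mem_map]
    refine ⟨((1 : SL(2, ℤ)) : SL(2, ℤ) ⧸ CongruenceSubgroup.Gamma0 N), Finset.mem_univ _, ?_⟩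
    simp [hc, conj_one hf]
  rw [h3] at h2
  rw [Pi.zero_apply, h2, Finset.sum_apply, Polynomial.eval_finsetSum]
  refine Finset.sum_congr rfl fun i _ => ?_
  simp only [Polynomial.eval_mul, Polynomial.eval_pow, Polynomial.eval_neg, Polynomial.eval_one,
    Polynomial.eval_C, Polynomial.eval_X, Pi.smul_apply, Pi.mul_apply, Pi.pow_apply, smul_eq_mul]
  rw [Finset.esymm_map_val]
  simp [esymmConj, hc, Finset.sum_apply, Finset.prod_apply]

namespace EsymmAux

/-- power series with coefficients in `O` -/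
def serO (O : Subring ℂ) : Subring (PowerSeries ℂ) where
  carrier := {s | ∀ n, s.coeff n ∈ O}
  mul_mem' := by
    intro a b ha hb n
    rw [PowerSeries.coeff_mul]
    exact O.sum_mem fun p _ => O.mul_mem (ha _) (hb _)
  one_mem' := by
    intro n
    rw [PowerSeries.coeff_one]
    split_ifs
    exacts [O.one_mem, O.zero_mem]
  add_mem' := by
    intro a b ha hb n
    rw [map_add]
    exact O.add_mem (ha n) (hb n)
  zero_mem' := by
    intro n
    rw [map_zero]
    exact O.zero_mem
  neg_mem' := by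
    intro a ha n
    rw [map_neg]
    exact O.neg_mem (ha n)

lemma mem_serO {O : Subring ℂ} {s : PowerSeries ℂ} : s ∈ serO O ↔ ∀ n, s.coeff n ∈ O := Iff.rfl

lemma map_int_mem_serO (O : Subring ℂ) (s : PowerSeries ℤ) :
    s.map (Int.castRingHom ℂ) ∈ serO O := by
  intro n
  rw [PowerSeries.coeff_map]
  exact intCast_mem O _

lemma smul_mem_serO {O : Subring ℂ} {c : ℂ} (hc : c ∈ O) {s : PowerSeries ℂ} (hs : s ∈ serO O) :
    c • s ∈ serO O := by
  intro n
  rw [PowerSeries.coeff_smul]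
  exact O.mul_mem hc (hs n)

lemma analytic_of_isMF {k : ℤ} {f : ℍ → ℂ} (hf : IsMF ⊤ k f) :
    AnalyticAt ℂ (cuspFunction 1 f) 0 :=
  analyticAt_cuspFunction_zero one_pos hf.periodic_one hf.holo (by simpa using hf.bdd 1)

lemma isMF_pow {Γ : Subgroup SL(2, ℤ)} {k : ℤ} {f : ℍ → ℂ} (hf : IsMF Γ k f) (n : ℕ) :
    IsMF Γ (n * k) (f ^ n) := by
  induction n with
  | zero => simpa using (isMF_one : IsMF Γ 0 (1 : ℍ → ℂ))
  | succ n ih =>
    rw [pow_succ]
    exact ih.mul' hf (by push_cast; ring)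

lemma qExpansion_pow_of_isMF {k : ℤ} {f : ℍ → ℂ} (hf : IsMF ⊤ k f) (n : ℕ) :
    qExpansion 1 (f ^ n) = qExpansion 1 f ^ n := by
  induction n with
  | zero => simpa using qExpansion_one 1
  | succ n ih =>
    rw [pow_succ, pow_succ, qExpansion_mul (analytic_of_isMF (isMF_pow hf n)) (analytic_of_isMF hf),
      ih]

lemma tendsto_coeff_zero {k : ℤ} {f : ℍ → ℂ} (hf : IsMF ⊤ k f) :
    Tendsto f atImInfty (𝓝 ((qExpansion 1 f).coeff 0)) := by
  rw [qExpansion_coeff_zero one_pos (analytic_of_isMF hf) hf.periodic_one]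
  exact hf.tendsto_valueAtInfty

/-- dividing by `Δ` preserves integrality. -/
lemma mem_serO_of_Delta_mul {O : Subring ℂ} {s : PowerSeries ℂ}
    (h : qExpansion 1 (Δ : ℍ → ℂ) * s ∈ serO O) : s ∈ serO O := by
  rw [qExpansion_Delta] at h
  have h1 := (serO O).mul_mem (map_int_mem_serO O dedekindEtaUnitInv) h
  have h2 : dedekindEtaUnitInv.map (Int.castRingHom ℂ) *
      ((PowerSeries.X * dedekindEtaUnit).map (Int.castRingHom ℂ) * s) = PowerSeries.X * s := by
    have h3 : dedekindEtaUnitInv.map (Int.castRingHom ℂ) *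
        (PowerSeries.X * dedekindEtaUnit).map (Int.castRingHom ℂ) = PowerSeries.X := by
      rw [← map_mul]
      have : dedekindEtaUnitInv * (PowerSeries.X * dedekindEtaUnit) = PowerSeries.X := by
        rw [mul_comm, mul_assoc, dedekindEtaUnit_mul_inv, mul_one]
      rw [this]
      simp
    rw [← mul_assoc, h3]
  rw [h2] at h1
  intro n
  have := h1 (n + 1)
  rwa [PowerSeries.coeff_succ_X_mul] at this

end EsymmAux

theorem levelOne_structure (O : Subring ℂ) (m : ℕ) (f : ℍ → ℂ) (hf : IsMF ⊤ (12 * m) f)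
    (hint : ∀ n, (qExpansion 1 f).coeff n ∈ O) :
    ∃ c : ℕ → O, f = ∑ a ∈ Finset.range (m + 1),
      (c a : ℂ) • ((Δ : ℍ → ℂ) ^ a * (E₄ : ℍ → ℂ) ^ (3 * (m - a))) := by
  induction m generalizing f with
  | zero =>
    have hf0 : IsMF ⊤ 0 f := by simpa using hf
    obtain ⟨c, hc⟩ := isMF_top_zero_const hf0
    have hc1 : f = c • (1 : ℍ → ℂ) := by
      rw [hc]; ext τ; simp
    have hcO : c ∈ O := by
      have := hint 0
      have han : AnalyticAt ℂ (cuspFunction 1 (1 : ℍ → ℂ)) 0 :=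
        analytic_of_isMF (isMF_one : IsMF ⊤ 0 (1 : ℍ → ℂ))
      rw [hc1, qExpansion_smul han, qExpansion_one] at this
      simpa using this
    refine ⟨fun _ => ⟨c, hcO⟩, ?_⟩
    rw [hc1]
    simp
  | succ m ih =>
    set a0 : ℂ := (qExpansion 1 f).coeff 0 with ha0
    have hE : IsMF ⊤ (12 * ((m + 1 : ℕ) : ℤ)) ((E₄ : ℍ → ℂ) ^ (3 * (m + 1))) := by
      have := isMF_pow isMF_E4 (3 * (m + 1))
      have e : ((3 * (m + 1) : ℕ) : ℤ) * 4 = 12 * ((m + 1 : ℕ) : ℤ) := by push_cast; ring
      rwa [e] at this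
    set h : ℍ → ℂ := f + (-a0) • ((E₄ : ℍ → ℂ) ^ (3 * (m + 1))) with hh
    have hhMF : IsMF ⊤ (12 * ((m + 1 : ℕ) : ℤ)) h := hf.add (hE.smul _)
    have hh0 : Tendsto h atImInfty (𝓝 0) := by
      have h1 := tendsto_coeff_zero hf
      have h2 : Tendsto ((E₄ : ℍ → ℂ) ^ (3 * (m + 1))) atImInfty (𝓝 1) := by
        have := tendsto_E4.pow (3 * (m + 1))
        rw [one_pow] at this
        exact this
      have h3 := h1.add (h2.const_smul (-a0))
      have e : (qExpansion 1 f).coeff 0 + -a0 • (1 : ℂ) = 0 := by rw [← ha0]; simp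
      rw [e] at h3
      exact h3
    obtain ⟨r, hr, hhr⟩ := hhMF.exists_eq_Dl_mul hh0
    have hr' : IsMF ⊤ (12 * (m : ℤ)) r := by
      have e : 12 * ((m + 1 : ℕ) : ℤ) - 12 = 12 * (m : ℤ) := by push_cast; ring
      rwa [e] at hr
    have hq : qExpansion 1 h ∈ serO O := by
      rw [hh, qExpansion_add (analytic_of_isMF hf) (analytic_of_isMF (hE.smul _)),
        qExpansion_smul (analytic_of_isMF hE), qExpansion_pow_of_isMF isMF_E4]
      refine (serO O).add_mem hint (smul_mem_serO (O.neg_mem (hint 0)) ?_)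
      refine (serO O).pow_mem ?_ _
      have := qExpansion_E4
      rw [this]
      exact map_int_mem_serO O _
    have hq2 : qExpansion 1 r ∈ serO O := by
      apply mem_serO_of_Delta_mul
      rw [← qExpansion_mul (analytic_of_isMF isMF_Dl) (analytic_of_isMF hr'), ← hhr]
      exact hq
    obtain ⟨c', hc'⟩ := ih r hr' hq2
    refine ⟨fun a => Nat.casesOn a ⟨a0, hint 0⟩ c', ?_⟩
    rw [Finset.sum_range_succ']
    have hf' : f = h + a0 • ((E₄ : ℍ → ℂ) ^ (3 * (m + 1))) := by
      rw [hh]; ext τ; simp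
    rw [hf', hhr, hc', Finset.mul_sum]
    congr 1
    · refine Finset.sum_congr rfl fun a _ => ?_
      ext τ
      simp only [Pi.mul_apply, Pi.smul_apply, Pi.pow_apply, smul_eq_mul, Nat.add_sub_add_right]
      ring
    · simp

end

end Fermat.Agent.S28Lib
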