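import Fermat.Agent.S28.Arith
import Fermat.Agent.S28.Bridge
import Fermat.Agent.S28.QI
import Fermat.Agent.S28.Translate
import Fermat.Agent.S20.Defs

/-!
# S28, piece AN-D : the eta quotient `h₀`
-/

set_option autoImplicit false

open ModularCurve UpperHalfPlane ModularForm Matrix.SpecialLinearGroup
open scoped MatrixGroups Manifold Polynomial
open Fermat.Agent.S20Lib

namespace Fermat.Agent.S28Lib

noncomputable section

local notation "Δ" => ModularForm.discriminant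
local notation "𝕢" => Function.Periodic.qParam

namespace EtaQuot

open Filter Topology

lemma isCF_Delta : IsCF ⊤ 12 Δ := isCF_top_coe CuspForm.discriminant

variable {O : Subring ℂ} {n : ℕ}

lemma QI.analytic (hn : 0 < n) {F : ℍ → ℂ} (hF : QI O n F) :
    AnalyticAt ℂ (cuspFunction n F) 0 :=
  analyticAt_cuspFunction_zero (by exact_mod_cast hn) (by exact_mod_cast hF.per) hF.holo hF.bdd

lemma QI.analytic_one {F : ℍ → ℂ} (hF : QI O 1 F) :
    AnalyticAt ℂ (cuspFunction 1 F) 0 := by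
  have := QI.analytic one_pos hF
  simpa using this

lemma QI.mk_one {F : ℍ → ℂ} (per : Function.Periodic (F ∘ ofComplex) 1) (holo : MDiff F)
    (bdd : IsBoundedAtImInfty F) (int : ∀ m, (qExpansion 1 F).coeff m ∈ O) : QI O 1 F :=
  ⟨by simpa using per, holo, bdd, by simpa using int⟩

/-- the function `q`. -/
def q1 : ℍ → ℂ := fun τ => 𝕢 1 τ

lemma q1_ne_zero (τ : ℍ) : q1 τ ≠ 0 := Complex.exp_ne_zero _

lemma QI_q1 : QI O 1 q1 := by
  have := QI.qParam_pow (O := O) (n := 1) one_pos 1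
  change QI O 1 (fun τ : ℍ => 𝕢 1 τ)
  simpa using this

lemma coeff_unique {h : ℝ} {f : ℍ → ℂ} {c : ℕ → ℂ} (hh : 0 < h)
    (hfa : AnalyticAt ℂ (cuspFunction h f) 0)
    (hf : ∀ τ : ℍ, HasSum (fun m => c m • 𝕢 h τ ^ m) (f τ)) (m : ℕ) :
    c m = (qExpansion h f).coeff m := by
  let _ : FunLike (ℍ → ℂ) ℍ ℂ := ⟨fun f => f, fun _ _ h => h⟩
  exact qExpansion_coeff_unique f hh hfa hf m

lemma qExpansion_q1 : qExpansion 1 q1 = PowerSeries.X := by
  ext m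
  have h := coeff_unique (h := 1) (f := q1) (c := fun m => if m = 1 then 1 else 0) one_pos
    (QI.analytic_one (O := ⊤) QI_q1) (fun τ => by
      have := hasSum_single (f := fun m : ℕ => (if m = 1 then (1 : ℂ) else 0) • 𝕢 1 τ ^ m) 1
        (fun b hb => by simp [hb])
      change HasSum _ (𝕢 1 τ)
      simpa using this) m
  rw [← h, PowerSeries.coeff_X]

lemma per_Delta : Function.Periodic ((Δ : ℍ → ℂ) ∘ ofComplex) 1 := by
  have := SlashInvariantFormClass.periodic_comp_ofComplex (h := 1) CuspForm.discriminant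
    (by simp)
  simpa using this

/-- `∏ (1 - qⁿ)^24` as a function. -/
def Uf : ℍ → ℂ := Δ / q1

/-- `∏ (1 - qⁿ)^(-24)` as a function. -/
def Vf : ℍ → ℂ := q1 / Δ

lemma Uf_ne_zero (τ : ℍ) : Uf τ ≠ 0 := div_ne_zero (discriminant_ne_zero τ) (q1_ne_zero τ)

lemma Vf_eq_inv (τ : ℍ) : Vf τ = (Uf τ)⁻¹ := by simp [Uf, Vf]

lemma q1_mul_Uf : q1 * Uf = Δ := by
  ext τ
  simp only [Uf, Pi.mul_apply, Pi.div_apply]
  rw [mul_div_cancel₀ _ (q1_ne_zero τ)]

lemma Delta_eq (τ : ℍ) : Δ τ = q1 τ * Uf τ := by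
  rw [← q1_mul_Uf]; rfl

lemma Uf_mul_Vf : Uf * Vf = 1 := by
  ext τ
  simp only [Pi.mul_apply, Vf_eq_inv, Pi.one_apply]
  exact mul_inv_cancel₀ (Uf_ne_zero τ)

lemma tendsto_Uf : Tendsto Uf atImInfty (𝓝 1) := by
  refine tendsto_atImInfty_tprod_one_sub_eta_q_pow.congr fun τ => ?_
  rw [Uf, Pi.div_apply, discriminant_eq_q_prod]
  exact (mul_div_cancel_left₀ _ (q1_ne_zero τ)).symm

lemma tendsto_Vf : Tendsto Vf atImInfty (𝓝 1) := by
  have := tendsto_Uf.inv₀ one_ne_zero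
  rw [inv_one] at this
  exact this.congr fun τ => (Vf_eq_inv τ).symm

lemma per_Uf : Function.Periodic (Uf ∘ ofComplex) 1 := by
  have h := (QI_q1 (O := ⊤)).per
  simp only [Nat.cast_one] at h
  exact per_Delta.div h

lemma per_Vf : Function.Periodic (Vf ∘ ofComplex) 1 := by
  have h := (QI_q1 (O := ⊤)).per
  simp only [Nat.cast_one] at h
  exact h.div per_Delta

lemma holo_Uf : MDiff Uf := isCF_Delta.holo.div (QI_q1 (O := ⊤)).holo q1_ne_zero

lemma holo_Vf : MDiff Vf := (QI_q1 (O := ⊤)).holo.div isCF_Delta.holo discriminant_ne_zero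

lemma analytic_Uf : AnalyticAt ℂ (cuspFunction 1 Uf) 0 :=
  analyticAt_cuspFunction_zero one_pos (by simpa using per_Uf) holo_Uf (tendsto_Uf.isBigO_one ℝ)

lemma analytic_Vf : AnalyticAt ℂ (cuspFunction 1 Vf) 0 :=
  analyticAt_cuspFunction_zero one_pos (by simpa using per_Vf) holo_Vf (tendsto_Vf.isBigO_one ℝ)

lemma qExpansion_Uf : qExpansion 1 Uf = dedekindEtaUnit.map (Int.castRingHom ℂ) := by
  have h := qExpansion_mul (h := 1) (QI.analytic_one (O := ⊤) QI_q1) analytic_Uf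
  rw [q1_mul_Uf, qExpansion_Delta, qExpansion_q1, map_mul, PowerSeries.map_X] at h
  exact (mul_left_cancel₀ PowerSeries.X_ne_zero h).symm

lemma qExpansion_Vf : qExpansion 1 Vf = dedekindEtaUnitInv.map (Int.castRingHom ℂ) := by
  have h := qExpansion_mul (h := 1) analytic_Uf analytic_Vf
  rw [Uf_mul_Vf, qExpansion_one, qExpansion_Uf] at h
  have h2 : dedekindEtaUnit.map (Int.castRingHom ℂ) * dedekindEtaUnitInv.map (Int.castRingHom ℂ)
      = 1 := by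
    rw [← map_mul, dedekindEtaUnit_mul_inv, map_one]
  calc qExpansion 1 Vf = (dedekindEtaUnit.map (Int.castRingHom ℂ) *
        dedekindEtaUnitInv.map (Int.castRingHom ℂ)) * qExpansion 1 Vf := by rw [h2, one_mul]
    _ = dedekindEtaUnitInv.map (Int.castRingHom ℂ) *
        (dedekindEtaUnit.map (Int.castRingHom ℂ) * qExpansion 1 Vf) := by ring
    _ = _ := by rw [← h, mul_one]

lemma QI_Uf : QI O 1 Uf :=
  QI.mk_one per_Uf holo_Uf (tendsto_Uf.isBigO_one ℝ) fun m => by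
    rw [qExpansion_Uf, PowerSeries.coeff_map]
    exact intCast_mem O _

lemma QI_Vf : QI O 1 Vf :=
  QI.mk_one per_Vf holo_Vf (tendsto_Vf.isBigO_one ℝ) fun m => by
    rw [qExpansion_Vf, PowerSeries.coeff_map]
    exact intCast_mem O _

/-! ### powers of `U((aτ+b)/a')` -/

/-- `U((aτ+b)/a')^r`. -/
def Wz (a b a' : ℕ) (r : ℤ) : ℍ → ℂ := fun τ => Uf (utr a b a' τ) ^ r

lemma Wz_natCast (a b a' k : ℕ) : Wz a b a' (k : ℤ) = (fun τ => Uf (utr a b a' τ)) ^ k := by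
  ext τ; simp [Wz]

lemma Wz_neg_natCast (a b a' k : ℕ) :
    Wz a b a' (-(k : ℤ)) = (fun τ => Vf (utr a b a' τ)) ^ k := by
  ext τ; simp [Wz, Vf_eq_inv]

lemma QI_Wz (hn : 0 < n) (hζ : Complex.exp (2 * Real.pi * Complex.I / n) ∈ O)
    {a b a' : ℕ} (ha : 0 < a) (ha' : 0 < a') (hdvd : a' ∣ n) (r : ℤ) :
    QI O n (Wz a b a' r) := by
  obtain ⟨k, rfl | rfl⟩ := r.eq_nat_or_neg
  · rw [Wz_natCast]; exact QI.pow hn (QI.comp_utr hn hζ QI_Uf ha ha' hdvd) k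
  · rw [Wz_neg_natCast]; exact QI.pow hn (QI.comp_utr hn hζ QI_Vf ha ha' hdvd) k

lemma qExpansion_pow' {F : ℍ → ℂ} (hF : AnalyticAt ℂ (cuspFunction 1 F) 0) (k : ℕ) :
    qExpansion 1 (F ^ k) = qExpansion 1 F ^ k := by
  have := UpperHalfPlane.qExpansion_prod (h := 1) (Finset.range k) (F := fun _ => F)
    (fun _ _ => hF)
  simpa using this

lemma QI_dilate {W : ℍ → ℂ} (hW : QI O 1 W) {d : ℕ} (hd : d ≠ 0) :
    QI O 1 (fun τ => W (utr d 0 1 τ)) :=
  QI.comp_utr one_pos (by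
    have : Complex.exp (2 * Real.pi * Complex.I / (1 : ℕ)) = 1 := by
      simp [Complex.exp_two_pi_mul_I]
    rw [this]; exact O.one_mem) hW (Nat.pos_of_ne_zero hd) one_pos (dvd_refl 1)

lemma qExpansion_Wz {d : ℕ} (hd : d ≠ 0) (r : ℤ) :
    qExpansion 1 (Wz d 0 1 r) =
      (((expU d ^ r : (PowerSeries ℤ)ˣ) : PowerSeries ℤ)).map (Int.castRingHom ℂ) := by
  obtain ⟨k, rfl | rfl⟩ := r.eq_nat_or_neg
  · rw [Wz_natCast, qExpansion_pow' (QI.analytic_one (QI_dilate (O := ⊤) QI_Uf hd)),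
      qExpansion_dilate QI_Uf hd, qExpansion_Uf, zpow_natCast, Units.val_pow_eq_pow_val, map_pow,
      expU, dif_neg hd, Units.coe_map]
    congr 1
    exact (PowerSeries.map_expand d hd (Int.castRingHom ℂ) dedekindEtaUnit).symm
  · rw [Wz_neg_natCast, qExpansion_pow' (QI.analytic_one (QI_dilate (O := ⊤) QI_Vf hd)),
      qExpansion_dilate QI_Vf hd, qExpansion_Vf, zpow_neg, zpow_natCast, ← inv_pow,
      Units.val_pow_eq_pow_val, map_pow, expU, dif_neg hd, ← map_inv, Units.coe_map]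
    congr 1
    exact (PowerSeries.map_expand d hd (Int.castRingHom ℂ) dedekindEtaUnitInv).symm

/-! ### the parameter `q` at `(aτ+b)/a'` -/

lemma q1_utr {N a b a' : ℕ} (hN : 0 < N) (ha : 0 < a) (ha' : 0 < a') (hdvd : a' ∣ N) (τ : ℍ) :
    q1 (utr a b a' τ) =
      Complex.exp (2 * Real.pi * Complex.I / N) ^ (b * (N / a')) * 𝕢 N τ ^ (a * (N / a')) := by
  obtain ⟨m, rfl⟩ := hdvd
  have hm : 0 < m := Nat.pos_of_mul_pos_left hN
  rw [Nat.mul_div_cancel_left _ ha', q1, Function.Periodic.qParam, Function.Periodic.qParam,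
    coe_utr ha ha', ← Complex.exp_nat_mul, ← Complex.exp_nat_mul, ← Complex.exp_add]
  congr 1
  have h1 : (a' : ℂ) ≠ 0 := by exact_mod_cast ha'.ne'
  have h2 : (m : ℂ) ≠ 0 := by exact_mod_cast hm.ne'
  push_cast
  field_simp
  ring

lemma prod_zpow_eq {ι : Type*} (s : Finset ι) {x : ℂ} (hx : x ≠ 0) (e : ι → ℤ) :
    ∏ i ∈ s, x ^ e i = x ^ ∑ i ∈ s, e i := by
  classical
  induction s using Finset.induction_on with
  | empty => simp
  | insert a s ha ih => rw [Finset.prod_insert ha, Finset.sum_insert ha, ih, zpow_add₀ hx]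

lemma zpow_mem {x : ℂ} (hx : x ∈ O) (hx' : x⁻¹ ∈ O) (r : ℤ) : x ^ r ∈ O := by
  obtain ⟨k, rfl | rfl⟩ := r.eq_nat_or_neg
  · rw [zpow_natCast]; exact O.pow_mem hx k
  · rw [zpow_neg, zpow_natCast, ← inv_pow]; exact O.pow_mem hx' k

lemma term_eq {N a b a' : ℕ} (hN : 0 < N) (ha : 0 < a) (ha' : 0 < a') (hdvd : a' ∣ N) (r : ℤ)
    (τ : ℍ) (x : ℂ) :
    (x * Δ (utr a b a' τ)) ^ r =
      (x ^ r * (Complex.exp (2 * Real.pi * Complex.I / N) ^ (b * (N / a'))) ^ r) *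
        (𝕢 N τ) ^ (((a * (N / a') : ℕ) : ℤ) * r) * Wz a b a' r τ := by
  rw [Delta_eq, q1_utr hN ha ha' hdvd, mul_zpow, mul_zpow, mul_zpow, Wz, zpow_mul, zpow_natCast]
  ring

end EtaQuot

open EtaQuot

variable (N : ℕ) [NeZero N]

/-- `h₀(τ) = ∏_{d ∣ N} Δ(dτ)^{μ(N/d) d}` -/
def h0f (τ : ℍ) : ℂ := ∏ d ∈ N.divisors, Δ (utr d 0 1 τ) ^ rExp N d

theorem h0f_ne_zero (τ : ℍ) : h0f N τ ≠ 0 :=
  Finset.prod_ne_zero_iff.2 fun _ _ => zpow_ne_zero _ (discriminant_ne_zero _)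

theorem ZZ_nonneg : 0 ≤ ZZ N := by
  rw [ZZ_eq_MM_mul_idx]
  exact mul_nonneg (MM_pos N).le (Int.natCast_nonneg _)

theorem MM_mul_idx_le' : MM N * idx N ≤ ZZ N := (ZZ_eq_MM_mul_idx N).ge

namespace EtaQuot

lemma h0f_slash_apply (γ : SL(2, ℤ)) (τ : ℍ) :
    (h0f N ∣[12 * MM N] γ) τ =
      ∏ d ∈ N.divisors, (((fun z => Δ (utr d 0 1 z)) ∣[(12 : ℤ)] γ) τ) ^ rExp N d := by
  simp only [SL_slash_apply, h0f, mul_zpow, Finset.prod_mul_distrib]
  congr 1
  simp only [← zpow_mul]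
  rw [prod_zpow_eq _ (denom_ne_zero γ τ)]
  congr 1
  rw [MM, ← Finset.mul_sum]; ring

lemma exists_data (γ : SL(2, ℤ)) : ∃ a b a' : ℕ → ℕ, ∀ d ∈ N.divisors,
    0 < a d ∧ 0 < a' d ∧ a d * a' d = d ∧ a d = Int.gcd d (γ 1 0) ∧
      ∀ τ : ℍ, ((fun z => Δ (utr d 0 1 z)) ∣[(12 : ℤ)] γ) τ =
        (a' d : ℂ) ^ (-(12 : ℤ)) * Δ (utr (a d) (b d) (a' d) τ) := by
  have h : ∀ d : ℕ, ∃ a b a' : ℕ, d ∈ N.divisors →
      (0 < a ∧ 0 < a' ∧ a * a' = d ∧ a = Int.gcd d (γ 1 0) ∧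
      ∀ τ : ℍ, ((fun z => Δ (utr d 0 1 z)) ∣[(12 : ℤ)] γ) τ =
        (a' : ℂ) ^ (-(12 : ℤ)) * Δ (utr a b a' τ)) := by
    intro d
    by_cases hd : d ∈ N.divisors
    · obtain ⟨a, b, a', h⟩ := slash_dilate (f := Δ) (k := 12) (fun γ => isCF_Delta.inv γ trivial)
        (Nat.pos_of_mem_divisors hd) γ
      exact ⟨a, b, a', fun _ => h⟩
    · exact ⟨0, 0, 0, fun h => absurd h hd⟩
  choose a b a' h using h
  exact ⟨a, b, a', h⟩

lemma sum_gcd_nonneg (c : ℤ) :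
    0 ≤ ∑ d ∈ N.divisors, (ArithmeticFunction.moebius (N / d) : ℤ) * ((Int.gcd d c : ℤ)) ^ 2 := by
  by_cases hc : (N : ℤ) ∣ c
  · have : ∑ d ∈ N.divisors, (ArithmeticFunction.moebius (N / d) : ℤ) * ((Int.gcd d c : ℤ)) ^ 2
        = ZZ N := by
      rw [ZZ]
      refine Finset.sum_congr rfl fun d hd => ?_
      have hdN : (d : ℤ) ∣ c := (Int.natCast_dvd_natCast.2 (Nat.dvd_of_mem_divisors hd)).trans hc
      rw [Int.gcd_eq_left (Int.natCast_nonneg d) hdN, rExp]; ring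
    rw [this]; exact ZZ_nonneg N
  · rw [sum_moebius_gcd_sq N c hc]

/-- the general shape of a conjugate of `h₀`. -/
lemma h0f_slash_eq (γ : SL(2, ℤ)) {a b a' : ℕ → ℕ} (h : ∀ d ∈ N.divisors,
    0 < a d ∧ 0 < a' d ∧ a d * a' d = d ∧ a d = Int.gcd d (γ 1 0) ∧
      ∀ τ : ℍ, ((fun z => Δ (utr d 0 1 z)) ∣[(12 : ℤ)] γ) τ =
        (a' d : ℂ) ^ (-(12 : ℤ)) * Δ (utr (a d) (b d) (a' d) τ)) :
    h0f N ∣[12 * MM N] γ =
      (fun _ => ∏ d ∈ N.divisors, (((a' d : ℂ) ^ (-(12 : ℤ))) ^ rExp N d *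
        (Complex.exp (2 * Real.pi * Complex.I / N) ^ (b d * (N / a' d))) ^ rExp N d)) *
      (fun τ : ℍ => 𝕢 N τ ^ ((N : ℤ) * ∑ d ∈ N.divisors,
        (ArithmeticFunction.moebius (N / d) : ℤ) * ((Int.gcd d (γ 1 0) : ℤ)) ^ 2).toNat) *
      ∏ d ∈ N.divisors, Wz (a d) (b d) (a' d) (rExp N d) := by
  ext τ
  rw [h0f_slash_apply]
  simp only [Pi.mul_apply, Finset.prod_apply]
  have hq : (𝕢 N τ) ≠ 0 := Complex.exp_ne_zero _
  rw [← zpow_natCast, Int.toNat_of_nonneg (mul_nonneg (Int.natCast_nonneg _) (sum_gcd_nonneg N _)),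
    Finset.mul_sum, ← prod_zpow_eq _ hq, ← Finset.prod_mul_distrib, ← Finset.prod_mul_distrib]
  refine Finset.prod_congr rfl fun d hd => ?_
  obtain ⟨h1, h2, h3, h4, h5⟩ := h d hd
  have hdvd : a' d ∣ N := (Dvd.intro_left _ h3).trans (Nat.dvd_of_mem_divisors hd)
  rw [h5, term_eq (NeZero.pos N) h1 h2 hdvd]
  congr 3
  obtain ⟨m, hm⟩ := hdvd
  have hm' : N / a' d = m := by rw [hm, Nat.mul_div_cancel_left _ h2]
  rw [hm', rExp, ← h4]
  have hdZ : (d : ℤ) = a d * a' d := by exact_mod_cast h3.symm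
  have hNZ : (N : ℤ) = a' d * m := by exact_mod_cast hm
  generalize (ArithmeticFunction.moebius (N / d) : ℤ) = μ
  rw [hdZ, hNZ]
  push_cast
  ring

end EtaQuot

theorem QI_h0f_slash (O : Subring ℂ) (hN : (N : ℂ)⁻¹ ∈ O)
    (hζ : Complex.exp (2 * Real.pi * Complex.I / N) ∈ O) (γ : SL(2, ℤ)) :
    QI O N (h0f N ∣[12 * MM N] γ) := by
  obtain ⟨a, b, a', h⟩ := exists_data N γ
  have hpos := NeZero.pos N
  rw [h0f_slash_eq N γ h]
  refine QI.mul hpos (QI.mul hpos (QI.const hpos ?_) (QI.qParam_pow hpos _)) (QI.prod hpos _ ?_)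
  · refine O.prod_mem fun d hd => ?_
    obtain ⟨h1, h2, h3, h4, h5⟩ := h d hd
    have hdvd : a' d ∣ N := (Dvd.intro_left _ h3).trans (Nat.dvd_of_mem_divisors hd)
    refine O.mul_mem ?_ ?_
    · rw [← zpow_mul]
      refine zpow_mem (natCast_mem O _) ?_ _
      obtain ⟨m, hm⟩ := hdvd
      have : ((a' d : ℂ))⁻¹ = (m : ℂ) * (N : ℂ)⁻¹ := by
        have h2' : (a' d : ℂ) ≠ 0 := by exact_mod_cast h2.ne'
        have hm0 : (m : ℂ) ≠ 0 := by
          have : m ≠ 0 := by rintro rfl; simp at hm; exact hpos.ne' hm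
          exact_mod_cast this
        rw [hm]; push_cast; field_simp
      rw [this]
      exact O.mul_mem (natCast_mem O _) hN
    · refine zpow_mem (O.pow_mem hζ _) ?_ _
      rw [← inv_pow]
      refine O.pow_mem ?_ _
      have hone : Complex.exp (2 * Real.pi * Complex.I / N) ^ N = 1 := by
        rw [← Complex.exp_nat_mul, mul_div_cancel₀ _ (by exact_mod_cast hpos.ne' : (N : ℂ) ≠ 0),
          Complex.exp_two_pi_mul_I]
      have : (Complex.exp (2 * Real.pi * Complex.I / N))⁻¹ =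
          Complex.exp (2 * Real.pi * Complex.I / N) ^ (N - 1) := by
        apply inv_eq_of_mul_eq_one_right
        rw [← pow_succ', Nat.sub_add_cancel hpos, hone]
      rw [this]
      exact O.pow_mem hζ _
  · intro d hd
    obtain ⟨h1, h2, h3, h4, h5⟩ := h d hd
    have hdvd : a' d ∣ N := (Dvd.intro_left _ h3).trans (Nat.dvd_of_mem_divisors hd)
    exact QI_Wz hpos hζ h1 h2 hdvd _

namespace EtaQuot

omit [NeZero N] in
lemma Delta_utr_add {d : ℕ} (hd : 0 < d) (b : ℕ) (τ : ℍ) :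
    Δ (utr d b 1 τ) = Δ (utr d 0 1 τ) := by
  have per := per_Delta.nat_mul b (utr d 0 1 τ : ℂ)
  have e : ((utr d 0 1 τ : ℍ) : ℂ) + (b : ℂ) * 1 = ((utr d b 1 τ : ℍ) : ℂ) := by
    rw [coe_utr hd one_pos, coe_utr hd one_pos]; push_cast; ring
  rw [e] at per
  simpa [Function.comp, ofComplex_apply] using per

lemma dilate_slash_of_mem {γ : SL(2, ℤ)} (hγ : γ ∈ CongruenceSubgroup.Gamma0 N) {d : ℕ}
    (hd : d ∈ N.divisors) (τ : ℍ) :
    ((fun z => Δ (utr d 0 1 z)) ∣[(12 : ℤ)] γ) τ = Δ (utr d 0 1 τ) := by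
  have hd0 := Nat.pos_of_mem_divisors hd
  obtain ⟨a, b, a', ha, ha', hmul, hgcd, h⟩ := slash_dilate (f := Δ) (k := 12)
    (fun γ => isCF_Delta.inv γ trivial) hd0 γ
  have hNc : (N : ℤ) ∣ γ 1 0 := by
    rw [CongruenceSubgroup.Gamma0_mem] at hγ
    exact (ZMod.intCast_zmod_eq_zero_iff_dvd _ _).1 hγ
  have hdc : (d : ℤ) ∣ γ 1 0 := (Int.natCast_dvd_natCast.2 (Nat.dvd_of_mem_divisors hd)).trans hNc
  have had : a = d := by
    have := Int.gcd_eq_left (Int.natCast_nonneg d) hdc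
    rw [← hgcd] at this
    exact_mod_cast this
  subst had
  have ha1 : a' = 1 := by
    have : a * a' = a * 1 := by rw [hmul, mul_one]
    exact Nat.eq_of_mul_eq_mul_left ha this
  subst ha1
  rw [h, Delta_utr_add ha]
  simp

omit [NeZero N] in
lemma q1_dilate {d : ℕ} (hd : 0 < d) (τ : ℍ) : q1 (utr d 0 1 τ) = q1 τ ^ d := by
  have := q1_utr (N := 1) (a := d) (b := 0) (a' := 1) one_pos hd one_pos (dvd_refl 1) τ
  simpa [q1] using this

lemma h0f_eq : h0f N = q1 ^ (ZZ N).toNat * ∏ d ∈ N.divisors, Wz d 0 1 (rExp N d) := by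
  ext τ
  simp only [Pi.mul_apply, Pi.pow_apply, Finset.prod_apply]
  rw [← zpow_natCast, Int.toNat_of_nonneg (ZZ_nonneg N), ZZ, ← prod_zpow_eq _ (q1_ne_zero τ),
    ← Finset.prod_mul_distrib, h0f]
  refine Finset.prod_congr rfl fun d hd => ?_
  rw [Delta_eq, q1_dilate (Nat.pos_of_mem_divisors hd), mul_zpow, Wz, mul_comm (rExp N d),
    zpow_mul, zpow_natCast]

end EtaQuot

theorem isMF_h0f : IsMF (CongruenceSubgroup.Gamma0 N) (12 * MM N) (h0f N) where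
  holo := by
    have := (QI_h0f_slash N ⊤ trivial trivial 1).holo
    rwa [SlashAction.slash_one] at this
  inv γ hγ := by
    ext τ
    rw [h0f_slash_apply, h0f]
    exact Finset.prod_congr rfl fun d hd => by rw [dilate_slash_of_mem N hγ hd]
  bdd γ := (QI_h0f_slash N ⊤ trivial trivial γ).bdd

theorem qExpansion_h0f :
    qExpansion 1 (h0f N) =
      (PowerSeries.X ^ (ZZ N).toNat * (wU N : PowerSeries ℤ)).map (Int.castRingHom ℂ) := by
  have hW : ∀ d ∈ N.divisors, QI ⊤ 1 (Wz d 0 1 (rExp N d)) := fun d hd =>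
    QI_Wz (O := ⊤) one_pos (Subring.mem_top _) (Nat.pos_of_mem_divisors hd) one_pos (dvd_refl 1) _
  rw [h0f_eq, qExpansion_mul (QI.analytic_one (QI.pow one_pos (QI_q1 (O := ⊤)) _))
    (QI.analytic_one (QI.prod one_pos _ hW)), qExpansion_pow' (QI.analytic_one (QI_q1 (O := ⊤))),
    qExpansion_q1, UpperHalfPlane.qExpansion_prod _ (fun d hd => QI.analytic_one (hW d hd)),
    map_mul, map_pow, PowerSeries.map_X, wU, Units.coe_prod, map_prod]
  congr 1
  exact Finset.prod_congr rfl fun d hd => qExpansion_Wz (Nat.pos_of_mem_divisors hd).ne' _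

end

end Fermat.Agent.S28Lib
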