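import Fermat.Agent.S28.Defs
import Fermat.Agent.S28.Bridge
import Fermat.Agent.S28.QI
import Fermat.Agent.S28.Esymm
import Fermat.Agent.S28.EtaQuot
import Fermat.Prelude.Thm_CongruenceSubgroup_one_mem_strictPeriods_Gamma0

/-!
# S28 : the analytic relation (from AN-A, AN-C, AN-D, AN-E)
-/

set_option autoImplicit false

open ModularCurve UpperHalfPlane ModularForm Matrix.SpecialLinearGroup Filter Topology
open scoped MatrixGroups Manifold Polynomial
open Fermat.Agent.S20Lib

namespace Fermat.Agent.S28Lib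

noncomputable section

local notation "Δ" => ModularForm.discriminant

namespace RelationAux

section alg
variable {R A : Type*} [CommRing R] [CommRing A] [Algebra R A]

/-- the polynomial `∑_a c_a X^{m-a}` -/
def pPoly (c : ℕ → R) (m : ℕ) : R[X] :=
  ∑ a ∈ Finset.range (m + 1), Polynomial.C (c a) * Polynomial.X ^ (m - a)

lemma natDegree_pPoly_le (c : ℕ → R) (m : ℕ) : (pPoly c m).natDegree ≤ m := by
  unfold pPoly
  refine Polynomial.natDegree_sum_le_of_forall_le _ _ fun a _ => ?_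
  exact (Polynomial.natDegree_C_mul_X_pow_le _ _).trans (Nat.sub_le _ _)

lemma pow_mul_aeval_pPoly (c : ℕ → R) (m : ℕ) (D j E3 : A) (hD : D * j = E3) :
    D ^ m * Polynomial.aeval j (pPoly c m) =
      ∑ a ∈ Finset.range (m + 1), algebraMap R A (c a) * (D ^ a * E3 ^ (m - a)) := by
  unfold pPoly
  rw [map_sum, Finset.mul_sum]
  refine Finset.sum_congr rfl fun a ha => ?_
  have ha' : a ≤ m := Nat.lt_succ_iff.mp (Finset.mem_range.mp ha)
  rw [map_mul, Polynomial.aeval_C, map_pow, Polynomial.aeval_X, ← hD, mul_pow]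
  have : D ^ m = D ^ a * D ^ (m - a) := by rw [← pow_add]; congr 1; omega
  rw [this]; ring

theorem alg_core [Nontrivial R] (D j H E3 h : A) (M T : ℕ) (hD : D * j = E3) (hH : H * D ^ M = h)
    (hreg : IsUnit D) (c : ℕ → ℕ → R) (hc0 : c 0 0 = 1)
    (rel : ∑ n ∈ Finset.range (T + 1), (-1 : A) ^ (T - n) *
      ((∑ a ∈ Finset.range ((T - n) * M + 1),
        algebraMap R A (c (T - n) a) * (D ^ a * E3 ^ ((T - n) * M - a))) * h ^ n) = 0) :
    ∃ P : R[X][X], P.Monic ∧ (∀ i, (P.coeff i).natDegree ≤ M * (P.natDegree - i)) ∧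
      P.eval₂ (Polynomial.aeval (R := R) j).toRingHom H = 0 := by
  classical
  set q : ℕ → R[X] := fun n => (-1 : R[X]) ^ (T - n) * pPoly (c (T - n)) ((T - n) * M) with hq
  set P : R[X][X] := ∑ n ∈ Finset.range (T + 1), Polynomial.C (q n) * Polynomial.X ^ n with hP
  have hcoeff : ∀ i, P.coeff i = if i ∈ Finset.range (T + 1) then q i else 0 := by
    intro i
    rw [hP, Polynomial.finsetSum_coeff]
    simp only [Polynomial.coeff_C_mul_X_pow]
    rw [Finset.sum_ite_eq]
  have hdeg : P.natDegree ≤ T := by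
    rw [hP]
    refine Polynomial.natDegree_sum_le_of_forall_le _ _ fun n hn => ?_
    exact (Polynomial.natDegree_C_mul_X_pow_le _ _).trans
      (Nat.lt_succ_iff.mp (Finset.mem_range.mp hn))
  have hT : P.coeff T = 1 := by
    rw [hcoeff, if_pos (Finset.self_mem_range_succ T), hq]
    simp [pPoly, hc0]
  have hmonic : P.Monic := Polynomial.monic_of_natDegree_le_of_coeff_eq_one T hdeg hT
  have hdegT : P.natDegree = T :=
    Polynomial.natDegree_eq_of_le_of_coeff_ne_zero hdeg (by rw [hT]; exact one_ne_zero)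
  refine ⟨P, hmonic, fun i => ?_, ?_⟩
  · rw [hcoeff, hdegT]
    split_ifs with hi
    · rw [hq]
      have h1 : ((-1 : R[X]) ^ (T - i) * pPoly (c (T - i)) ((T - i) * M)).natDegree ≤
          (pPoly (c (T - i)) ((T - i) * M)).natDegree := by
        rcases neg_one_pow_eq_or R[X] (T - i) with h | h <;> rw [h] <;> simp
      exact h1.trans ((natDegree_pPoly_le _ _).trans (by rw [mul_comm]))
    · simp
  · have hreg' : IsUnit (D ^ (M * T)) := hreg.pow _
    apply hreg'.mul_left_cancel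
    rw [mul_zero, ← rel, hP, Polynomial.eval₂_finsetSum, Finset.mul_sum]
    refine Finset.sum_congr rfl fun n hn => ?_
    have hn' : n ≤ T := Nat.lt_succ_iff.mp (Finset.mem_range.mp hn)
    rw [Polynomial.eval₂_mul, Polynomial.eval₂_C, Polynomial.eval₂_pow, Polynomial.eval₂_X, hq]
    simp only [AlgHom.toRingHom_eq_coe, RingHom.coe_coe, map_mul, map_pow, map_neg, map_one]
    rw [← pow_mul_aeval_pPoly (c (T - n)) ((T - n) * M) D j E3 hD, ← hH, mul_pow]
    have : D ^ (M * T) = D ^ ((T - n) * M) * (D ^ M) ^ n := by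
      rw [← pow_mul, ← pow_add]
      congr 1
      have : T = (T - n) + n := by omega
      conv_lhs => rw [this]
      ring
    rw [this]; ring

end alg


section laurent
variable (κ : Type*) [CommRing κ]

/-- integral power series to Laurent series over `κ` -/
def LL : PowerSeries ℤ →+* LaurentSeries κ :=
  (HahnSeries.ofPowerSeries ℤ κ).comp (PowerSeries.map (Int.castRingHom κ))

lemma LL_apply (s : PowerSeries ℤ) :
    LL κ s = HahnSeries.ofPowerSeries ℤ κ (s.map (Int.castRingHom κ)) := rfl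

lemma LL_X : LL κ PowerSeries.X = HahnSeries.single (1 : ℤ) 1 := by
  rw [LL_apply, PowerSeries.map_X, HahnSeries.ofPowerSeries_X]

/-- `Δ` as a Laurent series -/
def DL : LaurentSeries κ := LL κ (PowerSeries.X * dedekindEtaUnit)

lemma DL_eq : DL κ = HahnSeries.single (1 : ℤ) 1 * LL κ dedekindEtaUnit := by
  rw [DL, map_mul, LL_X]

lemma single_mul_single_one (a b : ℤ) :
    (HahnSeries.single a (1 : κ)) * HahnSeries.single b 1 = HahnSeries.single (a + b) 1 := by
  rw [HahnSeries.single_mul_single, one_mul]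

lemma DL_mul_inv : DL κ * (HahnSeries.single (-1 : ℤ) 1 * LL κ dedekindEtaUnitInv) = 1 := by
  rw [DL_eq]
  calc _ = (HahnSeries.single (1 : ℤ) (1 : κ) * HahnSeries.single (-1 : ℤ) 1) *
        LL κ (dedekindEtaUnit * dedekindEtaUnitInv) := by rw [map_mul]; ring
    _ = 1 := by
      rw [dedekindEtaUnit_mul_inv, (LL κ).map_one, single_mul_single_one]
      simp

lemma isUnit_DL : IsUnit (DL κ) := IsUnit.of_mul_eq_one _ (DL_mul_inv κ)

lemma DL_mul_j : DL κ * jqModC κ = LL κ eisenstein4 ^ 3 := by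
  rw [DL_eq, jqModC, ← LL_apply, jNum]
  calc _ = (HahnSeries.single (1 : ℤ) (1 : κ) * HahnSeries.single (-1 : ℤ) 1) *
        LL κ (eisenstein4 ^ 3 * (dedekindEtaUnit * dedekindEtaUnitInv)) := by
          simp only [map_mul]; ring
    _ = _ := by
      rw [dedekindEtaUnit_mul_inv, mul_one, map_pow, single_mul_single_one]
      simp

lemma HH_mul_DL_pow (N : ℕ) (hZ : 0 ≤ ZZ N) (hM : 0 ≤ MM N) :
    HH N κ * DL κ ^ Mn N = LL κ (PowerSeries.X ^ (ZZ N).toNat * (wU N : PowerSeries ℤ)) := by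
  have hMn : ((Mn N : ℕ) : ℤ) = MM N := Int.toNat_of_nonneg hM
  have hZn : (((ZZ N).toNat : ℕ) : ℤ) = ZZ N := Int.toNat_of_nonneg hZ
  rw [HH, ← LL_apply, DL_eq, mul_pow, HahnSeries.single_pow, one_pow, ← map_pow]
  have h1 : HNum N * dedekindEtaUnit ^ Mn N = (wU N : PowerSeries ℤ) := by
    have : dedekindEtaUnit ^ Mn N = ((etaU ^ (MM N) : (PowerSeries ℤ)ˣ) : PowerSeries ℤ) := by
      rw [← hMn, zpow_natCast, Units.val_pow_eq_pow_val]
      rfl
    rw [this, HNum, ← Units.val_mul]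
    congr 1
    rw [mul_assoc, ← zpow_add]
    simp
  calc _ = (HahnSeries.single (ZZ N - MM N) (1 : κ) * HahnSeries.single (Mn N • (1 : ℤ)) 1) *
        LL κ (HNum N * dedekindEtaUnit ^ Mn N) := by rw [map_mul]; ring
    _ = _ := by
      rw [h1, single_mul_single_one, map_mul, map_pow, LL_X, HahnSeries.single_pow, one_pow]
      congr 2
      rw [nsmul_eq_mul, nsmul_eq_mul, mul_one, mul_one, hMn, hZn, sub_add_cancel]


lemma algebraMap_eq_ofPowerSeries_C (c : κ) :
    algebraMap κ (LaurentSeries κ) c = HahnSeries.ofPowerSeries ℤ κ (PowerSeries.C c) := by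
  rw [HahnSeries.algebraMap_apply']
  simp

end laurent

/-! ### the algebra of functions with analytic cusp function -/

/-- functions on `ℍ` whose cusp function is analytic at `0`. -/
def anaAlg : Subalgebra ℂ (ℍ → ℂ) where
  carrier := {F | AnalyticAt ℂ (cuspFunction 1 F) 0}
  mul_mem' := fun {f g} hf hg => by
    show AnalyticAt ℂ (cuspFunction 1 (f * g)) 0
    rw [cuspFunction_mul hf.continuousAt hg.continuousAt]
    exact hf.mul hg
  add_mem' := fun {f g} hf hg => by
    show AnalyticAt ℂ (cuspFunction 1 (f + g)) 0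
    rw [cuspFunction_add hf.continuousAt hg.continuousAt]
    exact hf.add hg
  algebraMap_mem' := fun r => by
    show AnalyticAt ℂ (cuspFunction 1 (algebraMap ℂ (ℍ → ℂ) r)) 0
    have h1 : AnalyticAt ℂ (cuspFunction 1 (1 : ℍ → ℂ)) 0 :=
      EsymmAux.analytic_of_isMF (isMF_one : IsMF ⊤ 0 (1 : ℍ → ℂ))
    rw [Algebra.algebraMap_eq_smul_one, cuspFunction_smul h1.continuousAt]
    exact h1.const_smul

/-- `q`-expansion as an algebra homomorphism. -/
def qE : anaAlg →ₐ[ℂ] PowerSeries ℂ where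
  toFun F := qExpansion 1 F.1
  map_one' := qExpansion_one 1
  map_mul' f g := qExpansion_mul f.2 g.2
  map_zero' := qExpansion_zero 1
  map_add' f g := qExpansion_add f.2 g.2
  commutes' r := by
    show qExpansion 1 (algebraMap ℂ (ℍ → ℂ) r) = _
    have h1 : AnalyticAt ℂ (cuspFunction 1 (1 : ℍ → ℂ)) 0 :=
      EsymmAux.analytic_of_isMF (isMF_one : IsMF ⊤ 0 (1 : ℍ → ℂ))
    rw [Algebra.algebraMap_eq_smul_one, qExpansion_smul h1, qExpansion_one,
      Algebra.algebraMap_eq_smul_one]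

lemma qE_mk {F : ℍ → ℂ} (hF : F ∈ anaAlg) : qE ⟨F, hF⟩ = qExpansion 1 F := rfl

end RelationAux

open RelationAux

/-- from a relation between `q`-expansions to a polynomial relation between Laurent series. -/
theorem relation_to_poly (N : ℕ) (O : Subring ℂ) {h0 : ℍ → ℂ}
    (hq : qExpansion 1 h0 =
      (PowerSeries.X ^ (ZZ N).toNat * (wU N : PowerSeries ℤ)).map (Int.castRingHom ℂ))
    (hZ : 0 ≤ ZZ N) (hM : 0 ≤ MM N) {T : ℕ} (c : ℕ → ℕ → O) (hc0 : c 0 0 = 1)
    (hrel3 : ∑ x ∈ Finset.range (T + 1), (-1 : ℂ) ^ (T - x) •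
      ((∑ x_1 ∈ Finset.range ((T - x) * Mn N + 1), (c (T - x) x_1 : ℂ) •
        (qExpansion 1 (Δ : ℍ → ℂ) ^ x_1 * qExpansion 1 (E₄ : ℍ → ℂ) ^ (3 * ((T - x) * Mn N - x_1)))) *
          qExpansion 1 h0 ^ x) = 0) :
    ∃ P : (↥O)[X][X], P.Monic ∧ (∀ i, (P.coeff i).natDegree ≤ Mn N * (P.natDegree - i)) ∧
      ev2 N ↥O P = 0 := by
  set M := Mn N with hMdef
  have hmap : ∀ s : PowerSeries ℤ, PowerSeries.map O.subtype (s.map (Int.castRingHom O)) =
      s.map (Int.castRingHom ℂ) := by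
    intro s; ext n; simp
  obtain ⟨DO, hDO1, hDO2⟩ : ∃ DO : PowerSeries O, PowerSeries.map O.subtype DO =
      qExpansion 1 (Δ : ℍ → ℂ) ∧ HahnSeries.ofPowerSeries ℤ O DO = DL O :=
    ⟨_, (hmap _).trans qExpansion_Delta.symm, rfl⟩
  obtain ⟨EO, hEO1, hEO2⟩ : ∃ EO : PowerSeries O, PowerSeries.map O.subtype EO =
      qExpansion 1 (E₄ : ℍ → ℂ) ∧ HahnSeries.ofPowerSeries ℤ O EO = LL O eisenstein4 :=
    ⟨_, (hmap _).trans qExpansion_E4.symm, rfl⟩
  obtain ⟨hO, hhO1, hhO2⟩ : ∃ hO : PowerSeries O, PowerSeries.map O.subtype hO =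
      qExpansion 1 h0 ∧ HahnSeries.ofPowerSeries ℤ O hO =
        LL O (PowerSeries.X ^ (ZZ N).toNat * (wU N : PowerSeries ℤ)) :=
    ⟨_, (hmap _).trans hq.symm, rfl⟩
  have hrelO : ∑ n ∈ Finset.range (T + 1), (-1 : PowerSeries O) ^ (T - n) *
      ((∑ a ∈ Finset.range ((T - n) * M + 1), PowerSeries.C (c (T - n) a) *
        (DO ^ a * (EO ^ 3) ^ ((T - n) * M - a))) * hO ^ n) = 0 := by
    apply PowerSeries.map_injective O.subtype Subtype.val_injective
    rw [map_zero, ← hrel3]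
    simp only [map_sum, map_mul, map_pow, map_neg, map_one, PowerSeries.map_C, hDO1, hEO1, hhO1]
    refine Finset.sum_congr rfl fun n _ => ?_
    rw [PowerSeries.smul_eq_C_mul, map_pow, map_neg, map_one]
    congr 2
    refine Finset.sum_congr rfl fun a _ => ?_
    rw [PowerSeries.smul_eq_C_mul, pow_mul]
    rfl
  have hrelL := congrArg (HahnSeries.ofPowerSeries ℤ O) hrelO
  simp only [map_sum, map_mul, map_pow, map_neg, map_one, map_zero, hDO2, hEO2, hhO2,
    ← algebraMap_eq_ofPowerSeries_C] at hrelL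
  have hH : HH N O * DL O ^ M =
      LL O PowerSeries.X ^ (ZZ N).toNat * LL O (wU N : PowerSeries ℤ) := by
    rw [← map_pow, ← map_mul]
    exact HH_mul_DL_pow O N hZ hM
  obtain ⟨P, h1, h2, h3⟩ := alg_core (DL O) (jqModC O) (HH N O) (LL O eisenstein4 ^ 3)
    (LL O PowerSeries.X ^ (ZZ N).toNat * LL O (wU N : PowerSeries ℤ)) M T (DL_mul_j O)
    hH (isUnit_DL O) c hc0 hrelL
  exact ⟨P, h1, h2, h3⟩


variable (N : ℕ) [NeZero N]

/-- `analytic_relation`, with the facts on the eta quotient as hypotheses. -/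
theorem analytic_relation_of (O : Subring ℂ) (h0 : ℍ → ℂ)
    (hMF : IsMF (CongruenceSubgroup.Gamma0 N) (12 * MM N) h0)
    (hQI : ∀ γ : SL(2, ℤ), QI O N (h0 ∣[12 * MM N] γ))
    (hq : qExpansion 1 h0 =
      (PowerSeries.X ^ (ZZ N).toNat * (wU N : PowerSeries ℤ)).map (Int.castRingHom ℂ))
    (hZ : 0 ≤ ZZ N) (hM : 0 ≤ MM N) :
    ∃ P : (↥O)[X][X], P.Monic ∧ (∀ i, (P.coeff i).natDegree ≤ Mn N * (P.natDegree - i)) ∧
      ev2 N ↥O P = 0 := by
  classical
  have hNpos : 0 < N := Nat.pos_of_ne_zero (NeZero.ne N)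
  have hMn : ((Mn N : ℕ) : ℤ) = MM N := Int.toNat_of_nonneg hM
  set T := idx N with hT
  set M := Mn N with hMdef
  set k : ℤ := 12 * MM N with hk
  -- structure of the symmetric functions
  have key : ∀ i : ℕ, ∃ c : ℕ → O, esymmConj N k h0 i = ∑ a ∈ Finset.range (i * M + 1),
      (c a : ℂ) • ((Δ : ℍ → ℂ) ^ a * (E₄ : ℍ → ℂ) ^ (3 * (i * M - a))) := by
    intro i
    have h1 : IsMF ⊤ (12 * ((i * M : ℕ) : ℤ)) (esymmConj N k h0 i) := by
      have := isMF_esymmConj N hMF i
      have e : (i : ℤ) * (12 * MM N) = 12 * ((i * M : ℕ) : ℤ) := by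
        push_cast; rw [hMn]; ring
      rwa [e] at this
    have h2 : QI O N (esymmConj N k h0 i) :=
      QI.sum hNpos _ fun s _ => QI.prod hNpos s fun x _ => hQI _
    have h3 : QI O 1 (esymmConj N k h0 i) := h2.descend hNpos h1.periodic_one
    refine levelOne_structure O (i * M) _ h1 fun n => ?_
    have := h3.int n
    simpa using this
  choose c hc using key
  have hc0 : c 0 0 = 1 := by
    have h1 := hc 0
    have h2 : esymmConj N k h0 0 = 1 := by
      simp [esymmConj]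
    rw [h2] at h1
    have h3 := congrFun h1 UpperHalfPlane.I
    simp at h3
    exact Subtype.ext h3.symm
  -- the relation between functions
  have hrel := sum_esymmConj_mul_pow N hMF.inv
  rw [← hT, ← Finset.sum_range_reflect] at hrel
  -- elements of `anaAlg`
  have hΔ : (Δ : ℍ → ℂ) ∈ anaAlg := EsymmAux.analytic_of_isMF isMF_Dl
  have hE : (E₄ : ℍ → ℂ) ∈ anaAlg := EsymmAux.analytic_of_isMF isMF_E4
  have hh : h0 ∈ anaAlg := by
    have h1 : QI O N h0 := by simpa using hQI 1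
    have h2 : Function.Periodic (h0 ∘ ofComplex) 1 := by
      have := SlashInvariantFormClass.periodic_comp_ofComplex (h := 1) hMF.toModularForm
        (CongruenceSubgroup.one_mem_strictPeriods_Gamma0 N)
      simpa using this
    exact analyticAt_cuspFunction_zero one_pos h2 hMF.holo h1.bdd
  have hrel2 : ∑ n ∈ Finset.range (T + 1), (-1 : ℂ) ^ (T - n) •
      ((∑ a ∈ Finset.range ((T - n) * M + 1), (c (T - n) a : ℂ) •
        ((⟨Δ, hΔ⟩ : anaAlg) ^ a * (⟨E₄, hE⟩ : anaAlg) ^ (3 * ((T - n) * M - a)))) *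
          (⟨h0, hh⟩ : anaAlg) ^ n) = 0 := by
    apply Subtype.ext
    rw [ZeroMemClass.coe_zero, ← hrel]
    push_cast
    refine Finset.sum_congr rfl fun n hn => ?_
    have hn' : n ≤ T := Nat.lt_succ_iff.mp (Finset.mem_range.mp hn)
    have e2 : T - (T - n) = n := by omega
    rw [e2, hc]
  have hrel3 := congrArg qE hrel2
  simp only [map_sum, map_smul, map_mul, map_pow, map_zero, qE_mk] at hrel3
  exact relation_to_poly N O hq hZ hM c hc0 hrel3

theorem analytic_relation (O : Subring ℂ) (hN : (N : ℂ)⁻¹ ∈ O)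
    (hζ : Complex.exp (2 * Real.pi * Complex.I / N) ∈ O) :
    ∃ P : (↥O)[X][X], P.Monic ∧ (∀ i, (P.coeff i).natDegree ≤ Mn N * (P.natDegree - i)) ∧
      ev2 N ↥O P = 0 :=
  analytic_relation_of N O (h0f N) (isMF_h0f N) (QI_h0f_slash N O hN hζ) (qExpansion_h0f N)
    (ZZ_nonneg N) (MM_pos N).le

theorem MM_mul_idx_le : MM N * idx N ≤ ZZ N := MM_mul_idx_le' N

end

end Fermat.Agent.S28Lib
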