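import Fermat.Agent.S28.IsQ
import Fermat.Agent.S28.Bridge

/-!
# S28 AN-F : rational `q`-expansions of forms on `Γ₀(N)` (`E₄(dτ)`, `Δ(dτ)`)
-/

set_option autoImplicit false

open ModularCurve UpperHalfPlane ModularForm Matrix.SpecialLinearGroup
open scoped MatrixGroups Manifold Polynomial
open Fermat.Agent.S20Lib

namespace Fermat.Agent.S28Lib

noncomputable section

local notation "Δ" => ModularForm.discriminant

variable (N : ℕ) [NeZero N]

lemma IsQAux.map_int_rat (s : PowerSeries ℤ) :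
    (s.map (Int.castRingHom ℚ)).map (algebraMap ℚ ℂ) = s.map (Int.castRingHom ℂ) := by
  ext m
  simp

/-- a form with integral `q`-expansion. -/
theorem isQ_of_int {k : ℕ} {f : ℍ → ℂ} (hf : IsMF (CongruenceSubgroup.Gamma0 N) k f)
    {s : PowerSeries ℤ} (hs : qExpansion 1 f = s.map (Int.castRingHom ℂ)) :
    IsQ N k (s.map (Int.castRingHom ℚ)) :=
  ⟨f, hf, by rw [hs, IsQAux.map_int_rat]⟩

theorem isQ_E4 {d : ℕ} (hd : d ∣ N) (hd0 : d ≠ 0) :
    IsQ N 4 (PowerSeries.expand d hd0 (eisenstein4.map (Int.castRingHom ℚ))) :=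
  isQ_dilate N (k := 4) (f := (E₄ : ℍ → ℂ)) (isMF_top_coe E₄)
    (by rw [qExpansion_E4, IsQAux.map_int_rat]) hd hd0

theorem isQ_Delta {d : ℕ} (hd : d ∣ N) (hd0 : d ≠ 0) :
    IsQ N 12 (PowerSeries.expand d hd0
      ((PowerSeries.X * dedekindEtaUnit).map (Int.castRingHom ℚ))) :=
  isQ_dilate N (k := 12) (f := (Δ : ℍ → ℂ)) (isCF_top_coe CuspForm.discriminant).isMF
    (by rw [qExpansion_Delta, IsQAux.map_int_rat]) hd hd0

end

end Fermat.Agent.S28Lib
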