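import Fermat.Agent.S28.Defs
import Fermat.Agent.S20.Cosets

/-!
# S28, piece Ar : arithmetic of the exponents of the eta quotient
-/

set_option autoImplicit false

open scoped ArithmeticFunction.Moebius

namespace Fermat.Agent.S28Lib

namespace Arith

/-- Jordan's totient `J₂`, defined by Moebius inversion. -/
def jor (n : ℕ) : ℤ := ∑ x ∈ n.divisorsAntidiagonal, (ArithmeticFunction.moebius x.1 : ℤ) * (x.2 : ℤ) ^ 2

theorem sum_jor (n : ℕ) (hn : 0 < n) : ∑ i ∈ n.divisors, jor i = (n : ℤ) ^ 2 := by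
  have := (ArithmeticFunction.sum_eq_iff_sum_mul_moebius_eq (R := ℤ) (f := jor)
    (g := fun n => (n : ℤ) ^ 2)).2 (fun n _ => by simp only [Int.cast_id]; rfl)
  exact this n hn

theorem MM_eq_totient (N : ℕ) (hN : 0 < N) : MM N = (Nat.totient N : ℤ) := by
  have h := (ArithmeticFunction.sum_eq_iff_sum_mul_moebius_eq (R := ℤ)
    (f := fun n => (Nat.totient n : ℤ)) (g := fun n => (n : ℤ))).1
    (fun n _ => by
      have := Nat.sum_totient n
      exact_mod_cast this) N hN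
  simp only [Int.cast_id] at h
  rw [← h, MM]
  rw [Nat.sum_divisorsAntidiagonal' (f := fun a b => (ArithmeticFunction.moebius a : ℤ) * (b : ℤ))]
  rfl

theorem filter_dvd (n : ℕ) (hn : 0 < n) (c : ℤ) :
    n.divisors.filter (fun e : ℕ => (e : ℤ) ∣ c) = (Int.gcd n c).divisors := by
  ext e
  simp only [Finset.mem_filter, Nat.mem_divisors]
  constructor
  · rintro ⟨⟨h1, _⟩, h2⟩
    refine ⟨?_, ?_⟩
    · exact Int.natCast_dvd_natCast.1 (Int.dvd_coe_gcd (Int.natCast_dvd_natCast.2 h1) h2)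
    · intro h
      rw [Int.gcd_eq_zero_iff] at h
      omega
  · rintro ⟨h1, _⟩
    have h1' : (e : ℤ) ∣ (Int.gcd n c : ℤ) := Int.natCast_dvd_natCast.2 h1
    refine ⟨⟨?_, hn.ne'⟩, h1'.trans (Int.gcd_dvd_right _ _)⟩
    exact Int.natCast_dvd_natCast.1 (h1'.trans (Int.gcd_dvd_left _ _))

theorem sum_ite_jor (c : ℤ) (n : ℕ) (hn : 0 < n) :
    ∑ i ∈ n.divisors, (if (i : ℤ) ∣ c then jor i else 0) = ((Int.gcd n c : ℕ) : ℤ) ^ 2 := by
  rw [← Finset.sum_filter, filter_dvd n hn c]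
  apply sum_jor
  apply Nat.pos_of_ne_zero
  intro h
  rw [Int.gcd_eq_zero_iff] at h
  omega

end Arith

open Arith

variable (N : ℕ) [NeZero N]

theorem MM_pos : 0 < MM N := by
  rw [MM_eq_totient N (NeZero.pos N)]
  exact_mod_cast Nat.totient_pos.2 (NeZero.pos N)

theorem sum_moebius_gcd_sq (c : ℤ) (hc : ¬ (N : ℤ) ∣ c) :
    ∑ d ∈ N.divisors, (ArithmeticFunction.moebius (N / d) : ℤ) * ((Int.gcd d c : ℤ)) ^ 2 = 0 := by
  have h := (ArithmeticFunction.sum_eq_iff_sum_mul_moebius_eq (R := ℤ)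
    (f := fun i => if (i : ℤ) ∣ c then jor i else 0)
    (g := fun n => ((Int.gcd n c : ℕ) : ℤ) ^ 2)).1 (fun n hn => sum_ite_jor c n hn) N (NeZero.pos N)
  simp only [Int.cast_id] at h
  rw [Nat.sum_divisorsAntidiagonal'
    (f := fun a b => (ArithmeticFunction.moebius a : ℤ) * ((Int.gcd b c : ℕ) : ℤ) ^ 2)] at h
  rw [h, if_neg hc]

/-! ### `ZZ N = MM N * idx N` -/


namespace Arith

/-- `jor` as an arithmetic function. -/
noncomputable def jorA : ArithmeticFunction ℤ :=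
  ArithmeticFunction.moebius * ((ArithmeticFunction.pow 2 : ArithmeticFunction ℕ) : ArithmeticFunction ℤ)

theorem jorA_apply (n : ℕ) : jorA n = jor n := by
  rw [jorA, ArithmeticFunction.mul_apply, jor]
  refine Finset.sum_congr rfl fun x hx => ?_
  have hx2 : x.2 ≠ 0 := by
    have := Nat.mem_divisorsAntidiagonal.1 hx
    intro h
    rw [h, mul_zero] at this
    exact this.2 this.1.symm
  rw [ArithmeticFunction.natCoe_apply, ArithmeticFunction.pow_apply]
  simp [hx2]

theorem jorA_mult : jorA.IsMultiplicative :=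
  ArithmeticFunction.isMultiplicative_moebius.mul (ArithmeticFunction.isMultiplicative_pow (k := 2)).natCast

theorem jor_mul {m n : ℕ} (h : m.Coprime n) : jor (m * n) = jor m * jor n := by
  rw [← jorA_apply, ← jorA_apply, ← jorA_apply, jorA_mult.map_mul_of_coprime h]

theorem jor_one : jor 1 = 1 := by
  rw [← jorA_apply, jorA_mult.map_one]

theorem jor_prime_pow_succ {p : ℕ} (hp : p.Prime) (k : ℕ) :
    jor (p ^ (k + 1)) = (p : ℤ) ^ (2 * k) * ((p : ℤ) ^ 2 - 1) := by
  have h1 := sum_jor (p ^ (k + 1)) (pow_pos hp.pos _)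
  have h0 := sum_jor (p ^ k) (pow_pos hp.pos _)
  rw [Nat.sum_divisors_prime_pow hp] at h1 h0
  rw [Finset.sum_range_succ, h0] at h1
  push_cast at h1
  have : jor (p ^ (k + 1)) = ((p : ℤ) ^ (k + 1)) ^ 2 - ((p : ℤ) ^ k) ^ 2 := by linarith
  rw [this]; ring

theorem jor_prime_mul_of_not_dvd {p n : ℕ} (hp : p.Prime) (h : ¬ p ∣ n) :
    jor (p * n) = ((p : ℤ) ^ 2 - 1) * jor n := by
  rw [jor_mul ((Nat.Prime.coprime_iff_not_dvd hp).2 h)]
  have := jor_prime_pow_succ hp 0
  simp only [zero_add, pow_one, mul_zero, pow_zero, one_mul] at this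
  rw [this]

theorem jor_prime_mul_of_dvd {p n : ℕ} (hn : n ≠ 0) (hp : p.Prime) (h : p ∣ n) :
    jor (p * n) = (p : ℤ) ^ 2 * jor n := by
  obtain ⟨k, m, hm, rfl⟩ := Nat.exists_eq_pow_mul_and_not_dvd hn p hp.ne_one
  have hk : k ≠ 0 := by
    rintro rfl
    simp at h
    exact hm h
  obtain ⟨k, rfl⟩ := Nat.exists_eq_succ_of_ne_zero hk
  have hc : ∀ j, (p ^ j).Coprime m := fun j =>
    Nat.Coprime.pow_left _ ((Nat.Prime.coprime_iff_not_dvd hp).2 hm)
  rw [← mul_assoc, ← pow_succ', jor_mul (hc _), jor_mul (hc _), jor_prime_pow_succ hp,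
    jor_prime_pow_succ hp]
  ring

theorem ZZ_eq_jor (N : ℕ) : ZZ N = jor N := by
  rw [ZZ, jor, Nat.sum_divisorsAntidiagonal'
    (f := fun a b => (ArithmeticFunction.moebius a : ℤ) * (b : ℤ) ^ 2)]
  refine Finset.sum_congr rfl fun d _ => ?_
  rw [rExp]; ring

theorem jor_eq (n : ℕ) (hn : n ≠ 0) :
    jor n = (Nat.totient n : ℤ) * (ModularCurve.dedekindPsi n : ℤ) := by
  induction n using Nat.strong_induction_on with
  | _ n ih =>
    by_cases h1 : n = 1
    · subst h1
      simp [jor_one]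
    · obtain ⟨p, hp, m, rfl⟩ := Nat.exists_prime_and_dvd h1
      have hm0 : m ≠ 0 := by rintro rfl; simp at hn
      have hlt : m < p * m := by
        have := hp.two_le
        have : 0 < m := Nat.pos_of_ne_zero hm0
        nlinarith
      have ihm := ih m hlt hm0
      by_cases hpm : p ∣ m
      · rw [jor_prime_mul_of_dvd hm0 hp hpm, S20Lib.dedekindPsi_mul_of_dvd hm0 hp hpm,
          Nat.totient_mul_of_prime_of_dvd hp hpm, ihm]
        push_cast; ring
      · rw [jor_prime_mul_of_not_dvd hp hpm, S20Lib.dedekindPsi_mul_of_not_dvd hm0 hp hpm,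
          Nat.totient_mul_of_prime_of_not_dvd hp hpm, ihm]
        have : 1 ≤ p := hp.one_le
        push_cast [Nat.cast_sub this]; ring

end Arith

open Arith

theorem ZZ_eq_MM_mul_idx (N : ℕ) [NeZero N] : ZZ N = MM N * idx N := by
  rw [ZZ_eq_jor, jor_eq N (NeZero.ne N), MM_eq_totient N (NeZero.pos N), idx, S20Lib.index_Gamma0]

end Fermat.Agent.S28Lib
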