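import Mathlib

/-!
# S28, piece K : the key lemma (pure algebra)
-/

set_option autoImplicit false

open scoped Polynomial
open Polynomial

namespace Fermat.Agent.S28Lib

noncomputable section

namespace KeyLemma

variable {κ : Type*} [Field κ]

/-- weighted homogenisation `Q(X, Y) ↦ Q(t, Y t^M)`, as a polynomial in `t` over `κ[Y]`. -/
def wmap (M : ℕ) : κ[X][X] →+* κ[X][X] :=
  Polynomial.eval₂RingHom (Polynomial.mapRingHom (Polynomial.C : κ →+* κ[X]))
    (Polynomial.C Polynomial.X * Polynomial.X ^ M)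

theorem coeff_wmap (M : ℕ) (Q : κ[X][X]) (d j : ℕ) :
    ((wmap M Q).coeff d).coeff j = if M * j ≤ d then (Q.coeff j).coeff (d - M * j) else 0 := by
  induction Q using Polynomial.induction_on' with
  | add p q hp hq =>
    rw [map_add, coeff_add, coeff_add, hp, hq]
    split_ifs <;> simp
  | monomial n c =>
    have h1 : wmap M (monomial n c) = (c.map C * C (X ^ n)) * X ^ (M * n) := by
      simp only [wmap, coe_eval₂RingHom, eval₂_monomial, coe_mapRingHom, mul_pow, ← pow_mul, C_pow]
      ring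
    rw [h1, coeff_mul_X_pow', coeff_monomial]
    by_cases hnj : n = j
    · subst hnj
      rw [if_pos rfl]
      split_ifs with h
      · rw [coeff_mul_C, coeff_map, coeff_C_mul, coeff_X_pow]; simp
      · simp
    · rw [if_neg hnj]
      split_ifs with h h'
      · rw [coeff_mul_C, coeff_map, coeff_C_mul, coeff_X_pow, if_neg (Ne.symm hnj)]; simp
      · rw [coeff_mul_C, coeff_map, coeff_C_mul, coeff_X_pow, if_neg (Ne.symm hnj)]; simp
      · simp
      · simp

theorem wmap_natDegree_le (M : ℕ) (Q : κ[X][X]) (D : ℕ)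
    (h : ∀ i, (Q.coeff i).natDegree + M * i ≤ D ∨ Q.coeff i = 0) : (wmap M Q).natDegree ≤ D := by
  rw [natDegree_le_iff_coeff_eq_zero]
  intro d hd
  ext j
  rw [coeff_wmap, coeff_zero]
  split_ifs with hj
  · rcases h j with h1 | h1
    · exact coeff_eq_zero_of_natDegree_lt (by omega)
    · rw [h1]; simp
  · rfl

theorem natDegree_coeff_le_of_wmap (M : ℕ) (Q : κ[X][X]) (D : ℕ) (h : (wmap M Q).natDegree ≤ D)
    (i : ℕ) : (Q.coeff i).natDegree + M * i ≤ D ∨ Q.coeff i = 0 := by
  by_cases h0 : Q.coeff i = 0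
  · exact Or.inr h0
  left
  by_contra hcon
  push Not at hcon
  have h1 := coeff_wmap M Q ((Q.coeff i).natDegree + M * i) i
  have h2 : (wmap M Q).coeff ((Q.coeff i).natDegree + M * i) = 0 :=
    coeff_eq_zero_of_natDegree_lt (by omega)
  rw [if_pos (by omega), h2] at h1
  simp only [coeff_zero, add_tsub_cancel_right, coeff_natDegree] at h1
  exact h0 (leadingCoeff_eq_zero.mp h1.symm)

theorem le_wmap_natDegree_of_monic (M : ℕ) (Q : κ[X][X]) (hQ : Q.Monic) :
    M * Q.natDegree ≤ (wmap M Q).natDegree := by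
  apply le_natDegree_of_ne_zero
  intro h
  have h1 := coeff_wmap M Q (M * Q.natDegree) Q.natDegree
  rw [h, if_pos le_rfl, hQ.coeff_natDegree] at h1
  simp at h1

theorem wmap_ne_zero (M : ℕ) (Q : κ[X][X]) (hQ : Q ≠ 0) : wmap M Q ≠ 0 := by
  intro h
  apply hQ
  ext i k
  have h1 := coeff_wmap M Q (k + M * i) i
  rw [h, if_pos (by omega)] at h1
  simpa using h1.symm

/-- a monic factor of a monic "weighted-bounded" polynomial is weighted-bounded -/
theorem bound_of_dvd (M : ℕ) (P m : κ[X][X]) (hP : P.Monic) (hm : m.Monic) (hdvd : m ∣ P)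
    (hdeg : ∀ i, (P.coeff i).natDegree ≤ M * (P.natDegree - i)) (i : ℕ) :
    (m.coeff i).natDegree + M * i ≤ M * m.natDegree ∨ m.coeff i = 0 := by
  obtain ⟨r, hr⟩ := hdvd
  have hrm : r.Monic := by
    rw [hr] at hP
    exact hm.of_mul_monic_left hP
  have h1 : (wmap M P).natDegree ≤ M * P.natDegree := by
    apply wmap_natDegree_le
    intro i
    by_cases hi : i ≤ P.natDegree
    · left
      have := hdeg i
      have h2 : M * (P.natDegree - i) + M * i = M * P.natDegree := by
        rw [← mul_add]; congr 1; omega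
      omega
    · right
      exact coeff_eq_zero_of_natDegree_lt (by omega)
  have h2 : (wmap M P).natDegree = (wmap M m).natDegree + (wmap M r).natDegree := by
    rw [hr, map_mul, natDegree_mul (wmap_ne_zero M m hm.ne_zero) (wmap_ne_zero M r hrm.ne_zero)]
  have h3 : P.natDegree = m.natDegree + r.natDegree := by
    rw [hr, hm.natDegree_mul hrm]
  have h4 := le_wmap_natDegree_of_monic M r hrm
  apply natDegree_coeff_le_of_wmap
  rw [h3, mul_add] at h1
  omega

local notation "vv" => HahnSeries.addVal ℤ κ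

theorem ge_mul {y z : LaurentSeries κ} {a b : ℤ} (hy : (a : WithTop ℤ) ≤ vv y)
    (hz : (b : WithTop ℤ) ≤ vv z) : ((a + b : ℤ) : WithTop ℤ) ≤ vv (y * z) := by
  rw [AddValuation.map_mul, WithTop.coe_add]
  exact add_le_add hy hz

theorem ge_pow {y : LaurentSeries κ} {a : ℤ} (hy : (a : WithTop ℤ) ≤ vv y) (i : ℕ) :
    ((i * a : ℤ) : WithTop ℤ) ≤ vv (y ^ i) := by
  induction i with
  | zero => simp
  | succ n ih =>
    rw [pow_succ]
    have := ge_mul ih hy
    convert this using 2
    push_cast; ring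

theorem ge_mono {y : LaurentSeries κ} {a b : ℤ} (hab : a ≤ b) (hy : (b : WithTop ℤ) ≤ vv y) :
    (a : WithTop ℤ) ≤ vv y := le_trans (WithTop.coe_le_coe.mpr hab) hy

theorem ge_C (c : κ) : ((0 : ℤ) : WithTop ℤ) ≤ vv (HahnSeries.C c : LaurentSeries κ) := by
  by_cases hc : c = 0
  · subst hc; simp
  · rw [HahnSeries.addVal_apply, HahnSeries.C_apply, HahnSeries.orderTop_single hc]

theorem algMap_eq (c : κ) : algebraMap κ (LaurentSeries κ) c = HahnSeries.C c := by
  rw [HahnSeries.algebraMap_apply', PowerSeries.algebraMap_apply, HahnSeries.ofPowerSeries_C]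
  rfl

theorem val_C {c : κ} (hc : c ≠ 0) : vv (HahnSeries.C c : LaurentSeries κ) = ((0 : ℤ) : WithTop ℤ) := by
  rw [HahnSeries.addVal_apply, HahnSeries.C_apply, HahnSeries.orderTop_single hc]

variable (x : LaurentSeries κ) (hx : x.order = -1)

include hx in
theorem x_ne_zero : x ≠ 0 := by
  rintro rfl
  simp at hx

include hx in
theorem val_x : vv x = ((-1 : ℤ) : WithTop ℤ) := by
  rw [HahnSeries.addVal_apply_of_ne (x_ne_zero x hx), hx]

include hx in
theorem val_x_pow (i : ℕ) : vv (x ^ i) = ((-(i : ℤ) : ℤ) : WithTop ℤ) := by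
  induction i with
  | zero => simp
  | succ n ih =>
    rw [pow_succ, AddValuation.map_mul, ih, val_x x hx, ← WithTop.coe_add]
    congr 1
    push_cast; ring

include hx in
theorem val_aeval_ge (a : κ[X]) (D : ℕ) (ha : a.natDegree ≤ D) :
    ((-(D : ℤ) : ℤ) : WithTop ℤ) ≤ vv (aeval x a) := by
  rw [aeval_eq_sum_range]
  apply AddValuation.map_le_sum
  intro i hi
  rw [Finset.mem_range] at hi
  rw [Algebra.smul_def]
  rw [algMap_eq]
  have h2 := ge_mul (ge_C (a.coeff i)) (le_of_eq (val_x_pow x hx i).symm)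
  exact ge_mono (by omega) h2

include hx in
theorem val_aeval_eq (a : κ[X]) (ha : a ≠ 0) :
    vv (aeval x a) = ((-(a.natDegree : ℤ) : ℤ) : WithTop ℤ) := by
  have h1 : vv (aeval x (C a.leadingCoeff * X ^ a.natDegree)) =
      ((-(a.natDegree : ℤ) : ℤ) : WithTop ℤ) := by
    rw [map_mul, map_pow, aeval_X, aeval_C, AddValuation.map_mul, val_x_pow x hx]
    rw [algMap_eq, val_C (leadingCoeff_ne_zero.mpr ha), ← WithTop.coe_add,
      zero_add]
  conv_lhs => rw [← eraseLead_add_C_mul_X_pow a, map_add, add_comm]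
  rw [AddValuation.map_add_eq_of_lt_left, h1]
  rw [h1]
  rcases eraseLead_natDegree_lt_or_eraseLead_eq_zero a with h | h
  · refine lt_of_lt_of_le ?_ (val_aeval_ge x hx a.eraseLead (a.natDegree - 1) (by omega))
    rw [WithTop.coe_lt_coe]
    omega
  · rw [h, map_zero, AddValuation.map_zero]; exact WithTop.coe_lt_top _

include hx in
theorem aeval_injective : Function.Injective (aeval x : κ[X] →ₐ[κ] LaurentSeries κ) := by
  rw [injective_iff_map_eq_zero]
  intro a ha
  by_contra h0
  have := val_aeval_eq x hx a h0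
  rw [ha, AddValuation.map_zero] at this
  exact WithTop.top_ne_coe this

end KeyLemma

open KeyLemma in
theorem key_lemma {κ : Type*} [Field κ] (x h : LaurentSeries κ) (M T : ℕ) (hM : 0 < M)
    (hx : x.order = -1) (hh0 : h ≠ 0) (hh : (M * T : ℤ) ≤ h.order + M)
    (P : κ[X][X]) (hP : P.Monic) (hdeg : ∀ i, (P.coeff i).natDegree ≤ M * (P.natDegree - i))
    (hroot : P.eval₂ (Polynomial.aeval x).toRingHom h = 0) :
    ∀ p : κ[X][X], p ≠ 0 → p.eval₂ (Polynomial.aeval x).toRingHom h = 0 → T ≤ p.natDegree := by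
  intro p hp0 hp
  let _ : Algebra κ[X] (LaurentSeries κ) := (Polynomial.aeval x).toRingHom.toAlgebra
  have halg : ∀ a : κ[X], algebraMap κ[X] (LaurentSeries κ) a = aeval x a := fun a => rfl
  have hinj : Function.Injective (algebraMap κ[X] (LaurentSeries κ)) := aeval_injective x hx
  have : FaithfulSMul κ[X] (LaurentSeries κ) := (faithfulSMul_iff_algebraMap_injective _ _).mpr hinj
  have hint : IsIntegral κ[X] h := ⟨P, hP, hroot⟩
  set m := minpoly κ[X] h with hm
  have hmm : m.Monic := minpoly.monic hint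
  have hmP : m ∣ P := minpoly.isIntegrallyClosed_dvd hint hroot
  have hmp : m ∣ p := minpoly.isIntegrallyClosed_dvd hint hp
  have hle : m.natDegree ≤ p.natDegree := natDegree_le_of_dvd hmp hp0
  refine le_trans ?_ hle
  have hb := bound_of_dvd M P m hP hmm hmP hdeg
  have hmh : aeval h m = 0 := minpoly.aeval _ _
  -- the constant coefficient is nonzero
  have hb0 : m.coeff 0 ≠ 0 := by
    intro h0
    obtain ⟨r, hr⟩ := X_dvd_iff.mpr h0
    have hrm : r.Monic := by
      rw [hr] at hmm
      exact monic_X.of_mul_monic_left hmm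
    have h1 : aeval h r = 0 := by
      rw [hr, map_mul, aeval_X] at hmh
      exact (mul_eq_zero.mp hmh).resolve_left hh0
    have h2 := natDegree_le_natDegree (minpoly.min κ[X] h hrm h1)
    rw [← hm, hr, monic_X.natDegree_mul hrm, natDegree_X] at h2
    omega
  rw [aeval_eq_sum_range, Finset.sum_range_succ'] at hmh
  simp only [pow_zero, Algebra.smul_def, mul_one, halg] at hmh
  have h3 : aeval x (m.coeff 0) =
      -∑ i ∈ Finset.range m.natDegree, aeval x (m.coeff (i + 1)) * h ^ (i + 1) := by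
    rw [eq_neg_iff_add_eq_zero, add_comm]; exact hmh
  have h4 := val_aeval_eq x hx _ hb0
  have hvh : HahnSeries.addVal ℤ κ h = (h.order : WithTop ℤ) := HahnSeries.addVal_apply_of_ne hh0
  have h5 : (((M * T : ℤ) - M * m.natDegree : ℤ) : WithTop ℤ) ≤
      HahnSeries.addVal ℤ κ (aeval x (m.coeff 0)) := by
    rw [h3, AddValuation.map_neg]
    apply AddValuation.map_le_sum
    intro i hi
    rw [Finset.mem_range] at hi
    rcases hb (i + 1) with h6 | h6
    · have h7 := val_aeval_ge x hx (m.coeff (i + 1)) (M * m.natDegree - M * (i + 1)) (by omega)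
      have h8 := ge_pow (le_of_eq hvh.symm) (i + 1)
      refine ge_mono ?_ (ge_mul h7 h8)
      have h9 : M * (i + 1) ≤ M * m.natDegree := by omega
      push_cast [h9]
      have h10 : ((i : ℤ) + 1) * ((M : ℤ) * T - M) ≤ ((i : ℤ) + 1) * h.order :=
        mul_le_mul_of_nonneg_left (by linarith) (by positivity)
      have h11 : (0 : ℤ) ≤ (i : ℤ) * ((M : ℤ) * T) := by positivity
      nlinarith
    · rw [h6]; simp
  rw [h4, WithTop.coe_le_coe] at h5
  have h6 : (M : ℤ) * T ≤ M * m.natDegree := by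
    have : (0 : ℤ) ≤ (m.coeff 0).natDegree := by positivity
    linarith
  have h7 : M * T ≤ M * m.natDegree := by exact_mod_cast h6
  exact Nat.le_of_mul_le_mul_left h7 hM

end

end Fermat.Agent.S28Lib
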