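import Fermat.Agent.S28.Defs2
import Fermat.Agent.S28.KeyLemma
import Fermat.Agent.S28.Arith
import Fermat.Agent.S28.Relation

set_option autoImplicit false
set_option linter.unusedSectionVars false

open ModularCurve HahnSeries
open scoped Polynomial

namespace Fermat.Agent.S28Lib

noncomputable section

variable (N : ℕ) [NeZero N]

/-! ### naturality of `HH`, `evJ`, `ev2` -/

theorem coeffMap_HH {κ κ' : Type*} [CommRing κ] [CommRing κ'] (f : κ →+* κ') :
    coeffMap f (HH N κ) = HH N κ' := by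
  rw [HH, map_mul, coeffMap_single, map_one, coeffMap_ofPowerSeries,
    ← RingHom.comp_apply (PowerSeries.map f) (PowerSeries.map (Int.castRingHom κ)),
    ← PowerSeries.map_comp, RingHom.ext_int (f.comp (Int.castRingHom κ)) (Int.castRingHom κ')]
  rfl

theorem algebraMap_laurent_eq_single {A : Type*} [CommRing A] (a : A) :
    algebraMap A (LaurentSeries A) a = HahnSeries.single 0 a := by
  have h1 : algebraMap A (PowerSeries A) a = PowerSeries.C a := by simp
  rw [HahnSeries.algebraMap_apply', h1, HahnSeries.ofPowerSeries_C]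
  rfl

theorem coeffMap_algebraMap' {κ κ' : Type*} [CommRing κ] [CommRing κ'] (f : κ →+* κ') (c : κ) :
    coeffMap f (algebraMap κ (LaurentSeries κ) c) = algebraMap κ' (LaurentSeries κ') (f c) := by
  rw [algebraMap_laurent_eq_single, algebraMap_laurent_eq_single, coeffMap_single]

theorem coeffMap_aeval {κ κ' : Type*} [CommRing κ] [CommRing κ'] (f : κ →+* κ')
    (x : LaurentSeries κ) (p : κ[X]) :
    coeffMap f (Polynomial.aeval x p) = Polynomial.aeval (coeffMap f x) (p.map f) := by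
  rw [Polynomial.aeval_def, Polynomial.aeval_def, Polynomial.hom_eval₂, Polynomial.eval₂_map]
  congr 1
  exact RingHom.ext fun c => coeffMap_algebraMap' f c

theorem coeffMap_evJ {κ κ' : Type*} [CommRing κ] [CommRing κ'] (f : κ →+* κ') (p : κ[X]) :
    coeffMap f (evJ κ p) = evJ κ' (p.map f) := by
  have := coeffMap_aeval f (jqModC κ) p
  rw [coeffMap_jqModC] at this
  exact this

theorem coeffMap_eval₂_aeval {κ κ' : Type*} [CommRing κ] [CommRing κ'] (f : κ →+* κ')
    (x h : LaurentSeries κ) (p : κ[X][X]) :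
    coeffMap f (p.eval₂ (Polynomial.aeval x).toRingHom h) =
      (p.map (Polynomial.mapRingHom f)).eval₂ (Polynomial.aeval (coeffMap f x)).toRingHom
        (coeffMap f h) := by
  rw [Polynomial.hom_eval₂, Polynomial.eval₂_map]
  congr 1
  exact RingHom.ext fun c => coeffMap_aeval f x c

theorem coeffMap_ev2 {κ κ' : Type*} [CommRing κ] [CommRing κ'] (f : κ →+* κ') (p : κ[X][X]) :
    coeffMap f (ev2 N κ p) = ev2 N κ' (p.map (Polynomial.mapRingHom f)) := by
  have := coeffMap_eval₂_aeval f (jqModC κ) (HH N κ) p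
  rw [coeffMap_jqModC, coeffMap_HH] at this
  exact this

theorem coeffMap_injective {κ κ' : Type*} [CommRing κ] [CommRing κ'] {f : κ →+* κ'}
    (hf : Function.Injective f) : Function.Injective (coeffMap f) := by
  intro x y h
  ext k
  apply hf
  rw [← coeffMap_coeff, ← coeffMap_coeff, h]

/-! ### orders -/

theorem order_single_mul_ofPowerSeries {κ : Type*} [CommRing κ] [Nontrivial κ] (n : ℤ)
    (u : PowerSeries κ) (hu : PowerSeries.constantCoeff u = 1) :
    HahnSeries.single n (1 : κ) * HahnSeries.ofPowerSeries ℤ κ u ≠ 0 ∧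
    (HahnSeries.single n (1 : κ) * HahnSeries.ofPowerSeries ℤ κ u).order = n := by
  have h0 : (HahnSeries.ofPowerSeries ℤ κ u).coeff 0 = 1 := by
    rw [show (0 : ℤ) = ((0 : ℕ) : ℤ) from rfl, HahnSeries.ofPowerSeries_apply_coeff,
      PowerSeries.coeff_zero_eq_constantCoeff, hu]
  have hne : HahnSeries.ofPowerSeries ℤ κ u ≠ 0 := by
    intro h
    rw [h] at h0
    simp at h0
  have hord : (HahnSeries.ofPowerSeries ℤ κ u).order = 0 := by
    apply le_antisymm
    · exact HahnSeries.order_le_of_coeff_ne_zero (by rw [h0]; exact one_ne_zero)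
    · rw [HahnSeries.le_order_iff_forall hne]
      intro j hj
      exact ofPowerSeries_coeff_of_neg _ hj
  have h1 := HahnSeries.order_single_mul_of_isRegular (g := n) (isRegular_one (R := κ)) hne
  refine ⟨?_, by rw [h1, hord, add_zero]⟩
  intro h
  have h2 : (HahnSeries.single n (1 : κ) * HahnSeries.ofPowerSeries ℤ κ u).coeff n = 1 := by
    rw [HahnSeries.coeff_single_mul, one_mul, sub_self, h0]
  rw [h] at h2
  simp at h2

theorem order_jqModC (κ : Type*) [CommRing κ] [Nontrivial κ] : (jqModC κ).order = -1 := by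
  refine (order_single_mul_ofPowerSeries (-1) _ ?_).2
  rw [← PowerSeries.coeff_zero_eq_constantCoeff, PowerSeries.coeff_map,
    PowerSeries.coeff_zero_eq_constantCoeff, constantCoeff_jNum]
  simp

/-- constant coefficient as a group homomorphism on units -/
def ccU : (PowerSeries ℤ)ˣ →* ℤˣ := Units.map (PowerSeries.constantCoeff (R := ℤ)).toMonoidHom

theorem ccU_etaU : ccU etaU = 1 := by
  ext
  exact constantCoeff_dedekindEtaUnit

theorem ccU_expU (d : ℕ) : ccU (expU d) = 1 := by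
  unfold expU
  split_ifs with hd
  · simp
  · ext
    show PowerSeries.constantCoeff (PowerSeries.expand d hd dedekindEtaUnit) = 1
    rw [PowerSeries.constantCoeff_expand, constantCoeff_dedekindEtaUnit]

theorem ccU_wU : ccU (wU N) = 1 := by
  unfold wU
  rw [map_prod]
  refine Finset.prod_eq_one fun d _ => ?_
  rw [map_zpow, ccU_expU, one_zpow]

theorem constantCoeff_HNum : PowerSeries.constantCoeff (HNum N) = 1 := by
  have h : ccU (wU N * etaU ^ (-(MM N))) = 1 := by
    rw [map_mul, map_zpow, ccU_wU, ccU_etaU, one_zpow, one_mul]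
  exact congrArg Units.val h

theorem constantCoeff_HNum_map (κ : Type*) [CommRing κ] :
    PowerSeries.constantCoeff ((HNum N).map (Int.castRingHom κ)) = 1 := by
  rw [← PowerSeries.coeff_zero_eq_constantCoeff, PowerSeries.coeff_map,
    PowerSeries.coeff_zero_eq_constantCoeff, constantCoeff_HNum]
  simp

theorem order_HH (κ : Type*) [CommRing κ] [Nontrivial κ] : (HH N κ).order = ZZ N - MM N :=
  (order_single_mul_ofPowerSeries _ _ (constantCoeff_HNum_map N κ)).2

theorem HH_ne_zero (κ : Type*) [CommRing κ] [Nontrivial κ] : HH N κ ≠ 0 :=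
  (order_single_mul_ofPowerSeries _ _ (constantCoeff_HNum_map N κ)).1

/-! ### independence -/

theorem Mn_cast : ((Mn N : ℕ) : ℤ) = MM N := Int.toNat_of_nonneg (MM_pos N).le

theorem Mn_pos : 0 < Mn N := by
  have := MM_pos N
  rw [← Mn_cast] at this
  exact_mod_cast this

theorem indep_of_hom {κ κ' : Type*} [Field κ] [Field κ'] (O : Subring ℂ) (hN : (N : ℂ)⁻¹ ∈ O)
    (hζ : Complex.exp (2 * Real.pi * Complex.I / N) ∈ O) (f : O →+* κ') (g : κ →+* κ') :
    ∀ p : κ[X][X], p ≠ 0 → ev2 N κ p = 0 → idx N ≤ p.natDegree := by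
  obtain ⟨P, hP, hdeg, hroot⟩ := analytic_relation N O hN hζ
  have hP' : (P.map (Polynomial.mapRingHom f)).Monic := hP.map _
  have hkey := key_lemma (jqModC κ') (HH N κ') (Mn N) (idx N) (Mn_pos N) (order_jqModC κ')
    (HH_ne_zero N κ') (by rw [order_HH, Mn_cast]; linarith [ZZ_eq_MM_mul_idx N])
    (P.map (Polynomial.mapRingHom f)) hP'
    (by
      intro i
      rw [hP.natDegree_map, Polynomial.coeff_map]
      exact (Polynomial.natDegree_map_le).trans (hdeg i))
    (by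
      have := coeffMap_ev2 N f P
      rw [hroot, map_zero] at this
      exact this.symm)
  intro p hp0 hp
  have hinj : Function.Injective (Polynomial.mapRingHom g) :=
    Polynomial.map_injective g g.injective
  have h1 := hkey (p.map (Polynomial.mapRingHom g))
    ((Polynomial.map_ne_zero_iff hinj).mpr hp0)
    (by
      have := coeffMap_ev2 N g p
      rw [hp, map_zero] at this
      exact this.symm)
  rwa [Polynomial.natDegree_map_eq_of_injective hinj] at h1

theorem indep_rat : ∀ p : ℚ[X][X], p ≠ 0 → ev2 N ℚ p = 0 → idx N ≤ p.natDegree :=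
  indep_of_hom N (⊤ : Subring ℂ) trivial trivial (Subring.subtype ⊤) (algebraMap ℚ ℂ)

/-! ### the ring `O = integral closure of ℤ_(ℓ) in ℂ` -/

variable (ℓ : ℕ) [Fact ℓ.Prime]

/-- integral closure of `ℤ_(ℓ)` in `ℂ` -/
def OO : Subring ℂ := (integralClosure (Rl ℓ) ℂ).toSubring

theorem mem_OO_iff (z : ℂ) : z ∈ OO ℓ ↔ IsIntegral (Rl ℓ) z := Iff.rfl

theorem not_l_dvd_one : ¬ (ℓ : Rl ℓ) ∣ 1 := by
  rintro ⟨r, hr⟩
  have hℓ : (ℓ : ℚ) ≠ 0 := by exact_mod_cast (Fact.out : ℓ.Prime).ne_zero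
  have h1 : (1 : ℚ) = (ℓ : ℚ) * (r : ℚ) := by
    have := congrArg (Subtype.val) hr
    simpa using this
  have h2 : (r : ℚ) = (ℓ : ℚ)⁻¹ := by field_simp; linarith
  have h3 : (r : ℚ).den.Coprime ℓ := r.2
  rw [h2, Rat.inv_natCast_den_of_pos (Fact.out : ℓ.Prime).pos, Nat.coprime_self] at h3
  exact (Fact.out : ℓ.Prime).one_lt.ne' h3

theorem inv_natCast_mem_OO (hℓN : ¬ ℓ ∣ N) : (N : ℂ)⁻¹ ∈ OO ℓ := by
  have hmem : ((N : ℚ)⁻¹) ∈ GaloisRep.ratLocalizedAt ℓ := by
    show ((N : ℚ)⁻¹).den.Coprime ℓ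
    rw [Rat.inv_natCast_den_of_pos (Nat.pos_of_ne_zero (NeZero.ne N))]
    exact (((Nat.Prime.coprime_iff_not_dvd (Fact.out : ℓ.Prime)).mpr hℓN)).symm
  have : (N : ℂ)⁻¹ = algebraMap (Rl ℓ) ℂ ⟨(N : ℚ)⁻¹, hmem⟩ := by
    show (N : ℂ)⁻¹ = algebraMap ℚ ℂ ((N : ℚ)⁻¹)
    simp
  rw [this]
  exact (integralClosure (Rl ℓ) ℂ).algebraMap_mem _

theorem exp_mem_OO : Complex.exp (2 * Real.pi * Complex.I / N) ∈ OO ℓ := by
  rw [mem_OO_iff]
  refine IsIntegral.of_pow (Nat.pos_of_ne_zero (NeZero.ne N)) ?_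
  rw [(Complex.isPrimitiveRoot_exp N (NeZero.ne N)).pow_eq_one]
  exact isIntegral_one

theorem not_isUnit_l_OO : ¬ IsUnit ((ℓ : OO ℓ)) := by
  intro h
  obtain ⟨u, hu⟩ := h.exists_right_inv
  have hℓ : (ℓ : ℂ) ≠ 0 := by exact_mod_cast (Fact.out : ℓ.Prime).ne_zero
  have h1 : (ℓ : ℂ) * (u : ℂ) = 1 := by
    have := congrArg (Subtype.val) hu
    simpa using this
  obtain ⟨p, hp, hroot⟩ : IsIntegral (Rl ℓ) (u : ℂ) := u.2
  have h2 := Polynomial.scaleRoots_eval₂_mul (p := p) (algebraMap (Rl ℓ) ℂ) (u : ℂ) (ℓ : Rl ℓ)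
  rw [hroot, mul_zero, map_natCast, h1, Polynomial.eval₂_at_one] at h2
  have hinj : Function.Injective (algebraMap (Rl ℓ) ℂ) :=
    (algebraMap ℚ ℂ).injective.comp Subtype.val_injective
  have h3 : (p.scaleRoots (ℓ : Rl ℓ)).eval 1 = 0 := hinj (by rw [h2, map_zero])
  rw [Polynomial.eval_eq_sum_range, Polynomial.natDegree_scaleRoots, Finset.sum_range_succ] at h3
  simp only [one_pow, mul_one, Polynomial.coeff_scaleRoots, Nat.sub_self, pow_zero] at h3
  rw [hp.coeff_natDegree] at h3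
  apply not_l_dvd_one ℓ
  have h4 : (ℓ : Rl ℓ) ∣ ∑ x ∈ Finset.range p.natDegree, p.coeff x * (ℓ : Rl ℓ) ^ (p.natDegree - x) := by
    refine Finset.dvd_sum fun i hi => ?_
    refine Dvd.dvd.mul_left (dvd_pow_self _ ?_) _
    have := Finset.mem_range.mp hi
    omega
  have h5 : (1 : Rl ℓ) = -∑ x ∈ Finset.range p.natDegree, p.coeff x * (ℓ : Rl ℓ) ^ (p.natDegree - x) := by
    linear_combination h3
  rw [h5]
  exact (dvd_neg).mpr h4

theorem indep_zmod (hℓN : ¬ ℓ ∣ N) :
    ∀ p : (ZMod ℓ)[X][X], p ≠ 0 → ev2 N (ZMod ℓ) p = 0 → idx N ≤ p.natDegree := by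
  have hne : Ideal.span {(ℓ : OO ℓ)} ≠ ⊤ := fun htop =>
    not_isUnit_l_OO ℓ (Ideal.span_singleton_eq_top.mp htop)
  obtain ⟨𝔪, h𝔪max, h𝔪le⟩ := Ideal.exists_le_maximal _ hne
  let _ : Field (OO ℓ ⧸ 𝔪) := Ideal.Quotient.field 𝔪
  have h0 : ((ℓ : ℕ) : OO ℓ ⧸ 𝔪) = 0 := by
    have : Ideal.Quotient.mk 𝔪 (ℓ : OO ℓ) = 0 :=
      Ideal.Quotient.eq_zero_iff_mem.mpr (h𝔪le (Ideal.subset_span rfl))
    simpa using this
  have : CharP (OO ℓ ⧸ 𝔪) ℓ := (CharP.charP_iff_prime_eq_zero (Fact.out : ℓ.Prime)).mpr h0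
  exact indep_of_hom N (OO ℓ) (inv_natCast_mem_OO N ℓ hℓN) (exp_mem_OO N ℓ) (Ideal.Quotient.mk 𝔪)
    (ZMod.castHom (dvd_refl ℓ) (OO ℓ ⧸ 𝔪))

end

end Fermat.Agent.S28Lib
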