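import Fermat.Agent.S28.Transfer
import Fermat.Agent.S28.Count
import Fermat.Agent.S28.IsQ2

/-!
# S28: `span_HH` (wiring of `Cnt.span_HH_of`)
-/

set_option autoImplicit false

open ModularCurve UpperHalfPlane
open scoped Polynomial
open Fermat.Agent.S20Lib

namespace Fermat.Agent.S28Lib

noncomputable section

variable (N : ℕ) [NeZero N]

theorem isQ_h0' : IsQ N (12 * Mn N)
    ((PowerSeries.X ^ (ZZ N).toNat * (wU N : PowerSeries ℤ)).map (Int.castRingHom ℚ)) := by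
  refine isQ_of_int N (f := h0f N) ?_ (qExpansion_h0f N)
  have h := isMF_h0f N
  have e : ((12 * Mn N : ℕ) : ℤ) = 12 * MM N := by
    rw [Nat.cast_mul, Mn_cast]; rfl
  rw [e]
  exact h

theorem span_HH (y : LaurentSeries ℚ) (hy : y ∈ modularFunctionFieldFull N) :
    ∃ (b : ℚ[X]) (a : ℚ[X][X]), b ≠ 0 ∧ a.natDegree < idx N ∧ evJ ℚ b * y = ev2 N ℚ a :=
  Cnt.span_HH_of N (Q := IsQ N)
    ⟨IsQ.add, fun c => IsQ.smul c, IsQ.mul, IsQ.eq_zero, isQ_zero N, isQ_one N,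
      fun hd hd0 => isQ_E4 N hd hd0, fun hd hd0 => isQ_Delta N hd hd0, isQ_h0' N⟩
    (MM_pos N).le (ZZ_nonneg N) (indep_rat N) y hy

end

end Fermat.Agent.S28Lib
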