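import Mathlib

/-!
# S28: the substitution `x ↔ 1/x`, `h ↔ h * x ^ M` on two-variable polynomials
-/

set_option autoImplicit false

open scoped Polynomial
open Polynomial

namespace Fermat.Agent.S28Lib

noncomputable section

variable {κ : Type*} [CommRing κ]

/-- `p(x, h) ↦ x^{-D} p(x, h x^M)` written as a polynomial in `1/x` and `h`. -/
def swapP (M D : ℕ) (p : κ[X][X]) : κ[X][X] :=
  ∑ i ∈ Finset.range (p.natDegree + 1), C (reflect D (p.coeff i * X ^ (M * i))) * X ^ i

theorem coeff_swapP (M D : ℕ) (p : κ[X][X]) (i : ℕ) :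
    (swapP M D p).coeff i = reflect D (p.coeff i * X ^ (M * i)) := by
  unfold swapP
  rw [Polynomial.finsetSum_coeff]
  simp only [Polynomial.coeff_C_mul_X_pow]
  rw [Finset.sum_ite_eq]
  split_ifs with h
  · rfl
  · have : p.coeff i = 0 := Polynomial.coeff_eq_zero_of_natDegree_lt (by
      rw [Finset.mem_range] at h; omega)
    rw [this, zero_mul, Polynomial.reflect_zero]

theorem natDegree_swapP_le (M D : ℕ) (p : κ[X][X]) : (swapP M D p).natDegree ≤ p.natDegree := by
  rw [Polynomial.natDegree_le_iff_coeff_eq_zero]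
  intro i hi
  rw [coeff_swapP, Polynomial.coeff_eq_zero_of_natDegree_lt hi, zero_mul, Polynomial.reflect_zero]

theorem swapP_ne_zero (M D : ℕ) (p : κ[X][X]) (hp : p ≠ 0) : swapP M D p ≠ 0 := by
  intro h
  obtain ⟨i, hi⟩ : ∃ i, p.coeff i ≠ 0 := by
    by_contra hcon
    push Not at hcon
    exact hp (Polynomial.ext (by simpa using hcon))
  have h1 := coeff_swapP M D p i
  rw [h, Polynomial.coeff_zero] at h1
  have h2 := (Polynomial.reflect_eq_zero_iff).mp h1.symm
  exact hi ((Polynomial.monic_X_pow (R := κ) (M * i)).mul_left_eq_zero_iff.mp h2)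

theorem swapP_monic (M : ℕ) (p : κ[X][X]) (hp : p.Monic) :
    (swapP M (M * p.natDegree) p).Monic := by
  have h1 : (swapP M (M * p.natDegree) p).coeff p.natDegree = 1 := by
    rw [coeff_swapP, hp.coeff_natDegree, one_mul, Polynomial.reflect_monomial,
      Polynomial.revAt_le le_rfl, Nat.sub_self, pow_zero]
  exact Polynomial.monic_of_natDegree_le_of_coeff_eq_one _ (natDegree_swapP_le _ _ _) h1

theorem aeval_reflect {L : Type*} [CommRing L] [Algebra κ L] {x x' : L} (hx : x * x' = 1)
    (D : ℕ) (f : κ[X]) (hf : f.natDegree ≤ D) :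
    aeval x' (reflect D f) = x' ^ D * aeval x f := by
  let _ : Invertible x := ⟨x', by rw [mul_comm]; exact hx, hx⟩
  have h := Polynomial.eval₂_reflect_mul_pow (algebraMap κ L) x D f hf
  have h2 : ⅟x = x' := rfl
  rw [h2] at h
  rw [Polynomial.aeval_def, Polynomial.aeval_def, ← h]
  have h3 : x' ^ D * x ^ D = 1 := by rw [← mul_pow, mul_comm, hx, one_pow]
  calc _ = eval₂ (algebraMap κ L) x' (reflect D f) * (x' ^ D * x ^ D) := by rw [h3, mul_one]
    _ = _ := by ring

theorem eval₂_swapP {L : Type*} [CommRing L] [Algebra κ L] {x x' : L} (hx : x * x' = 1) (h : L)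
    (M D : ℕ) (p : κ[X][X]) (hD : ∀ i ≤ p.natDegree, (p.coeff i).natDegree + M * i ≤ D) :
    (swapP M D p).eval₂ (aeval x').toRingHom h =
      x' ^ D * p.eval₂ (aeval x).toRingHom (h * x ^ M) := by
  unfold swapP
  rw [Polynomial.eval₂_finsetSum, Polynomial.eval₂_eq_sum_range, Finset.mul_sum]
  refine Finset.sum_congr rfl fun i hi => ?_
  have hi' : i ≤ p.natDegree := by rw [Finset.mem_range] at hi; omega
  rw [Polynomial.eval₂_mul, Polynomial.eval₂_C, Polynomial.eval₂_pow, Polynomial.eval₂_X]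
  show aeval x' _ * h ^ i = x' ^ D * (aeval x (p.coeff i) * _)
  rw [aeval_reflect hx D _ ((Polynomial.natDegree_mul_le).trans (by
    have := Polynomial.natDegree_X_pow_le (R := κ) (M * i)
    have := hD i hi'
    omega)), map_mul, map_pow, aeval_X]
  ring

end

end Fermat.Agent.S28Lib
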