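import Fermat.Agent.S28.Transfer
import Fermat.Agent.S28.Swap
import Fermat.Agent.S28.Span

set_option autoImplicit false
set_option linter.unusedSectionVars false

open ModularCurve ModularCurve.IgusaScheme HahnSeries
open scoped Polynomial

namespace Fermat.Agent.S28Lib

noncomputable section

variable (N : ℕ) [NeZero N] (ℓ : ℕ) [Fact ℓ.Prime]

/-! ### `j * (1/j) = 1` -/

theorem jqModC_int_mul_jInvZ : jqModC ℤ * jInvZ = 1 := by
  have h1 : jNum.map (Int.castRingHom ℤ) = jNum := by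
    rw [show Int.castRingHom ℤ = RingHom.id ℤ from RingHom.ext_int _ _, PowerSeries.map_id]
    rfl
  have h2 : jNum * jNum.invOfUnit 1 = 1 :=
    PowerSeries.mul_invOfUnit _ _ (by rw [constantCoeff_jNum]; rfl)
  have h3 : (HahnSeries.single (-1 : ℤ) (1 : ℤ)) * HahnSeries.single (1 : ℤ) 1 = 1 := by
    rw [HahnSeries.single_mul_single]; simp
  rw [jqModC, jInvZ, h1]
  calc _ = (HahnSeries.single (-1 : ℤ) (1 : ℤ) * HahnSeries.single (1 : ℤ) 1) *
        (HahnSeries.ofPowerSeries ℤ ℤ jNum * HahnSeries.ofPowerSeries ℤ ℤ (jNum.invOfUnit 1)) := by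
          ring
    _ = _ := by rw [h3, one_mul, ← map_mul, h2, map_one]

theorem bc_jqModC (κ : Type*) [CommRing κ] : bc κ (jqModC ℤ) = jqModC κ := coeffMap_jqModC _

theorem bc_HH (κ : Type*) [CommRing κ] : bc κ (HH N ℤ) = HH N κ := coeffMap_HH N _

theorem jqModC_mul_bc_jInvZ (κ : Type*) [CommRing κ] : jqModC κ * bc κ jInvZ = 1 := by
  rw [← bc_jqModC, ← map_mul, jqModC_int_mul_jInvZ, map_one]

theorem bc_jInvZ_mul_jqModC (κ : Type*) [CommRing κ] : bc κ jInvZ * jqModC κ = 1 := by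
  rw [mul_comm, jqModC_mul_bc_jInvZ]

theorem bc_G_inf (κ : Type*) [CommRing κ] :
    bc κ (HH N ℤ * jInvZ ^ Mn N) = HH N κ * bc κ jInvZ ^ Mn N := by
  rw [← bc_HH N κ]
  unfold bc
  rw [map_mul, map_pow]

theorem bc_G_inf_mul (κ : Type*) [CommRing κ] :
    bc κ (HH N ℤ * jInvZ ^ Mn N) * jqModC κ ^ Mn N = HH N κ := by
  rw [bc_G_inf, mul_assoc, ← mul_pow, bc_jInvZ_mul_jqModC, one_pow, mul_one]

theorem coe_jFull_eq : ((jFull N : FN N) : LaurentSeries ℚ) = bc ℚ (jqModC ℤ) := by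
  rw [bc_jqModC]; rfl

theorem coe_jFull_inv_eq : (((jFull N)⁻¹ : FN N) : LaurentSeries ℚ) = bc ℚ jInvZ := by
  have h1 : (((jFull N)⁻¹ : FN N) : LaurentSeries ℚ) = ((jFull N : FN N) : LaurentSeries ℚ)⁻¹ := rfl
  rw [h1, coe_jFull_eq, bc_jqModC]
  exact inv_eq_of_mul_eq_one_right (jqModC_mul_bc_jInvZ ℚ)

/-! ### descent of integrality from `O[X]` to `ℤ_(ℓ)[X]` -/

theorem bc_comp {κ κ' : Type*} [CommRing κ] [CommRing κ'] (f : κ →+* κ') (x : LaurentSeries ℤ) :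
    coeffMap f (bc κ x) = bc κ' x := by
  ext k
  simp only [coeffMap_coeff]
  simp

theorem int_descend (t G : LaurentSeries ℤ) (P : (OO ℓ)[X][X]) (hP : P.Monic)
    (hroot : P.eval₂ (Polynomial.aeval (bc (OO ℓ) t)).toRingHom (bc (OO ℓ) G) = 0) :
    ∃ Q : (Rl ℓ)[X][X], Q.Monic ∧
      Q.eval₂ (Polynomial.aeval (R := (Rl ℓ)) (bc ℚ t)).toRingHom (bc ℚ G) = 0 := by
  set fQ : (Rl ℓ)[X] →+* LaurentSeries ℚ := (Polynomial.aeval (R := (Rl ℓ)) (bc ℚ t)).toRingHom
    with hfQ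
  set fC : (Rl ℓ)[X] →+* LaurentSeries ℂ := (coeffMap (algebraMap ℚ ℂ)).comp fQ with hfC
  set g : (OO ℓ)[X] →+* LaurentSeries ℂ :=
    (coeffMap (OO ℓ).subtype).comp (Polynomial.aeval (bc (OO ℓ) t)).toRingHom with hg
  let _ : Algebra (Rl ℓ)[X] (LaurentSeries ℂ) := fC.toAlgebra
  have halg : algebraMap (Rl ℓ)[X] (LaurentSeries ℂ) = fC := rfl
  have hX : g Polynomial.X = algebraMap (Rl ℓ)[X] (LaurentSeries ℂ) Polynomial.X := by
    rw [halg, hg, hfC, hfQ]
    simp [bc_comp]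
  have hC : ∀ a : OO ℓ, IsIntegral (Rl ℓ)[X] (g (Polynomial.C a)) := by
    intro a
    have h1 : g (Polynomial.C a) = algebraMap ℂ (LaurentSeries ℂ) (a : ℂ) := by
      rw [hg]
      simp only [RingHom.comp_apply, AlgHom.toRingHom_eq_coe, RingHom.coe_coe, Polynomial.aeval_C]
      rw [coeffMap_algebraMap']
      rfl
    rw [h1]
    refine IsIntegral.map_of_comp_eq (R := Rl ℓ) (S := ℂ) Polynomial.C
      (algebraMap ℂ (LaurentSeries ℂ)) ?_ a.2
    ext r
    rw [halg, hfC, hfQ]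
    simp only [RingHom.comp_apply, AlgHom.toRingHom_eq_coe, RingHom.coe_coe, Polynomial.aeval_C]
    have h2 : algebraMap (Rl ℓ) (LaurentSeries ℚ) r = algebraMap ℚ (LaurentSeries ℚ) (r : ℚ) := by
      rw [HahnSeries.algebraMap_apply', HahnSeries.algebraMap_apply', PowerSeries.algebraMap_apply,
        PowerSeries.algebraMap_apply]
      rfl
    rw [h2, coeffMap_algebraMap']
    rfl
  have hall : ∀ p : (OO ℓ)[X], IsIntegral (Rl ℓ)[X] (g p) := by
    intro p
    induction p using Polynomial.induction_on' with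
    | add p q hp hq => rw [map_add]; exact hp.add hq
    | monomial n a =>
      rw [← Polynomial.C_mul_X_pow_eq_monomial, map_mul, map_pow, hX]
      exact (hC a).mul (isIntegral_algebraMap.pow n)
  let g' : (OO ℓ)[X] →+* integralClosure (Rl ℓ)[X] (LaurentSeries ℂ) :=
    g.codRestrict (integralClosure (Rl ℓ)[X] (LaurentSeries ℂ)) hall
  have hGint : IsIntegral (integralClosure (Rl ℓ)[X] (LaurentSeries ℂ)) (bc ℂ G) := by
    refine ⟨P.map g', hP.map _, ?_⟩
    rw [Polynomial.eval₂_map]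
    have h3 : (algebraMap (integralClosure (Rl ℓ)[X] (LaurentSeries ℂ)) (LaurentSeries ℂ)).comp g'
        = g := rfl
    rw [h3, hg, ← bc_comp (OO ℓ).subtype G, ← Polynomial.hom_eval₂, hroot, map_zero]
  obtain ⟨Q, hQ, hQroot⟩ := isIntegral_trans (R := (Rl ℓ)[X]) _ hGint
  refine ⟨Q, hQ, ?_⟩
  rw [halg, hfC, ← bc_comp (algebraMap ℚ ℂ) G, ← Polynomial.hom_eval₂] at hQroot
  exact coeffMap_injective (algebraMap ℚ ℂ).injective (by rw [hQroot, map_zero])

/-! ### the two charts -/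

theorem chartData_fin (hℓN : ¬ ℓ ∣ N) : ChartData N ℓ (idx N) (jqModC ℤ) (HH N ℤ) where
  span := by
    intro y hy
    rw [bc_jqModC, bc_HH]
    exact span_HH N y hy
  indep := by
    rw [bc_jqModC, bc_HH]
    exact indep_zmod N ℓ hℓN
  int := by
    obtain ⟨P, hP, -, hroot⟩ :=
      analytic_relation N (OO ℓ) (inv_natCast_mem_OO N ℓ hℓN) (exp_mem_OO N ℓ)
    refine int_descend ℓ _ _ P hP ?_
    rw [bc_jqModC, bc_HH]
    exact hroot

/-- a common degree bound -/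
theorem exists_swap_bound {κ : Type*} [CommRing κ] (M : ℕ) (p : κ[X][X]) (d : ℕ) :
    ∃ D, d ≤ D ∧ ∀ i ≤ p.natDegree, (p.coeff i).natDegree + M * i ≤ D := by
  refine ⟨d + (Finset.range (p.natDegree + 1)).sup fun i => (p.coeff i).natDegree + M * i,
    Nat.le_add_right _ _, fun i hi => ?_⟩
  have := Finset.le_sup (f := fun i => (p.coeff i).natDegree + M * i)
    (Finset.mem_range.mpr (Nat.lt_succ_of_le hi))
  exact le_trans this (Nat.le_add_left _ _)

theorem chartData_inf (hℓN : ¬ ℓ ∣ N) :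
    ChartData N ℓ (idx N) jInvZ (HH N ℤ * jInvZ ^ Mn N) where
  span := by
    intro y hy
    obtain ⟨b, a, hb, ha, hba⟩ := span_HH N y hy
    obtain ⟨D, hD1, hD2⟩ := exists_swap_bound (Mn N) a b.natDegree
    refine ⟨Polynomial.reflect D b, swapP (Mn N) D a, Polynomial.reflect_eq_zero_iff.not.mpr hb,
      lt_of_le_of_lt (natDegree_swapP_le _ _ _) ha, ?_⟩
    rw [eval₂_swapP (jqModC_mul_bc_jInvZ ℚ) _ _ _ _ hD2, bc_G_inf_mul,
      aeval_reflect (jqModC_mul_bc_jInvZ ℚ) D b hD1, mul_assoc]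
    congr 1
  indep := by
    intro p hp0 hp
    obtain ⟨D, -, hD2⟩ := exists_swap_bound (Mn N) p 0
    have h1 := eval₂_swapP (bc_jInvZ_mul_jqModC (ZMod ℓ)) (HH N (ZMod ℓ)) (Mn N) D p hD2
    rw [← bc_G_inf, hp, mul_zero] at h1
    exact (indep_zmod N ℓ hℓN _ (swapP_ne_zero _ _ _ hp0) h1).trans (natDegree_swapP_le _ _ _)
  int := by
    obtain ⟨P, hP, hdeg, hroot⟩ :=
      analytic_relation N (OO ℓ) (inv_natCast_mem_OO N ℓ hℓN) (exp_mem_OO N ℓ)
    refine int_descend ℓ _ _ (swapP (Mn N) (Mn N * P.natDegree) P) (swapP_monic _ _ hP) ?_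
    rw [eval₂_swapP (jqModC_mul_bc_jInvZ (OO ℓ)) _ _ _ _ (by
      intro i hi
      have h1 := hdeg i
      have h2 : Mn N * (P.natDegree - i) + Mn N * i = Mn N * P.natDegree := by
        rw [← Nat.mul_add, Nat.sub_add_cancel hi]
      omega), bc_G_inf_mul]
    have : P.eval₂ (Polynomial.aeval (jqModC (OO ℓ))).toRingHom (HH N (OO ℓ)) = 0 := hroot
    rw [this, mul_zero]

end

end Fermat.Agent.S28Lib
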