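import Mathlib

/-!
# S28, piece V4 : normality transfer (pure commutative algebra)
-/

set_option autoImplicit false

open scoped Polynomial
open Polynomial

namespace Fermat.Agent.S28Lib

theorem Normal.minpoly_smul {D L : Type*} [CommRing D] [IsDomain D]
    [IsIntegrallyClosed D] [Field L] [Algebra D L] (hinj : Function.Injective (algebraMap D L))
    {s : D} (hs0 : s ≠ 0) {z : L} (hz : _root_.IsIntegral D z) :
    minpoly D (s • z) = (minpoly D z).scaleRoots s := by
  have : FaithfulSMul D L := (faithfulSMul_iff_algebraMap_injective _ _).mpr hinj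
  have hsz : _root_.IsIntegral D (s • z) := hz.smul s
  have hroot : aeval (s • z) ((minpoly D z).scaleRoots s) = 0 := by
    rw [Algebra.smul_def]
    exact scaleRoots_aeval_eq_zero (minpoly.aeval D z)
  have hdvd : minpoly D (s • z) ∣ (minpoly D z).scaleRoots s :=
    minpoly.isIntegrallyClosed_dvd hsz hroot
  have hm3 : (minpoly D (s • z)).Monic := minpoly.monic hsz
  have hdeg1 : (C s * X : D[X]).natDegree = 1 := natDegree_C_mul_X s hs0
  have hg0 : (minpoly D (s • z)).comp (C s * X) ≠ 0 := by
    intro h
    have h1 := leadingCoeff_comp (p := minpoly D (s • z)) (q := C s * X) (by rw [hdeg1]; exact one_ne_zero)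
    rw [h, leadingCoeff_zero, hm3.leadingCoeff, one_mul] at h1
    have h2 : (C s * X : D[X]).leadingCoeff = s := by simp
    rw [h2] at h1
    exact pow_ne_zero _ hs0 h1.symm
  have hroot2 : aeval z ((minpoly D (s • z)).comp (C s * X)) = 0 := by
    rw [aeval_comp, map_mul, aeval_C, aeval_X, ← Algebra.smul_def]
    exact minpoly.aeval D _
  have hdvd2 : minpoly D z ∣ (minpoly D (s • z)).comp (C s * X) :=
    minpoly.isIntegrallyClosed_dvd hz hroot2
  have hle := natDegree_le_of_dvd hdvd2 hg0
  rw [natDegree_comp, hdeg1, mul_one] at hle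
  refine (eq_of_monic_of_dvd_of_natDegree_le hm3 ?_ hdvd ?_).symm
  · exact (monic_scaleRoots_iff s).mpr (minpoly.monic hz)
  · rw [natDegree_scaleRoots]; exact hle

theorem isIntegral_of_prime_smul_of_smul {D L : Type*} [CommRing D] [IsDomain D]
    [IsIntegrallyClosed D] [Field L] [Algebra D L] (hinj : Function.Injective (algebraMap D L))
    {p s : D} (hp : Prime p) (hs : ¬ p ∣ s) {y : L}
    (h1 : _root_.IsIntegral D (p • y)) (h2 : _root_.IsIntegral D (s • y)) :
    _root_.IsIntegral D y := by
  have hs0 : s ≠ 0 := by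
    rintro rfl
    exact hs (dvd_zero p)
  have hp0 : p ≠ 0 := hp.ne_zero
  have e1 := Normal.minpoly_smul hinj hs0 h1
  have e2 := Normal.minpoly_smul hinj hp0 h2
  rw [smul_comm] at e1
  rw [e1] at e2
  set m1 := minpoly D (p • y) with hm1
  set m2 := minpoly D (s • y) with hm2
  have hm1m : m1.Monic := minpoly.monic h1
  have hn : m1.natDegree = m2.natDegree := by
    have := congrArg natDegree e2
    rwa [natDegree_scaleRoots, natDegree_scaleRoots] at this
  have hc : ∀ i, p ^ (m1.natDegree - i) ∣ m1.coeff i := by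
    intro i
    have h3 := congrArg (fun q => coeff q i) e2
    simp only [coeff_scaleRoots] at h3
    have h4 : ¬ p ∣ s ^ (m1.natDegree - i) := fun h => hs (hp.dvd_of_dvd_pow h)
    apply hp.pow_dvd_of_dvd_mul_right _ h4
    rw [h3, ← hn]
    exact Dvd.intro_left _ rfl
  choose c hc using hc
  set n := m1.natDegree with hn1
  refine ⟨X ^ n + ∑ i ∈ Finset.range n, C (c i) * X ^ i, ?_, ?_⟩
  · apply monic_X_pow_add
    rw [degree_lt_iff_coeff_zero]
    intro k hk
    rw [finsetSum_coeff]
    apply Finset.sum_eq_zero
    intro i hi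
    rw [Finset.mem_range] at hi
    rw [coeff_C_mul_X_pow, if_neg (by omega)]
  · have h5 : aeval (p • y) m1 = 0 := minpoly.aeval D _
    rw [aeval_eq_sum_range, Finset.sum_range_succ, ← hn1, hn1, hm1m.coeff_natDegree, ← hn1] at h5
    have hpL : algebraMap D L p ≠ 0 := by
      rw [Ne, ← map_zero (algebraMap D L)]
      exact fun h => hp0 (hinj h)
    have h6 : algebraMap D L p ^ n * (y ^ n + ∑ i ∈ Finset.range n, algebraMap D L (c i) * y ^ i)
        = 0 := by
      rw [← h5, mul_add, Finset.mul_sum, add_comm]
      congr 1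
      · apply Finset.sum_congr rfl
        intro i hi
        rw [Finset.mem_range] at hi
        rw [hc i, Algebra.smul_def, Algebra.smul_def, map_mul, map_pow, mul_pow]
        have : algebraMap D L p ^ n = algebraMap D L p ^ (n - i) * algebraMap D L p ^ i := by
          rw [← pow_add]; congr 1; omega
        rw [this]; ring
      · rw [one_smul, Algebra.smul_def, mul_pow]
    have h7 := (mul_eq_zero.mp h6).resolve_left (pow_ne_zero _ hpL)
    rw [← h7]
    simp [eval₂_add, eval₂_finsetSum]

end Fermat.Agent.S28Lib
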