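import Fermat.Agent.S28.GaussMem
import Fermat.Agent.S28.Normal

/-!
# S28 (Igusa), piece V6: reduction maps on the charts
-/

set_option autoImplicit false
set_option linter.unusedSectionVars false

open ModularCurve ModularCurve.IgusaScheme
open scoped Polynomial

namespace Fermat.Agent.S28Lib

noncomputable section

variable (N : ℕ) [NeZero N] (ℓ : ℕ) [Fact ℓ.Prime]

theorem red_bc_mem_range (f : LaurentSeries ℤ) : bc ℚ f ∈ (ιR ℓ).range :=
  ⟨bc (Rl ℓ) f, gm_coeffMap_bc _ _⟩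

/-- the inclusion of the function field in `ℚ((q))` -/
def redIncl : FN N →+* LaurentSeries ℚ := algebraMap (FN N) (LaurentSeries ℚ)

theorem redIncl_apply (z : FN N) : redIncl N z = (z : LaurentSeries ℚ) := rfl

theorem redIncl_injective : Function.Injective (redIncl N) := Subtype.val_injective

theorem redIncl_algebraMap (r : Rl ℓ) :
    redIncl N (algebraMap (Rl ℓ) (FN N) r) = ιR ℓ (algebraMap (Rl ℓ) (LaurentSeries (Rl ℓ)) r) := by
  rw [ιR, gm_coeffMap_algebraMap, IsScalarTower.algebraMap_apply (Rl ℓ) ℚ (FN N)]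
  have h : (redIncl N).comp (algebraMap ℚ (FN N)) = algebraMap ℚ (LaurentSeries ℚ) :=
    RingHom.ext_rat _ _
  exact congrArg (fun φ : ℚ →+* LaurentSeries ℚ => φ (algebraMap (Rl ℓ) ℚ r)) h

theorem red_adjoin_le (S : Set (FN N))
    (hS : ∀ z ∈ S, ((z : FN N) : LaurentSeries ℚ) ∈ (ιR ℓ).range) (z : FN N)
    (hz : z ∈ Algebra.adjoin (Rl ℓ) S) : redIncl N z ∈ (ιR ℓ).range := by
  induction hz using Algebra.adjoin_induction with
  | mem y hy => exact hS y hy
  | algebraMap r => exact ⟨_, (redIncl_algebraMap N ℓ r).symm⟩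
  | add y z _ _ hy hz => rw [map_add]; exact add_mem hy hz
  | mul y z _ _ hy hz => rw [map_mul]; exact mul_mem hy hz

theorem red_isIntegralElem (S : Set (FN N))
    (hS : ∀ z ∈ S, ((z : FN N) : LaurentSeries ℚ) ∈ (ιR ℓ).range) (x : FN N)
    (hx : x ∈ chartAlg N ℓ S) :
    ∃ p : (LaurentSeries (Rl ℓ))[X], p.Monic ∧ p.eval₂ (ιR ℓ) (x : LaurentSeries ℚ) = 0 := by
  obtain ⟨p₀, hmonic, hroot⟩ := (mem_chartAlg_iff N ℓ).mp hx
  let g : Algebra.adjoin (Rl ℓ) S →+* LaurentSeries ℚ :=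
    (redIncl N).comp (algebraMap (Algebra.adjoin (Rl ℓ) S) (FN N))
  have hlifts : p₀.map g ∈ Polynomial.lifts (ιR ℓ) :=
    (Polynomial.lifts_iff_coeff_lifts _).mpr fun i => by
      rw [Polynomial.coeff_map]
      exact red_adjoin_le N ℓ S hS _ (p₀.coeff i).2
  obtain ⟨q, hq, -, hqm⟩ := Polynomial.lifts_and_natDegree_eq_and_monic hlifts (hmonic.map g)
  refine ⟨q, hqm, ?_⟩
  rw [Polynomial.eval₂_eq_eval_map, hq, Polynomial.eval_map, ← redIncl_apply,
    ← Polynomial.hom_eval₂, hroot, map_zero]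

/-- the chart algebra maps to the Gauss ring -/
def redToGauss {T : ℕ} {t G : LaurentSeries ℤ} (h : ChartData N ℓ T t G) (S : Set (FN N))
    (hS : ∀ z ∈ S, ((z : FN N) : LaurentSeries ℚ) ∈ (ιR ℓ).range) :
    chartAlg N ℓ S →+* gaussRing ℓ :=
  RingHom.codRestrict ((redIncl N).comp (chartAlg N ℓ S).val.toRingHom) (gaussRing ℓ) fun x =>
    mem_gaussRing_of_isIntegral N ℓ h _ (x : FN N).2 (red_isIntegralElem N ℓ S hS x x.2)

theorem exists_ringHom_of {T : ℕ} {t G : LaurentSeries ℤ} (h : ChartData N ℓ T t G)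
    (S : Set (FN N)) (hS : ∀ z ∈ S, ((z : FN N) : LaurentSeries ℚ) ∈ (ιR ℓ).range) :
    Nonempty (chartAlg N ℓ S →+* LaurentSeries (ZMod ℓ)) :=
  ⟨(gaussRed ℓ).comp (redToGauss N ℓ h S hS)⟩

/-- the structure map `ℤ_(ℓ)[X] → ℚ((q))`, `X ↦ t` -/
def redα (t : LaurentSeries ℤ) : (Rl ℓ)[X] →+* LaurentSeries ℚ :=
  (ιR ℓ).comp (gmEv1 (Rl ℓ) t)

theorem redα_apply (t : LaurentSeries ℤ) (b : (Rl ℓ)[X]) :
    redα ℓ t b = ιR ℓ (gmEv1 (Rl ℓ) t b) := rfl

variable {N ℓ} in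
theorem redα_injective {T : ℕ} {t G : LaurentSeries ℤ} (h : ChartData N ℓ T t G) (hT : 0 < T) :
    Function.Injective (redα ℓ t) := by
  rw [injective_iff_map_eq_zero]
  intro b hb
  by_contra hb0
  obtain ⟨b', hb', hdvd⟩ :=
    (FiniteMultiplicity.of_prime_left (prime_l_poly ℓ) hb0).exists_eq_pow_mul_and_not_dvd
  rw [hb', map_mul, map_pow, map_natCast] at hb
  have h1 := (mul_eq_zero.mp hb).resolve_left
    (pow_ne_zero _ (gm_natCast_ne_zero (Fact.out : ℓ.Prime).ne_zero))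
  have h2 : gmEv1 (Rl ℓ) t b' = 0 := ιR_injective ℓ (by rw [map_zero]; exact h1)
  exact h.ρ_ev1_ne_zero hT hdvd (by rw [h2, map_zero])

/-- `ℤ_(ℓ)[X] → ℤ_(ℓ)[tF]` -/
def redF (tF : FN N) : (Rl ℓ)[X] →+* Algebra.adjoin (Rl ℓ) ({tF} : Set (FN N)) :=
  (Polynomial.aeval
    (⟨tF, Algebra.subset_adjoin rfl⟩ : Algebra.adjoin (Rl ℓ) ({tF} : Set (FN N)))).toRingHom

theorem redF_coe (tF : FN N) (P : (Rl ℓ)[X]) :
    ((redF N ℓ tF P : Algebra.adjoin (Rl ℓ) ({tF} : Set (FN N))) : FN N) =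
      Polynomial.aeval tF P := by
  have h := Polynomial.aeval_algHom_apply (Algebra.adjoin (Rl ℓ) ({tF} : Set (FN N))).val
    (⟨tF, Algebra.subset_adjoin rfl⟩ : Algebra.adjoin (Rl ℓ) ({tF} : Set (FN N))) P
  exact h.symm

theorem redF_surjective (tF : FN N) : Function.Surjective (redF N ℓ tF) := by
  rintro ⟨z, hz⟩
  have hz' : z ∈ (Polynomial.aeval (R := Rl ℓ) tF).range := by
    rw [← Algebra.adjoin_singleton_eq_range_aeval]
    exact hz
  obtain ⟨P, hP⟩ := hz'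
  exact ⟨P, Subtype.ext (by rw [redF_coe]; exact hP)⟩

theorem redα_eq {t : LaurentSeries ℤ} (tF : FN N) (htF : (tF : LaurentSeries ℚ) = bc ℚ t) :
    redα ℓ t = (redIncl N).comp
      ((algebraMap (Algebra.adjoin (Rl ℓ) ({tF} : Set (FN N))) (FN N)).comp (redF N ℓ tF)) := by
  apply Polynomial.ringHom_ext
  · intro r
    have h1 : ((algebraMap (Algebra.adjoin (Rl ℓ) ({tF} : Set (FN N))) (FN N)).comp
        (redF N ℓ tF)) (Polynomial.C r) = algebraMap (Rl ℓ) (FN N) r := by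
      show ((redF N ℓ tF (Polynomial.C r) : Algebra.adjoin (Rl ℓ) ({tF} : Set (FN N))) : FN N) = _
      rw [redF_coe, Polynomial.aeval_C]
    rw [RingHom.comp_apply, h1, redIncl_algebraMap, redα_apply, gmEv1_apply, Polynomial.aeval_C]
  · have h1 : ((algebraMap (Algebra.adjoin (Rl ℓ) ({tF} : Set (FN N))) (FN N)).comp
        (redF N ℓ tF)) Polynomial.X = tF := by
      show ((redF N ℓ tF Polynomial.X : Algebra.adjoin (Rl ℓ) ({tF} : Set (FN N))) : FN N) = _
      rw [redF_coe, Polynomial.aeval_X]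
    rw [RingHom.comp_apply, h1, redIncl_apply, htF, redα_apply, gmEv1_apply, Polynomial.aeval_X,
      ιR, gm_coeffMap_bc]

theorem redα_eq_aeval (t : LaurentSeries ℤ) :
    (Polynomial.aeval (R := (Rl ℓ)) (bc ℚ t)).toRingHom = redα ℓ t := by
  apply Polynomial.ringHom_ext
  · intro r
    rw [redα_apply, gmEv1_apply, Polynomial.aeval_C, ιR, gm_coeffMap_algebraMap]
    simp only [AlgHom.toRingHom_eq_coe, RingHom.coe_coe, Polynomial.aeval_C]
    rw [HahnSeries.algebraMap_apply', HahnSeries.algebraMap_apply',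
      ← IsScalarTower.algebraMap_apply (Rl ℓ) ℚ (PowerSeries ℚ)]
  · rw [redα_apply, gmEv1_apply, Polynomial.aeval_X, ιR, gm_coeffMap_bc]
    simp

theorem red_isIntegral_of_mem {t : LaurentSeries ℤ} (tF : FN N)
    (htF : (tF : LaurentSeries ℚ) = bc ℚ t) (x : FN N) (hx : x ∈ chartAlg N ℓ {tF}) :
    (redα ℓ t).IsIntegralElem (x : LaurentSeries ℚ) := by
  obtain ⟨p₀, hmonic, hroot⟩ := (mem_chartAlg_iff N ℓ).mp hx
  have hlifts : p₀ ∈ Polynomial.lifts (redF N ℓ tF) :=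
    (Polynomial.lifts_iff_coeff_lifts _).mpr fun i => redF_surjective N ℓ tF _
  obtain ⟨q, hq, -, hqm⟩ := Polynomial.lifts_and_natDegree_eq_and_monic hlifts hmonic
  refine ⟨q, hqm, ?_⟩
  rw [redα_eq N ℓ tF htF, ← redIncl_apply, ← Polynomial.hom_eval₂, ← Polynomial.eval₂_map, hq,
    hroot, map_zero]

theorem red_mem_of_isIntegral {t : LaurentSeries ℤ} (tF : FN N)
    (htF : (tF : LaurentSeries ℚ) = bc ℚ t) (y : FN N)
    (hy : (redα ℓ t).IsIntegralElem (y : LaurentSeries ℚ)) : y ∈ chartAlg N ℓ {tF} := by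
  obtain ⟨q, hqm, hq⟩ := hy
  rw [mem_chartAlg_iff]
  refine ⟨q.map (redF N ℓ tF), hqm.map _, ?_⟩
  apply redIncl_injective N
  rw [map_zero, Polynomial.eval₂_map, Polynomial.hom_eval₂, ← redα_eq N ℓ tF htF]
  exact hq

theorem exists_reduction {T : ℕ} {t G : LaurentSeries ℤ} (h : ChartData N ℓ T t G) (tF : FN N)
    (htF : (tF : LaurentSeries ℚ) = bc ℚ t) :
    ∃ φ : chartAlg N ℓ {tF} →+* LaurentSeries (ZMod ℓ),
      ∀ x, φ x = 0 → ∃ y, x = (ℓ : chartAlg N ℓ {tF}) * y := by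
  have hS : ∀ z ∈ ({tF} : Set (FN N)), ((z : FN N) : LaurentSeries ℚ) ∈ (ιR ℓ).range := by
    intro z hz
    rw [Set.mem_singleton_iff.mp hz, htF]
    exact red_bc_mem_range ℓ t
  refine ⟨(gaussRed ℓ).comp (redToGauss N ℓ h _ hS), fun x hx => ?_⟩
  obtain ⟨y', hy'⟩ := (gaussRed_eq_zero_iff ℓ _).mp hx
  have hl0 : (ℓ : LaurentSeries ℚ) ≠ 0 := gm_natCast_ne_zero (Fact.out : ℓ.Prime).ne_zero
  have hxy : ((x : FN N) : LaurentSeries ℚ) = (ℓ : LaurentSeries ℚ) * (y' : LaurentSeries ℚ) := by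
    have h1 := congrArg Subtype.val hy'
    rw [Subring.coe_mul] at h1
    have h2 : (((ℓ : gaussRing ℓ) : gaussRing ℓ) : LaurentSeries ℚ) = (ℓ : LaurentSeries ℚ) := by
      simp
    rw [h2] at h1
    exact h1
  have hlF : (ℓ : FN N) ≠ 0 := by
    intro h0
    apply hl0
    have h1 := congrArg (redIncl N) h0
    rwa [map_natCast, map_zero] at h1
  set yF : FN N := (x : FN N) / (ℓ : FN N) with hyF
  have hlyF : (ℓ : FN N) * yF = x := mul_div_cancel₀ _ hlF
  have hyF' : (yF : LaurentSeries ℚ) = y' := by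
    have h2 := congrArg (redIncl N) hlyF
    rw [map_mul, map_natCast, redIncl_apply, redIncl_apply, hxy] at h2
    exact mul_left_cancel₀ hl0 h2
  obtain ⟨b, a, hdeg, hor, heq⟩ := h.normalForm yF.2
  have hT : 0 < T := by omega
  have hb : ¬ (ℓ : (Rl ℓ)[X]) ∣ b := by
    intro hb
    have ha := hor.resolve_left (not_not.mpr hb)
    have hw := h.ρ_ev2_ne_zero ha hdeg
    have he : ρR ℓ (gmEv1 _ t b) = 0 := by
      obtain ⟨b', rfl⟩ := hb
      rw [map_mul, map_mul, map_natCast, map_natCast, gm_natCast_l_eq_zero, zero_mul]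
    have h3 := gaussRed_mul_eq ℓ y' (a := gmEv2 _ t G a) (s := gmEv1 _ t b)
      (by rw [← hyF', mul_comm]; exact heq)
    rw [he, mul_zero] at h3
    exact hw h3.symm
  let _ : Algebra (Rl ℓ)[X] (LaurentSeries ℚ) := (redα ℓ t).toAlgebra
  have hint : _root_.IsIntegral (Rl ℓ)[X] (yF : LaurentSeries ℚ) := by
    have := isIntegrallyClosed_Rl_poly ℓ
    refine isIntegral_of_prime_smul_of_smul (redα_injective h hT) (prime_l_poly ℓ) hb ?_ ?_
    · have h1 : (ℓ : (Rl ℓ)[X]) • (yF : LaurentSeries ℚ) = ((x : FN N) : LaurentSeries ℚ) := by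
        rw [Algebra.smul_def, RingHom.algebraMap_toAlgebra, map_natCast, hyF', hxy]
      rw [h1]
      exact red_isIntegral_of_mem N ℓ tF htF x x.2
    · have h1 : b • (yF : LaurentSeries ℚ) =
          a.eval₂ (algebraMap (Rl ℓ)[X] (LaurentSeries ℚ)) (bc ℚ G) := by
        rw [Algebra.smul_def, RingHom.algebraMap_toAlgebra, redα_apply, heq, gmEv2,
          Polynomial.coe_eval₂RingHom, Polynomial.hom_eval₂, ιR, gm_coeffMap_bc]
        rfl
      rw [h1]
      have hG : _root_.IsIntegral (Rl ℓ)[X] (bc ℚ G) := by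
        obtain ⟨Q, hQ, hQ0⟩ := h.int
        exact ⟨Q, hQ, by rw [RingHom.algebraMap_toAlgebra, ← redα_eq_aeval]; exact hQ0⟩
      rw [Polynomial.eval₂_eq_sum_range]
      exact IsIntegral.sum _ fun i _ => isIntegral_algebraMap.mul (hG.pow i)
  have hmem : yF ∈ chartAlg N ℓ {tF} := red_mem_of_isIntegral N ℓ tF htF yF hint
  refine ⟨⟨yF, hmem⟩, Subtype.ext ?_⟩
  rw [Subalgebra.coe_mul]
  simpa using hlyF.symm

end

end Fermat.Agent.S28Lib
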