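import Mathlib
import Fermat.Prelude.Def_ModularCurve_IgusaScheme

set_option autoImplicit false

open AlgebraicGeometry CategoryTheory CategoryTheory.Limits ModularCurve ModularCurve.IgusaScheme
open scoped TensorProduct

namespace Fermat.Agent.S28Lib

noncomputable section

variable (N : ℕ) [NeZero N] (ℓ : ℕ) [Fact ℓ.Prime]

/-- objects of the two-chart cover -/
def schObj : Bool → Scheme.{0}
  | true => XFin N ℓ
  | false => XInf N ℓ

/-- maps of the two-chart cover -/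
def schMap : (b : Bool) → schObj N ℓ b ⟶ ModularCurve.IgusaScheme N ℓ
  | true => ιFin N ℓ
  | false => ιInf N ℓ

/-- the two-chart open cover of the Igusa scheme -/
def schCover : (ModularCurve.IgusaScheme N ℓ).OpenCover :=
  Scheme.Cover.mkOfCovers Bool (schObj N ℓ) (schMap N ℓ)
    (fun x => by
      rcases mem_range_ιFin_or_mem_range_ιInf N ℓ x with ⟨y, hy⟩ | ⟨y, hy⟩
      · exact ⟨true, y, hy⟩
      · exact ⟨false, y, hy⟩)
    (fun b => by
      cases b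
      · exact isOpenImmersion_ιInf N ℓ
      · exact isOpenImmersion_ιFin N ℓ)

variable (K : Type) [Field K] [Algebra ↥(GaloisRep.ratLocalizedAt ℓ) K]

/-- the base change morphism -/
abbrev schG : Spec (CommRingCat.of K) ⟶ Spec (CommRingCat.of ↥(GaloisRep.ratLocalizedAt ℓ)) :=
  Spec.map (CommRingCat.ofHom (algebraMap ↥(GaloisRep.ratLocalizedAt ℓ) K))

theorem sch_isIntegral_of_eq (A : Type) [CommRing A]
    [Algebra ↥(GaloisRep.ratLocalizedAt ℓ) A]
    (u : Spec (CommRingCat.of A) ⟶ Spec (CommRingCat.of ↥(GaloisRep.ratLocalizedAt ℓ)))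
    (hu : u = Spec.map (CommRingCat.ofHom (algebraMap ↥(GaloisRep.ratLocalizedAt ℓ) A)))
    (hA : IsDomain (A ⊗[↥(GaloisRep.ratLocalizedAt ℓ)] K)) :
    IsIntegral (pullback u (schG ℓ K)) := by
  subst hu
  exact IsIntegral.of_isIso (pullbackSpecIso ↥(GaloisRep.ratLocalizedAt ℓ) A K).inv

theorem sch_nonempty_of_eq (A : Type) [CommRing A]
    [Algebra ↥(GaloisRep.ratLocalizedAt ℓ) A]
    (u : Spec (CommRingCat.of A) ⟶ Spec (CommRingCat.of ↥(GaloisRep.ratLocalizedAt ℓ)))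
    (hu : u = Spec.map (CommRingCat.ofHom (algebraMap ↥(GaloisRep.ratLocalizedAt ℓ) A)))
    (hA : Nontrivial (A ⊗[↥(GaloisRep.ratLocalizedAt ℓ)] K)) :
    Nonempty ↥(pullback u (schG ℓ K)) := by
  subst hu
  have : Nonempty ↥(Spec (CommRingCat.of (A ⊗[↥(GaloisRep.ratLocalizedAt ℓ)] K))) :=
    inferInstanceAs (Nonempty (PrimeSpectrum (A ⊗[↥(GaloisRep.ratLocalizedAt ℓ)] K)))
  exact this.map (pullbackSpecIso ↥(GaloisRep.ratLocalizedAt ℓ) A K).inv.base

theorem sch_mid_eq : fFin N ℓ ≫ ιFin N ℓ ≫ igusaTo N ℓ =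
    Spec.map (CommRingCat.ofHom (algebraMap ↥(GaloisRep.ratLocalizedAt ℓ) (chartAlgMid N ℓ))) := by
  rw [ιFin_igusaTo, ← Spec.map_comp, ← CommRingCat.ofHom_comp]
  congr 2

theorem sch_comm {Y : Scheme.{0}} (g : Y ⟶ Spec (CommRingCat.of ↥(GaloisRep.ratLocalizedAt ℓ))) :
    pullback.map (fFin N ℓ ≫ ιFin N ℓ ≫ igusaTo N ℓ) g (ιFin N ℓ ≫ igusaTo N ℓ) g (fFin N ℓ)
        (𝟙 _) (𝟙 _) (by simp) (by simp) ≫
      pullback.map (ιFin N ℓ ≫ igusaTo N ℓ) g (igusaTo N ℓ) g (ιFin N ℓ) (𝟙 _) (𝟙 _)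
        (by simp) (by simp) =
    pullback.map (fFin N ℓ ≫ ιFin N ℓ ≫ igusaTo N ℓ) g (ιInf N ℓ ≫ igusaTo N ℓ) g (fInf N ℓ)
        (𝟙 _) (𝟙 _)
        (by rw [Category.comp_id, ← Category.assoc, glue_condition, Category.assoc]) (by simp) ≫
      pullback.map (ιInf N ℓ ≫ igusaTo N ℓ) g (igusaTo N ℓ) g (ιInf N ℓ) (𝟙 _) (𝟙 _)
        (by simp) (by simp) := by
  apply pullback.hom_ext
  · simp only [Category.assoc, pullback.lift_fst, pullback.map, pullback.lift_fst_assoc]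
    rw [glue_condition]
  · simp only [Category.assoc, pullback.lift_snd, pullback.map, pullback.lift_snd_assoc]

theorem isIntegral_pullback_igusaTo
    (hFin : IsDomain (chartAlgFin N ℓ ⊗[↥(GaloisRep.ratLocalizedAt ℓ)] K))
    (hInf : IsDomain (chartAlgInf N ℓ ⊗[↥(GaloisRep.ratLocalizedAt ℓ)] K))
    (hMid : Nontrivial (chartAlgMid N ℓ ⊗[↥(GaloisRep.ratLocalizedAt ℓ)] K)) :
    IsIntegral ↑(pullback (igusaTo N ℓ)
      (Spec.map (CommRingCat.ofHom (algebraMap ↥(GaloisRep.ratLocalizedAt ℓ) K)))) := by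
  set g := schG ℓ K with hg
  let 𝒱 := Scheme.Pullback.openCoverOfLeft (schCover N ℓ) (igusaTo N ℓ) g
  have hint : ∀ b : 𝒱.I₀, IsIntegral (𝒱.X b) := by
    intro b
    change Bool at b
    cases b
    · exact sch_isIntegral_of_eq ℓ K (chartAlgInf N ℓ) (ιInf N ℓ ≫ igusaTo N ℓ) (ιInf_igusaTo N ℓ) hInf
    · exact sch_isIntegral_of_eq ℓ K (chartAlgFin N ℓ) (ιFin N ℓ ≫ igusaTo N ℓ) (ιFin_igusaTo N ℓ) hFin
  let iT : 𝒱.I₀ := true
  let iF : 𝒱.I₀ := false
  -- the overlap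
  obtain ⟨w⟩ := sch_nonempty_of_eq ℓ K (chartAlgMid N ℓ) _ (sch_mid_eq N ℓ) hMid
  let aT : pullback (fFin N ℓ ≫ ιFin N ℓ ≫ igusaTo N ℓ) g ⟶ 𝒱.X iT :=
    pullback.map _ g (ιFin N ℓ ≫ igusaTo N ℓ) g (fFin N ℓ) (𝟙 _) (𝟙 _) (by simp) (by simp)
  let aF : pullback (fFin N ℓ ≫ ιFin N ℓ ≫ igusaTo N ℓ) g ⟶ 𝒱.X iF :=
    pullback.map _ g (ιInf N ℓ ≫ igusaTo N ℓ) g (fInf N ℓ) (𝟙 _) (𝟙 _)
      (by rw [Category.comp_id, ← Category.assoc, glue_condition, Category.assoc]) (by simp)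
  have hcomm : aT ≫ 𝒱.f iT = aF ≫ 𝒱.f iF := sch_comm N ℓ g
  have hred : IsReduced (pullback (igusaTo N ℓ) g) := IsReduced.of_openCover _ 𝒱
  have hne : Nonempty ↥(pullback (igusaTo N ℓ) g) := ⟨(aT ≫ 𝒱.f iT).base w⟩
  have hpre : PreirreducibleSpace ↥(pullback (igusaTo N ℓ) g) := by
    refine PreirreducibleSpace.of_isOpenCover (U := fun i => (𝒱.f i).opensRange) ?_
      𝒱.isOpenCover_opensRange ?_
    · have key : ¬ Disjoint ((𝒱.f iT).opensRange) ((𝒱.f iF).opensRange) := by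
        intro hdis
        have h1 : (aT ≫ 𝒱.f iT).base w ∈ (𝒱.f iT).opensRange := ⟨aT.base w, rfl⟩
        have h2 : (aT ≫ 𝒱.f iT).base w ∈ (𝒱.f iF).opensRange := by
          rw [hcomm]; exact ⟨aF.base w, rfl⟩
        have h3 := hdis.le_bot (show (aT ≫ 𝒱.f iT).base w ∈
          (𝒱.f iT).opensRange ⊓ (𝒱.f iF).opensRange from ⟨h1, h2⟩)
        exact h3
      intro i j hij
      change Bool at i j
      cases i <;> cases j
      · exact absurd rfl hij
      · exact fun h => key h.symm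
      · exact key
      · exact absurd rfl hij
    · intro i
      have h1 : IsPreirreducible (Set.range (𝒱.f i).base) := by
        have := (IrreducibleSpace.isIrreducible_univ ↥(𝒱.X i)).isPreirreducible.image (𝒱.f i).base
          (𝒱.f i).continuous.continuousOn
        rwa [Set.image_univ] at this
      exact Subtype.preirreducibleSpace h1
  have : IrreducibleSpace ↥(pullback (igusaTo N ℓ) g) := { hpre with toNonempty := hne }
  exact isIntegral_of_irreducibleSpace_of_isReduced _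

end

end Fermat.Agent.S28Lib
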