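import Fermat.Agent.S28.Defs2

/-!
# S28, piece C : `A ⊗ K` embeds in `K((q))`
-/

set_option autoImplicit false

open ModularCurve
open scoped TensorProduct

namespace Fermat.Agent.S28Lib

noncomputable section

variable (ℓ : ℕ) [Fact ℓ.Prime]

namespace Tensor

omit [Fact ℓ.Prime] in
/-- ring homomorphisms out of `ℤ_(ℓ)` are unique. -/
theorem ringHom_ext {S : Type*} [CommRing S] (f g : Rl ℓ →+* S) : f = g := by
  ext ⟨r, hr⟩
  have hden : ((r.den : ℚ)⁻¹) ∈ GaloisRep.ratLocalizedAt ℓ := by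
    change ((r.den : ℚ)⁻¹).den.Coprime ℓ
    have : ((r.den : ℚ)⁻¹).den = r.den := by
      rw [Rat.inv_natCast_den_of_pos r.den_pos]
    rw [this]; exact hr
  set u : Rl ℓ := ⟨(r.den : ℚ)⁻¹, hden⟩ with hu
  have h1 : (r.den : Rl ℓ) * u = 1 := by
    apply Subtype.ext
    push_cast
    simp [hu]
  have h2 : (⟨r, hr⟩ : Rl ℓ) = (r.num : Rl ℓ) * u := by
    apply Subtype.ext
    push_cast
    simp only [hu]
    rw [← div_eq_mul_inv, Rat.num_div_den]
  have hfu : (r.den : S) * f u = 1 := by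
    rw [← map_natCast f, ← map_mul, h1, map_one]
  have hgu : (r.den : S) * g u = 1 := by
    rw [← map_natCast g, ← map_mul, h1, map_one]
  have hfg : f u = g u := by
    calc f u = f u * ((r.den : S) * g u) := by rw [hgu, mul_one]
      _ = ((r.den : S) * f u) * g u := by ring
      _ = g u := by rw [hfu, one_mul]
  rw [h2, map_mul, map_mul, map_intCast, map_intCast, hfg]

variable (A : Type) [CommRing A] [Algebra (Rl ℓ) A]
    (K : Type) [Field K] [CharP K ℓ] [Algebra (Rl ℓ) K]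
    (φ : A →+* LaurentSeries (ZMod ℓ))

/-- `A → 𝔽_ℓ((q)) → K((q))` -/
def fA : A →ₐ[Rl ℓ] LaurentSeries K :=
  { (coeffMap (ZMod.castHom (dvd_refl ℓ) K)).comp φ with
    commutes' := fun r => DFunLike.congr_fun
      (ringHom_ext ℓ (((coeffMap (ZMod.castHom (dvd_refl ℓ) K)).comp φ).comp (algebraMap (Rl ℓ) A))
        (algebraMap (Rl ℓ) (LaurentSeries K))) r }

/-- `K → K((q))` -/
def gK : K →ₐ[Rl ℓ] LaurentSeries K :=
  { (HahnSeries.C : K →+* LaurentSeries K) with
    commutes' := fun r => DFunLike.congr_fun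
      (ringHom_ext ℓ ((HahnSeries.C : K →+* LaurentSeries K).comp (algebraMap (Rl ℓ) K))
        (algebraMap (Rl ℓ) (LaurentSeries K))) r }

/-- `A ⊗ K → K((q))` -/
def Psi : A ⊗[Rl ℓ] K →ₐ[Rl ℓ] LaurentSeries K :=
  Algebra.TensorProduct.productMap (fA ℓ A K φ) (gK ℓ K)

theorem Psi_tmul_coeff (a : A) (k : K) (n : ℤ) :
    (Psi ℓ A K φ (a ⊗ₜ k)).coeff n = ZMod.castHom (dvd_refl ℓ) K ((φ a).coeff n) * k := by
  rw [Psi, Algebra.TensorProduct.productMap_apply_tmul]
  change ((coeffMap (ZMod.castHom (dvd_refl ℓ) K) (φ a)) * HahnSeries.C k).coeff n = _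
  rw [mul_comm, HahnSeries.C_mul_eq_smul, HahnSeries.coeff_smul, coeffMap_coeff, smul_eq_mul,
    mul_comm]

/-- the `𝔽_ℓ`-algebra structure on `K`. -/
local instance algFK : Algebra (ZMod ℓ) K := ZMod.algebra K ℓ

theorem natCast_tmul (n : ℕ) (a : A) (k : K) :
    (((n : A) * a) ⊗ₜ[Rl ℓ] k) = a ⊗ₜ[Rl ℓ] ((n : K) * k) := by
  have h1 : (n : A) * a = (n : Rl ℓ) • a := by
    rw [Algebra.smul_def, map_natCast]
  have h2 : (n : K) * k = (n : Rl ℓ) • k := by
    rw [Algebra.smul_def, map_natCast]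
  rw [h1, h2, TensorProduct.smul_tmul]

theorem exists_repr {I : Type*} (b : Module.Basis I (ZMod ℓ) K) (t : A ⊗[Rl ℓ] K) :
    ∃ c : I →₀ A, t = c.sum (fun i a => a ⊗ₜ[Rl ℓ] b i) := by
  induction t using TensorProduct.induction_on with
  | zero => exact ⟨0, by simp⟩
  | tmul a k =>
    refine ⟨(b.repr k).mapRange (fun z : ZMod ℓ => (z.val : A) * a) (by simp), ?_⟩
    rw [Finsupp.sum_mapRange_index (by intro i; simp)]
    conv_lhs => rw [← b.linearCombination_repr k, Finsupp.linearCombination_apply]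
    rw [Finsupp.sum, Finsupp.sum, TensorProduct.tmul_sum]
    apply Finset.sum_congr rfl
    intro i _
    rw [natCast_tmul, Algebra.smul_def]
    congr 2
    change (ZMod.castHom (dvd_refl ℓ) K) _ = _
    simp
  | add x y hx hy =>
    obtain ⟨c, hc⟩ := hx
    obtain ⟨d, hd⟩ := hy
    refine ⟨c + d, ?_⟩
    rw [Finsupp.sum_add_index' (by intro i; simp) (by intro i a a'; rw [TensorProduct.add_tmul]),
      ← hc, ← hd]

theorem Psi_injective (hφ : ∀ x, φ x = 0 → ∃ y, x = (ℓ : A) * y) :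
    Function.Injective (Psi ℓ A K φ) := by
  rw [injective_iff_map_eq_zero]
  intro t ht
  set b := Module.Basis.ofVectorSpace (ZMod ℓ) K with hb
  obtain ⟨c, rfl⟩ := exists_repr ℓ A K b t
  have key : ∀ i, φ (c i) = 0 := by
    intro i
    ext n
    have h1 := congrArg (fun z => HahnSeries.coeff z n) ht
    simp only [Finsupp.sum, map_sum, HahnSeries.coeff_sum, HahnSeries.coeff_zero,
      Psi_tmul_coeff] at h1
    have h2 : Finsupp.linearCombination (ZMod ℓ) b
        (c.mapRange (fun a => (φ a).coeff n) (by simp)) = 0 := by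
      rw [Finsupp.linearCombination_apply, Finsupp.sum_mapRange_index (by intro i; simp),
        Finsupp.sum, ← h1]
      apply Finset.sum_congr rfl
      intro i _
      rw [Algebra.smul_def]
      rfl
    have h3 := (linearIndependent_iff.mp b.linearIndependent) _ h2
    have h4 := DFunLike.congr_fun h3 i
    simpa using h4
  rw [Finsupp.sum]
  apply Finset.sum_eq_zero
  intro i _
  obtain ⟨y, hy⟩ := hφ _ (key i)
  rw [hy, natCast_tmul, CharP.cast_eq_zero K ℓ, zero_mul, TensorProduct.tmul_zero]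

end Tensor

theorem isDomain_tensor (A : Type) [CommRing A] [Algebra (Rl ℓ) A]
    (K : Type) [Field K] [CharP K ℓ] [Algebra (Rl ℓ) K]
    (φ : A →+* LaurentSeries (ZMod ℓ)) (hφ : ∀ x, φ x = 0 → ∃ y, x = (ℓ : A) * y) :
    IsDomain (A ⊗[(Rl ℓ)] K) :=
  Function.Injective.isDomain (Tensor.Psi ℓ A K φ).toRingHom (Tensor.Psi_injective ℓ A K φ hφ)

theorem nontrivial_tensor (A : Type) [CommRing A] [Algebra (Rl ℓ) A]
    (K : Type) [Field K] [CharP K ℓ] [Algebra (Rl ℓ) K]
    (φ : A →+* LaurentSeries (ZMod ℓ)) : Nontrivial (A ⊗[(Rl ℓ)] K) :=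
  (Tensor.Psi ℓ A K φ).toRingHom.domain_nontrivial

end

end Fermat.Agent.S28Lib
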