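import Fermat.Agent.S28.Defs

/-!
# S28 (Igusa): shared definitions, part 2 (`Rl`, `FN`, `bc`, `ChartData`, `jInvZ`)

Verbatim from helper27's skeleton.
-/

set_option autoImplicit false

open ModularCurve ModularCurve.IgusaScheme
open scoped Polynomial

namespace Fermat.Agent.S28Lib

noncomputable section

/-- `ℤ_(ℓ)` -/
abbrev Rl (ℓ : ℕ) : Type := ↥(GaloisRep.ratLocalizedAt ℓ)
/-- the function field of `X₀(N)` -/
abbrev FN (N : ℕ) : Type := ↥(modularFunctionFieldFull N)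

/-- base change of an integral Laurent series -/
abbrev bc (κ : Type*) [CommRing κ] (f : LaurentSeries ℤ) : LaurentSeries κ :=
  coeffMap (Int.castRingHom κ) f

variable (N : ℕ) [NeZero N] (ℓ : ℕ) [Fact ℓ.Prime]

/-- the algebraic input needed on a chart with coordinate `t` (`= j` or `1/j`). -/
structure ChartData (T : ℕ) (t G : LaurentSeries ℤ) : Prop where
  span : ∀ y ∈ modularFunctionFieldFull N, ∃ (b : ℚ[X]) (a : ℚ[X][X]), b ≠ 0 ∧ a.natDegree < T ∧
    Polynomial.aeval (bc ℚ t) b * y = a.eval₂ (Polynomial.aeval (bc ℚ t)).toRingHom (bc ℚ G)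
  indep : ∀ p : (ZMod ℓ)[X][X], p ≠ 0 →
    p.eval₂ (Polynomial.aeval (bc (ZMod ℓ) t)).toRingHom (bc (ZMod ℓ) G) = 0 → T ≤ p.natDegree
  int : ∃ Q : (Rl ℓ)[X][X], Q.Monic ∧
    Q.eval₂ (Polynomial.aeval (R := (Rl ℓ)) (bc ℚ t)).toRingHom (bc ℚ G) = 0

/-- `1/j` as an integral Laurent series. -/
def jInvZ : LaurentSeries ℤ :=
  HahnSeries.single (1 : ℤ) 1 * HahnSeries.ofPowerSeries ℤ ℤ (jNum.invOfUnit 1)

end

end Fermat.Agent.S28Lib
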