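import Fermat.Agent.S28.Defs2

/-!
# S28 (Igusa), piece V1: the Gauss valuation ring inside `ℚ((q))` and its reduction map
-/

set_option autoImplicit false
set_option linter.unusedSectionVars false

open ModularCurve ModularCurve.IgusaScheme
open scoped Polynomial

namespace Fermat.Agent.S28Lib

noncomputable section

variable (ℓ : ℕ) [Fact ℓ.Prime]

theorem gauss_den_ne_zero (x : Rl ℓ) : (((x : ℚ).den : ℕ) : ZMod ℓ) ≠ 0 := by
  intro h
  rw [ZMod.natCast_eq_zero_iff] at h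
  have hx : (x : ℚ).den.Coprime ℓ := x.2
  have h1 : ℓ ∣ Nat.gcd (x : ℚ).den ℓ := Nat.dvd_gcd h dvd_rfl
  rw [hx] at h1
  exact (Fact.out : ℓ.Prime).one_lt.ne' (Nat.dvd_one.mp h1)

/-- residue map `ℤ_(ℓ) → 𝔽_ℓ` -/
def resR : Rl ℓ →+* ZMod ℓ where
  toFun x := ((x : ℚ) : ZMod ℓ)
  map_one' := by simp
  map_zero' := by simp
  map_mul' x y := by
    simpa using Rat.cast_mul_of_ne_zero (gauss_den_ne_zero ℓ x) (gauss_den_ne_zero ℓ y)
  map_add' x y := by
    simpa using Rat.cast_add_of_ne_zero (gauss_den_ne_zero ℓ x) (gauss_den_ne_zero ℓ y)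

theorem resR_apply (x : Rl ℓ) : resR ℓ x = ((x : ℚ) : ZMod ℓ) := rfl

theorem resR_eq_zero_iff (x : Rl ℓ) : resR ℓ x = 0 ↔ ∃ y, x = (ℓ : Rl ℓ) * y := by
  constructor
  · intro h
    rw [resR_apply, Rat.cast_def, div_eq_zero_iff, or_iff_left (gauss_den_ne_zero ℓ x),
      ZMod.intCast_zmod_eq_zero_iff_dvd] at h
    obtain ⟨m, hm⟩ := h
    have hden : ((x : ℚ).den : ℚ) ≠ 0 := by exact_mod_cast (x : ℚ).den_ne_zero
    have hmem : (m : ℚ) / (x : ℚ).den ∈ GaloisRep.ratLocalizedAt ℓ := by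
      show ((m : ℚ) / (x : ℚ).den).den.Coprime ℓ
      have hd : ((m : ℚ) / (x : ℚ).den).den ∣ (x : ℚ).den := by
        have := Rat.den_dvd m (x : ℚ).den
        rw [Rat.divInt_eq_div] at this
        exact_mod_cast this
      exact Nat.Coprime.coprime_dvd_left hd x.2
    refine ⟨⟨_, hmem⟩, Subtype.ext ?_⟩
    have hx : (x : ℚ) = (x : ℚ).num / (x : ℚ).den := (Rat.num_div_den _).symm
    push_cast
    conv_lhs => rw [hx, hm]
    push_cast
    ring
  · rintro ⟨y, rfl⟩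
    simp

def ιR : LaurentSeries (Rl ℓ) →+* LaurentSeries ℚ := coeffMap (algebraMap (Rl ℓ) ℚ)
def ρR : LaurentSeries (Rl ℓ) →+* LaurentSeries (ZMod ℓ) := coeffMap (resR ℓ)

theorem ιR_injective : Function.Injective (ιR ℓ) := by
  intro f g h
  ext k
  have := congrArg (fun z => HahnSeries.coeff z k) h
  simpa [ιR] using this

theorem gauss_l_ne_zero : (ℓ : Rl ℓ) ≠ 0 := by
  intro h
  have h1 := congrArg Subtype.val h
  simp only [SubringClass.coe_natCast, ZeroMemClass.coe_zero, Nat.cast_eq_zero] at h1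
  exact (Fact.out : ℓ.Prime).ne_zero h1

open Classical in
/-- division by `ℓ` (junk value `0`) -/
def gaussDivL : ZeroHom (Rl ℓ) (Rl ℓ) where
  toFun x := if h : ∃ y, x = (ℓ : Rl ℓ) * y then h.choose else 0
  map_zero' := by
    have h : ∃ y, (0 : Rl ℓ) = (ℓ : Rl ℓ) * y := ⟨0, by simp⟩
    rw [dif_pos h]
    rcases mul_eq_zero.mp h.choose_spec.symm with h1 | h1
    · exact absurd h1 (gauss_l_ne_zero ℓ)
    · exact h1

open Classical in
theorem gaussDivL_spec {x : Rl ℓ} (h : ∃ y, x = (ℓ : Rl ℓ) * y) :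
    x = (ℓ : Rl ℓ) * gaussDivL ℓ x := by
  show x = (ℓ : Rl ℓ) * (if h : ∃ y, x = (ℓ : Rl ℓ) * y then h.choose else 0)
  rw [dif_pos h]
  exact h.choose_spec

theorem gauss_coeff_natCast_mul {κ : Type*} [CommRing κ] (n : ℕ) (g : LaurentSeries κ) (k : ℤ) :
    ((n : LaurentSeries κ) * g).coeff k = (n : κ) * g.coeff k := by
  have h : (n : LaurentSeries κ) = HahnSeries.C (n : κ) := by simp
  rw [h, HahnSeries.C_mul_eq_smul]
  simp

theorem ρR_eq_zero_iff (f : LaurentSeries (Rl ℓ)) :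
    ρR ℓ f = 0 ↔ ∃ g, f = (ℓ : LaurentSeries (Rl ℓ)) * g := by
  constructor
  · intro h
    refine ⟨f.map (gaussDivL ℓ), ?_⟩
    apply HahnSeries.ext
    funext k
    rw [gauss_coeff_natCast_mul, HahnSeries.map_coeff]
    apply gaussDivL_spec
    rw [← resR_eq_zero_iff]
    have := congrArg (fun z => HahnSeries.coeff z k) h
    simpa [ρR] using this
  · rintro ⟨g, rfl⟩
    rw [map_mul, map_natCast]
    have : (ℓ : LaurentSeries (ZMod ℓ)) = 0 := by
      ext k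
      have := gauss_coeff_natCast_mul (κ := ZMod ℓ) ℓ 1 k
      rw [mul_one] at this
      rw [this]
      simp
    rw [this, zero_mul]

/-- localisation of `ℤ_(ℓ)((q))` at the prime `(ℓ)`, as a subring of `ℚ((q))`. -/
def gaussRing : Subring (LaurentSeries ℚ) where
  carrier := {x | ∃ a s, ρR ℓ s ≠ 0 ∧ x * ιR ℓ s = ιR ℓ a}
  mul_mem' := by
    rintro x y ⟨a, s, hs, h⟩ ⟨a', s', hs', h'⟩
    refine ⟨a * a', s * s', by rw [map_mul]; exact mul_ne_zero hs hs', ?_⟩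
    rw [map_mul, map_mul, ← h, ← h']
    ring
  one_mem' := ⟨1, 1, by simp, by simp⟩
  add_mem' := by
    rintro x y ⟨a, s, hs, h⟩ ⟨a', s', hs', h'⟩
    refine ⟨a * s' + a' * s, s * s', by rw [map_mul]; exact mul_ne_zero hs hs', ?_⟩
    rw [map_add, map_mul, map_mul, map_mul, ← h, ← h']
    ring
  zero_mem' := ⟨0, 1, by simp, by simp⟩
  neg_mem' := by
    rintro x ⟨a, s, hs, h⟩
    exact ⟨-a, s, hs, by rw [map_neg, ← h]; ring⟩

theorem mem_gaussRing_iff {x : LaurentSeries ℚ} :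
    x ∈ gaussRing ℓ ↔ ∃ a s, ρR ℓ s ≠ 0 ∧ x * ιR ℓ s = ιR ℓ a := Iff.rfl

/-- chosen numerator -/
def gaussNum (x : gaussRing ℓ) : LaurentSeries (Rl ℓ) := x.2.choose
/-- chosen denominator -/
def gaussDen (x : gaussRing ℓ) : LaurentSeries (Rl ℓ) := x.2.choose_spec.choose

theorem gaussDen_ne (x : gaussRing ℓ) : ρR ℓ (gaussDen ℓ x) ≠ 0 := x.2.choose_spec.choose_spec.1

theorem gaussNum_spec (x : gaussRing ℓ) :
    (x : LaurentSeries ℚ) * ιR ℓ (gaussDen ℓ x) = ιR ℓ (gaussNum ℓ x) :=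
  x.2.choose_spec.choose_spec.2

/-- the underlying function of `gaussRed` -/
def gaussRedFun (x : gaussRing ℓ) : LaurentSeries (ZMod ℓ) :=
  ρR ℓ (gaussNum ℓ x) / ρR ℓ (gaussDen ℓ x)

theorem gaussRedFun_mul_eq (x : gaussRing ℓ) {a s : LaurentSeries (Rl ℓ)}
    (h : (x : LaurentSeries ℚ) * ιR ℓ s = ιR ℓ a) : gaussRedFun ℓ x * ρR ℓ s = ρR ℓ a := by
  have h1 : gaussNum ℓ x * s = a * gaussDen ℓ x := by
    apply ιR_injective ℓ
    rw [map_mul, map_mul, ← h, ← gaussNum_spec]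
    ring
  have h2 := congrArg (ρR ℓ) h1
  rw [map_mul, map_mul] at h2
  rw [gaussRedFun, div_mul_eq_mul_div, h2, mul_div_assoc, div_self (gaussDen_ne ℓ x), mul_one]

theorem gaussRedFun_eq (x : gaussRing ℓ) {a s : LaurentSeries (Rl ℓ)} (hs : ρR ℓ s ≠ 0)
    (h : (x : LaurentSeries ℚ) * ιR ℓ s = ιR ℓ a) : gaussRedFun ℓ x = ρR ℓ a / ρR ℓ s := by
  rw [eq_div_iff hs, gaussRedFun_mul_eq ℓ x h]

def gaussRed : gaussRing ℓ →+* LaurentSeries (ZMod ℓ) where
  toFun := gaussRedFun ℓ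
  map_one' := by
    rw [gaussRedFun_eq ℓ 1 (a := 1) (s := 1) (by simp) (by simp)]
    simp
  map_zero' := by
    rw [gaussRedFun_eq ℓ 0 (a := 0) (s := 1) (by simp) (by simp)]
    simp
  map_mul' x y := by
    have hx := gaussNum_spec ℓ x
    have hy := gaussNum_spec ℓ y
    rw [gaussRedFun_eq ℓ (x * y) (a := gaussNum ℓ x * gaussNum ℓ y)
      (s := gaussDen ℓ x * gaussDen ℓ y)
      (by rw [map_mul]; exact mul_ne_zero (gaussDen_ne ℓ x) (gaussDen_ne ℓ y))
      (by rw [map_mul, map_mul, ← hx, ← hy, Subring.coe_mul]; ring)]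
    rw [map_mul, map_mul, gaussRedFun, gaussRedFun, div_mul_div_comm]
  map_add' x y := by
    have hx := gaussNum_spec ℓ x
    have hy := gaussNum_spec ℓ y
    rw [gaussRedFun_eq ℓ (x + y) (a := gaussNum ℓ x * gaussDen ℓ y + gaussNum ℓ y * gaussDen ℓ x)
      (s := gaussDen ℓ x * gaussDen ℓ y)
      (by rw [map_mul]; exact mul_ne_zero (gaussDen_ne ℓ x) (gaussDen_ne ℓ y))
      (by rw [map_add, map_mul, map_mul, map_mul, ← hx, ← hy, Subring.coe_add]; ring)]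
    rw [map_add, map_mul, map_mul, map_mul, gaussRedFun, gaussRedFun,
      div_add_div _ _ (gaussDen_ne ℓ x) (gaussDen_ne ℓ y)]
    ring

theorem gaussRed_mul_eq (x : gaussRing ℓ) {a s : LaurentSeries (Rl ℓ)}
    (h : (x : LaurentSeries ℚ) * ιR ℓ s = ιR ℓ a) : gaussRed ℓ x * ρR ℓ s = ρR ℓ a :=
  gaussRedFun_mul_eq ℓ x h

theorem gaussRed_eq_zero_iff (x : gaussRing ℓ) :
    gaussRed ℓ x = 0 ↔ ∃ y : gaussRing ℓ, x = (ℓ : gaussRing ℓ) * y := by
  constructor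
  · intro h
    have h1 := gaussRed_mul_eq ℓ x (gaussNum_spec ℓ x)
    rw [h, zero_mul] at h1
    obtain ⟨g, hg⟩ := (ρR_eq_zero_iff ℓ _).mp h1.symm
    have hl : (ℓ : LaurentSeries ℚ) ≠ 0 := by
      intro h0
      have h3 := gauss_coeff_natCast_mul (κ := ℚ) ℓ 1 0
      rw [h0, zero_mul] at h3
      simp only [HahnSeries.coeff_zero, HahnSeries.coeff_one, if_true, mul_one] at h3
      exact (Fact.out : ℓ.Prime).ne_zero (by exact_mod_cast h3.symm)
    have hmem : (x : LaurentSeries ℚ) / (ℓ : LaurentSeries ℚ) ∈ gaussRing ℓ := by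
      refine ⟨g, gaussDen ℓ x, gaussDen_ne ℓ x, ?_⟩
      have h2 := gaussNum_spec ℓ x
      rw [hg, map_mul, map_natCast] at h2
      rw [div_mul_eq_mul_div, h2, mul_div_assoc, mul_comm, div_mul_cancel₀ _ hl]
    refine ⟨⟨_, hmem⟩, Subtype.ext ?_⟩
    rw [Subring.coe_mul]
    push_cast
    rw [mul_div_cancel₀ _ hl]
  · rintro ⟨y, rfl⟩
    rw [map_mul, map_natCast]
    have : (ℓ : LaurentSeries (ZMod ℓ)) = 0 := by
      ext k
      have := gauss_coeff_natCast_mul (κ := ZMod ℓ) ℓ 1 k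
      rw [mul_one] at this
      rw [this]
      simp
    rw [this, zero_mul]

end

end Fermat.Agent.S28Lib
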