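import Fermat.Agent.S28.RlFacts

/-!
# S28 (Igusa), piece V3: integral elements of the function field lie in the Gauss ring
-/

set_option autoImplicit false
set_option linter.unusedSectionVars false

open ModularCurve ModularCurve.IgusaScheme
open scoped Polynomial

namespace Fermat.Agent.S28Lib

noncomputable section

/-! ### naturality of evaluation -/

section Naturality

variable {A B : Type*} [CommRing A] [CommRing B]

/-- evaluation of a one-variable polynomial at `t` -/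
def gmEv1 (κ : Type*) [CommRing κ] (t : LaurentSeries ℤ) : κ[X] →+* LaurentSeries κ :=
  (Polynomial.aeval (bc κ t)).toRingHom

/-- evaluation of a two-variable polynomial at `(t, G)` -/
def gmEv2 (κ : Type*) [CommRing κ] (t G : LaurentSeries ℤ) : κ[X][X] →+* LaurentSeries κ :=
  Polynomial.eval₂RingHom (gmEv1 κ t) (bc κ G)

theorem gmEv2_apply (κ : Type*) [CommRing κ] (t G : LaurentSeries ℤ) (p : κ[X][X]) :
    gmEv2 κ t G p = p.eval₂ (Polynomial.aeval (bc κ t)).toRingHom (bc κ G) := rfl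

theorem gmEv1_apply (κ : Type*) [CommRing κ] (t : LaurentSeries ℤ) (p : κ[X]) :
    gmEv1 κ t p = Polynomial.aeval (bc κ t) p := rfl

theorem gm_coeffMap_bc (f : A →+* B) (t : LaurentSeries ℤ) : coeffMap f (bc A t) = bc B t := by
  rw [bc, bc, coeffMap_coeffMap]
  exact coeffMap_congr (RingHom.ext_int _ _) t

theorem gm_algebraMap_eq_single (c : A) :
    algebraMap A (LaurentSeries A) c = HahnSeries.single 0 c := by
  have h1 : algebraMap A (PowerSeries A) c = PowerSeries.C c := by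
    simp
  rw [HahnSeries.algebraMap_apply', h1, HahnSeries.ofPowerSeries_C]
  rfl

theorem gm_coeffMap_algebraMap (f : A →+* B) (a : A) :
    coeffMap f (algebraMap A (LaurentSeries A) a) = algebraMap B (LaurentSeries B) (f a) := by
  rw [gm_algebraMap_eq_single, gm_algebraMap_eq_single, coeffMap_single]

theorem gm_coeffMap_comp_ev1 (f : A →+* B) (t : LaurentSeries ℤ) :
    (coeffMap f).comp (gmEv1 A t) = (gmEv1 B t).comp (Polynomial.mapRingHom f) := by
  apply Polynomial.ringHom_ext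
  · intro a
    simp [gmEv1, gm_coeffMap_algebraMap]
  · simp [gmEv1, gm_coeffMap_bc]

theorem gm_coeffMap_ev1 (f : A →+* B) (t : LaurentSeries ℤ) (p : A[X]) :
    coeffMap f (gmEv1 A t p) = gmEv1 B t (p.map f) :=
  congrArg (fun φ : A[X] →+* LaurentSeries B => φ p) (gm_coeffMap_comp_ev1 f t)

theorem gm_coeffMap_ev2 (f : A →+* B) (t G : LaurentSeries ℤ) (p : A[X][X]) :
    coeffMap f (gmEv2 A t G p) = gmEv2 B t G (p.map (Polynomial.mapRingHom f)) := by
  simp only [gmEv2, Polynomial.coe_eval₂RingHom]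
  rw [Polynomial.hom_eval₂, Polynomial.eval₂_map, gm_coeffMap_comp_ev1, gm_coeffMap_bc]

end Naturality

/-! ### clearing denominators, content -/

section Content

/-- clearing denominators passes to polynomial rings -/
theorem gm_clearDenom {A B : Type*} [CommRing A] [CommRing B] (f : A →+* B)
    (h : ∀ b : B, ∃ m : ℕ, m ≠ 0 ∧ ∃ a, f a = m * b) (p : B[X]) :
    ∃ m : ℕ, m ≠ 0 ∧ ∃ a : A[X], Polynomial.mapRingHom f a = m * p := by
  induction p using Polynomial.induction_on' with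
  | add p q hp hq =>
    obtain ⟨m, hm, a, ha⟩ := hp
    obtain ⟨n, hn, b, hb⟩ := hq
    refine ⟨m * n, mul_ne_zero hm hn, (n : A[X]) * a + (m : A[X]) * b, ?_⟩
    rw [map_add, map_mul, map_mul, ha, hb, map_natCast, map_natCast]
    push_cast
    ring
  | monomial n b =>
    obtain ⟨m, hm, a, ha⟩ := h b
    refine ⟨m, hm, Polynomial.monomial n a, ?_⟩
    rw [Polynomial.coe_mapRingHom, Polynomial.map_monomial, ha, ← Polynomial.C_eq_natCast,
      Polynomial.C_mul_monomial]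

theorem gm_content {A B : Type*} [CommRing A] [IsDomain A] [WfDvdMonoid A] [CommRing B]
    [IsDomain B] [CharZero B] (f : A →+* B) (h : ∀ b : B, ∃ m : ℕ, m ≠ 0 ∧ ∃ a, f a = m * b)
    {π : A} (hπ : ¬ IsUnit π) {b : B} (hb : b ≠ 0) :
    ∃ (m n : ℕ) (a : A), m ≠ 0 ∧ ¬ π ∣ a ∧ f π ^ n * f a = m * b := by
  obtain ⟨m, hm, a₁, ha₁⟩ := h b
  have ha₁0 : a₁ ≠ 0 := by
    rintro rfl
    rw [map_zero] at ha₁
    exact mul_ne_zero (Nat.cast_ne_zero.mpr hm) hb ha₁.symm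
  obtain ⟨a, ha, hdvd⟩ := (FiniteMultiplicity.of_not_isUnit hπ ha₁0).exists_eq_pow_mul_and_not_dvd
  exact ⟨m, _, a, hm, hdvd, by rw [← ha₁, ← map_pow, ← map_mul, ← ha]⟩

variable (ℓ : ℕ) [Fact ℓ.Prime]

theorem gm_clearDenom0 (b : ℚ) : ∃ m : ℕ, m ≠ 0 ∧ ∃ a : Rl ℓ, algebraMap (Rl ℓ) ℚ a = m * b :=
  ⟨b.den, b.den_ne_zero, (b.num : Rl ℓ), by
    rw [map_intCast, mul_comm]
    exact (Rat.mul_den_eq_num b).symm⟩

theorem prime_l_poly2 : Prime ((ℓ : (Rl ℓ)[X][X])) := by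
  have h : (ℓ : (Rl ℓ)[X][X]) = Polynomial.C (ℓ : (Rl ℓ)[X]) := by simp
  rw [h, Polynomial.prime_C_iff]
  exact prime_l_poly ℓ

theorem l_dvd_poly2_iff (p : (Rl ℓ)[X][X]) :
    (ℓ : (Rl ℓ)[X][X]) ∣ p ↔ p.map (Polynomial.mapRingHom (resR ℓ)) = 0 := by
  have h : (ℓ : (Rl ℓ)[X][X]) = Polynomial.C (ℓ : (Rl ℓ)[X]) := by simp
  rw [h, Polynomial.C_dvd_iff_dvd_coeff, Polynomial.ext_iff]
  simp only [Polynomial.coeff_map, Polynomial.coeff_zero, l_dvd_poly_iff,
    Polynomial.coe_mapRingHom]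

theorem gm_l_dvd_natCast_poly {u : ℕ} (h : (ℓ : (Rl ℓ)[X]) ∣ (u : (Rl ℓ)[X])) : ℓ ∣ u := by
  rw [l_dvd_poly_iff, Polynomial.map_natCast, ← Polynomial.C_eq_natCast, Polynomial.C_eq_zero] at h
  exact (ZMod.natCast_eq_zero_iff _ _).mp h

theorem gm_l_dvd_natCast_poly2 {u : ℕ} (h : (ℓ : (Rl ℓ)[X][X]) ∣ (u : (Rl ℓ)[X][X])) : ℓ ∣ u := by
  rw [l_dvd_poly2_iff, Polynomial.map_natCast, ← Polynomial.C_eq_natCast, Polynomial.C_eq_zero,
    ← Polynomial.C_eq_natCast, Polynomial.C_eq_zero] at h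
  exact (ZMod.natCast_eq_zero_iff _ _).mp h

end Content

/-! ### consequences of `ChartData` -/

section Chart

variable {N : ℕ} [NeZero N] {ℓ : ℕ} [Fact ℓ.Prime] {T : ℕ} {t G : LaurentSeries ℤ}

theorem ChartData.ρ_ev2_ne_zero (h : ChartData N ℓ T t G) {a : (Rl ℓ)[X][X]}
    (ha : ¬ (ℓ : (Rl ℓ)[X][X]) ∣ a) (hdeg : a.natDegree < T) :
    ρR ℓ (gmEv2 (Rl ℓ) t G a) ≠ 0 := by
  intro h0
  rw [ρR, gm_coeffMap_ev2] at h0
  have h1 := h.indep _ (fun h2 => ha ((l_dvd_poly2_iff ℓ a).mpr h2)) h0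
  have h2 := Polynomial.natDegree_map_le (f := Polynomial.mapRingHom (resR ℓ)) (p := a)
  omega

theorem ChartData.ρ_ev1_ne_zero (h : ChartData N ℓ T t G) (hT : 0 < T) {b : (Rl ℓ)[X]}
    (hb : ¬ (ℓ : (Rl ℓ)[X]) ∣ b) : ρR ℓ (gmEv1 (Rl ℓ) t b) ≠ 0 := by
  have h1 : ¬ (ℓ : (Rl ℓ)[X][X]) ∣ Polynomial.C b := by
    rw [l_dvd_poly2_iff, Polynomial.map_C, Polynomial.C_eq_zero, Polynomial.coe_mapRingHom,
      ← l_dvd_poly_iff]
    exact hb
  have h2 := h.ρ_ev2_ne_zero h1 (by rw [Polynomial.natDegree_C]; exact hT)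
  simpa [gmEv2] using h2

theorem gm_natCast_ne_zero {m : ℕ} (hm : m ≠ 0) : (m : LaurentSeries ℚ) ≠ 0 := by
  intro h0
  have h3 := gauss_coeff_natCast_mul (κ := ℚ) m 1 0
  rw [h0, zero_mul] at h3
  simp only [HahnSeries.coeff_zero, HahnSeries.coeff_one, if_true, mul_one] at h3
  exact hm (by exact_mod_cast h3.symm)

theorem ChartData.normalForm (h : ChartData N ℓ T t G) {y : LaurentSeries ℚ}
    (hy : y ∈ modularFunctionFieldFull N) :
    ∃ (b : (Rl ℓ)[X]) (a : (Rl ℓ)[X][X]), a.natDegree < T ∧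
      (¬ (ℓ : (Rl ℓ)[X]) ∣ b ∨ ¬ (ℓ : (Rl ℓ)[X][X]) ∣ a) ∧
      ιR ℓ (gmEv1 _ t b) * y = ιR ℓ (gmEv2 _ t G a) := by
  obtain ⟨b₀, a₀, hb₀, hdeg, heq⟩ := h.span y hy
  change gmEv1 ℚ t b₀ * y = gmEv2 ℚ t G a₀ at heq
  have hl : (ℓ : LaurentSeries ℚ) ≠ 0 := gm_natCast_ne_zero (Fact.out : ℓ.Prime).ne_zero
  obtain ⟨m₁, n₁, b, hm₁, hb, e₁⟩ := gm_content (Polynomial.mapRingHom (algebraMap (Rl ℓ) ℚ))
    (gm_clearDenom _ (gm_clearDenom0 ℓ)) (prime_l_poly ℓ).not_isUnit hb₀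
  have e₁' := congrArg (gmEv1 ℚ t) e₁
  rw [map_mul, map_mul, map_pow, map_natCast, map_natCast, map_natCast,
    Polynomial.coe_mapRingHom, ← gm_coeffMap_ev1] at e₁'
  change (ℓ : LaurentSeries ℚ) ^ n₁ * ιR ℓ (gmEv1 _ t b) = _ at e₁'
  by_cases ha₀ : a₀ = 0
  · refine ⟨b, 0, by rw [Polynomial.natDegree_zero]; omega, Or.inl hb, ?_⟩
    rw [ha₀, map_zero] at heq
    rw [map_zero, map_zero]
    have h1 : (ℓ : LaurentSeries ℚ) ^ n₁ * (ιR ℓ (gmEv1 _ t b) * y) = 0 := by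
      rw [← mul_assoc, e₁', mul_assoc, heq, mul_zero]
    exact (mul_eq_zero.mp h1).resolve_left (pow_ne_zero _ hl)
  · obtain ⟨m₂, n₂, a, hm₂, ha, e₂⟩ := gm_content (A := (Rl ℓ)[X][X]) (B := ℚ[X][X])
      (Polynomial.mapRingHom (Polynomial.mapRingHom (algebraMap (Rl ℓ) ℚ)))
      (gm_clearDenom _ (gm_clearDenom _ (gm_clearDenom0 ℓ))) (prime_l_poly2 ℓ).not_isUnit ha₀
    have hinj : Function.Injective (Polynomial.mapRingHom (algebraMap (Rl ℓ) ℚ)) :=
      Polynomial.map_injective _ (FaithfulSMul.algebraMap_injective _ _)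
    have hdega : a.natDegree = a₀.natDegree := by
      have h1 := congrArg Polynomial.natDegree e₂
      have ha0 : a ≠ 0 := by
        rintro rfl
        exact ha (dvd_zero _)
      have hFa : Polynomial.mapRingHom (Polynomial.mapRingHom (algebraMap (Rl ℓ) ℚ)) a ≠ 0 := by
        rw [Ne, map_eq_zero_iff _ (Polynomial.map_injective _ hinj)]
        exact ha0
      have hl2 : (ℓ : ℚ[X][X]) ≠ 0 := Nat.cast_ne_zero.mpr (Fact.out : ℓ.Prime).ne_zero
      rw [map_natCast, Polynomial.natDegree_mul (pow_ne_zero _ hl2) hFa,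
        Polynomial.natDegree_mul (Nat.cast_ne_zero.mpr hm₂) ha₀, Polynomial.natDegree_pow,
        Polynomial.natDegree_natCast, Polynomial.natDegree_natCast, mul_zero, zero_add, zero_add,
        Polynomial.coe_mapRingHom, Polynomial.natDegree_map_eq_of_injective hinj] at h1
      exact h1
    have e₂' := congrArg (gmEv2 ℚ t G) e₂
    rw [map_mul, map_mul, map_pow, map_natCast, map_natCast, map_natCast,
      Polynomial.coe_mapRingHom, ← gm_coeffMap_ev2] at e₂'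
    change (ℓ : LaurentSeries ℚ) ^ n₂ * ιR ℓ (gmEv2 _ t G a) = _ at e₂'
    obtain ⟨u, u', hcop, hu, hu'⟩ := Nat.exists_coprime (m₂ * ℓ ^ n₁) (m₁ * ℓ ^ n₂)
    set g := Nat.gcd (m₂ * ℓ ^ n₁) (m₁ * ℓ ^ n₂) with hg
    have hg0 : g ≠ 0 := by
      intro h0
      rw [h0, mul_zero] at hu
      exact mul_ne_zero hm₂ (pow_ne_zero _ (Fact.out : ℓ.Prime).ne_zero) hu
    refine ⟨(u : (Rl ℓ)[X]) * b, (u' : (Rl ℓ)[X][X]) * a, ?_, ?_, ?_⟩
    · rw [← Polynomial.C_eq_natCast]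
      exact lt_of_le_of_lt (Polynomial.natDegree_C_mul_le _ _) (hdega ▸ hdeg)
    · by_cases hlu : ℓ ∣ u
      · right
        intro hd
        rcases (prime_l_poly2 ℓ).dvd_or_dvd hd with h1 | h1
        · have h2 := gm_l_dvd_natCast_poly2 ℓ h1
          have h3 := Nat.dvd_gcd hlu h2
          rw [hcop] at h3
          exact (Fact.out : ℓ.Prime).one_lt.ne' (Nat.dvd_one.mp h3)
        · exact ha h1
      · left
        intro hd
        rcases (prime_l_poly ℓ).dvd_or_dvd hd with h1 | h1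
        · exact hlu (gm_l_dvd_natCast_poly ℓ h1)
        · exact hb h1
    · rw [map_mul, map_mul, map_mul, map_mul, map_natCast, map_natCast, map_natCast, map_natCast]
      have h1 : (g : LaurentSeries ℚ) * ((u : LaurentSeries ℚ) * ιR ℓ (gmEv1 _ t b) * y) =
          (g : LaurentSeries ℚ) * ((u' : LaurentSeries ℚ) * ιR ℓ (gmEv2 _ t G a)) := by
        have hu1 : (g : LaurentSeries ℚ) * (u : LaurentSeries ℚ) =
            (m₂ : LaurentSeries ℚ) * (ℓ : LaurentSeries ℚ) ^ n₁ := by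
          rw [mul_comm]
          have := congrArg (Nat.cast : ℕ → LaurentSeries ℚ) hu.symm
          push_cast at this
          exact this
        have hu2 : (g : LaurentSeries ℚ) * (u' : LaurentSeries ℚ) =
            (m₁ : LaurentSeries ℚ) * (ℓ : LaurentSeries ℚ) ^ n₂ := by
          rw [mul_comm]
          have := congrArg (Nat.cast : ℕ → LaurentSeries ℚ) hu'.symm
          push_cast at this
          exact this
        calc (g : LaurentSeries ℚ) * ((u : LaurentSeries ℚ) * ιR ℓ (gmEv1 _ t b) * y)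
            = ((g : LaurentSeries ℚ) * (u : LaurentSeries ℚ)) * ιR ℓ (gmEv1 _ t b) * y := by ring
          _ = (m₂ : LaurentSeries ℚ) * ((ℓ : LaurentSeries ℚ) ^ n₁ * ιR ℓ (gmEv1 _ t b)) * y := by
              rw [hu1]; ring
          _ = (m₁ : LaurentSeries ℚ) * ((m₂ : LaurentSeries ℚ) * (gmEv1 ℚ t b₀ * y)) := by
              rw [e₁']; ring
          _ = (m₁ : LaurentSeries ℚ) * ((ℓ : LaurentSeries ℚ) ^ n₂ * ιR ℓ (gmEv2 _ t G a)) := by
              rw [heq, e₂']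
          _ = ((g : LaurentSeries ℚ) * (u' : LaurentSeries ℚ)) * ιR ℓ (gmEv2 _ t G a) := by
              rw [hu2]; ring
          _ = _ := by ring
      exact mul_left_cancel₀ (gm_natCast_ne_zero hg0) h1

end Chart

section Main

variable (N : ℕ) [NeZero N] (ℓ : ℕ) [Fact ℓ.Prime]

theorem gm_natCast_l_eq_zero : (ℓ : LaurentSeries (ZMod ℓ)) = 0 := by
  ext k
  have := gauss_coeff_natCast_mul (κ := ZMod ℓ) ℓ 1 k
  rw [mul_one] at this
  rw [this]
  simp

/-- if `e x = w` with `e ≡ 0`, `w ≢ 0` then `x` is not integral. -/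
theorem gm_not_integral {x : LaurentSeries ℚ} {e w : LaurentSeries (Rl ℓ)} (he : ρR ℓ e = 0)
    (hw : ρR ℓ w ≠ 0) (heq : ιR ℓ e * x = ιR ℓ w)
    (hint : ∃ p : (LaurentSeries (Rl ℓ))[X], p.Monic ∧ p.eval₂ (ιR ℓ) x = 0) : False := by
  obtain ⟨p, hp, hpx⟩ := hint
  have h1 : (p.scaleRoots e).eval₂ (ιR ℓ) (ιR ℓ e * x) = 0 := by
    rw [Polynomial.scaleRoots_eval₂_mul, hpx, mul_zero]
  rw [heq, Polynomial.eval₂_at_apply] at h1
  have h2 : (p.scaleRoots e).eval w = 0 := ιR_injective ℓ (by rw [h1, map_zero])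
  have h3 := congrArg (ρR ℓ) h2
  rw [map_zero, ← Polynomial.eval₂_at_apply, ← Polynomial.eval_map,
    Polynomial.map_scaleRoots _ _ _ (by rw [hp.leadingCoeff, map_one]; exact one_ne_zero), he,
    Polynomial.scaleRoots_zero, (hp.map _).leadingCoeff, one_smul, Polynomial.eval_pow,
    Polynomial.eval_X] at h3
  exact hw (eq_zero_of_pow_eq_zero h3)

theorem mem_gaussRing_of_isIntegral {T : ℕ} {t G : LaurentSeries ℤ} (h : ChartData N ℓ T t G)
    (x : LaurentSeries ℚ) (hx : x ∈ modularFunctionFieldFull N)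
    (hint : ∃ p : (LaurentSeries (Rl ℓ))[X], p.Monic ∧ p.eval₂ (ιR ℓ) x = 0) :
    x ∈ gaussRing ℓ := by
  obtain ⟨b, a, hdeg, hor, heq⟩ := h.normalForm hx
  have hT : 0 < T := by omega
  by_cases hb : (ℓ : (Rl ℓ)[X]) ∣ b
  · exfalso
    have ha := hor.resolve_left (not_not.mpr hb)
    have hw := h.ρ_ev2_ne_zero ha hdeg
    have he : ρR ℓ (gmEv1 _ t b) = 0 := by
      obtain ⟨b', rfl⟩ := hb
      rw [map_mul, map_mul, map_natCast, map_natCast, gm_natCast_l_eq_zero, zero_mul]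
    exact gm_not_integral ℓ he hw heq hint
  · exact ⟨gmEv2 _ t G a, gmEv1 _ t b, h.ρ_ev1_ne_zero hT hb, by rw [mul_comm]; exact heq⟩

end Main

end

end Fermat.Agent.S28Lib
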