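import Fermat.Agent.S28.IsQ2
import Fermat.Agent.S28.EtaQuot

/-!
# S28 AN-F : `isQ_h0`
-/

set_option autoImplicit false

open ModularCurve UpperHalfPlane ModularForm Matrix.SpecialLinearGroup
open scoped MatrixGroups Manifold Polynomial
open Fermat.Agent.S20Lib

namespace Fermat.Agent.S28Lib

noncomputable section

variable (N : ℕ) [NeZero N]

theorem isQ_h0 : IsQ N (12 * Mn N)
    ((PowerSeries.X ^ (ZZ N).toNat * (wU N : PowerSeries ℤ)).map (Int.castRingHom ℚ)) := by
  refine isQ_of_int N (f := h0f N) ?_ (qExpansion_h0f N)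
  have h : ((12 * Mn N : ℕ) : ℤ) = 12 * MM N := by
    rw [Mn]
    push_cast
    rw [Int.toNat_of_nonneg (MM_pos N).le]
  rw [h]
  exact isMF_h0f N

end

end Fermat.Agent.S28Lib
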