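import Fermat.Agent.S28.Gauss

/-!
# S28 (Igusa), piece V5: facts on `ℤ_(ℓ)`
-/

set_option autoImplicit false
set_option linter.unusedSectionVars false

open ModularCurve ModularCurve.IgusaScheme
open scoped Polynomial

namespace Fermat.Agent.S28Lib

noncomputable section

variable (ℓ : ℕ) [Fact ℓ.Prime]

theorem rl_isUnit_of_resR_ne_zero {x : Rl ℓ} (h : resR ℓ x ≠ 0) : IsUnit x := by
  have hnum : ¬ (ℓ : ℤ) ∣ (x : ℚ).num := by
    intro hd
    apply h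
    rw [resR_apply, Rat.cast_def, (ZMod.intCast_zmod_eq_zero_iff_dvd _ _).mpr hd, zero_div]
  have hx0 : (x : ℚ) ≠ 0 := by
    intro h0
    apply hnum
    rw [h0]
    simp
  have hmem : (x : ℚ)⁻¹ ∈ GaloisRep.ratLocalizedAt ℓ := by
    show ((x : ℚ)⁻¹).den.Coprime ℓ
    rw [Rat.den_inv_of_ne_zero hx0]
    apply Nat.Coprime.symm
    rw [Nat.Prime.coprime_iff_not_dvd Fact.out]
    rwa [← Int.natCast_dvd]
  exact IsUnit.of_mul_eq_one ⟨_, hmem⟩ (Subtype.ext (by simp [hx0]))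

theorem rl_l_dvd_iff (x : Rl ℓ) : (ℓ : Rl ℓ) ∣ x ↔ resR ℓ x = 0 :=
  (resR_eq_zero_iff ℓ x).symm

theorem rl_prime_l : Prime (ℓ : Rl ℓ) := by
  refine ⟨gauss_l_ne_zero ℓ, ?_, ?_⟩
  · intro hu
    have := hu.map (resR ℓ)
    rw [map_natCast, ZMod.natCast_self] at this
    exact not_isUnit_zero this
  · intro a b hab
    rw [rl_l_dvd_iff, map_mul, mul_eq_zero] at hab
    rw [rl_l_dvd_iff, rl_l_dvd_iff]
    exact hab

theorem rl_exists_pow_mul_unit {x : Rl ℓ} (hx : x ≠ 0) : ∃ n : ℕ, Associated ((ℓ : Rl ℓ) ^ n) x := by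
  have hx0 : (x : ℚ) ≠ 0 := fun h => hx (Subtype.ext h)
  have hnum : (x : ℚ).num ≠ 0 := Rat.num_ne_zero.mpr hx0
  have hfin : FiniteMultiplicity (ℓ : ℤ) (x : ℚ).num := by
    rw [Int.finiteMultiplicity_iff]
    exact ⟨by simpa using (Fact.out : ℓ.Prime).one_lt.ne', hnum⟩
  obtain ⟨c, hc, hdvd⟩ := hfin.exists_eq_pow_mul_and_not_dvd
  have hden : ((x : ℚ).den : ℚ) ≠ 0 := by exact_mod_cast (x : ℚ).den_ne_zero
  have hmem : (c : ℚ) / (x : ℚ).den ∈ GaloisRep.ratLocalizedAt ℓ := by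
    show ((c : ℚ) / (x : ℚ).den).den.Coprime ℓ
    have hd : ((c : ℚ) / (x : ℚ).den).den ∣ (x : ℚ).den := by
      have := Rat.den_dvd c (x : ℚ).den
      rw [Rat.divInt_eq_div] at this
      exact_mod_cast this
    exact Nat.Coprime.coprime_dvd_left hd x.2
  have hxu : x = (ℓ : Rl ℓ) ^ (multiplicity (ℓ : ℤ) (x : ℚ).num) * ⟨_, hmem⟩ := by
    apply Subtype.ext
    have hxq : (x : ℚ) = (x : ℚ).num / (x : ℚ).den := (Rat.num_div_den _).symm
    push_cast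
    conv_lhs => rw [hxq, hc]
    push_cast
    ring
  have hu : IsUnit (⟨_, hmem⟩ : Rl ℓ) := by
    apply rl_isUnit_of_resR_ne_zero
    intro h0
    have h1 : (⟨_, hmem⟩ : Rl ℓ) * (((x : ℚ).den : ℕ) : Rl ℓ) = ((c : ℤ) : Rl ℓ) := by
      apply Subtype.ext
      push_cast
      field_simp
    have h2 := congrArg (resR ℓ) h1
    rw [map_mul, h0, zero_mul, map_intCast] at h2
    exact hdvd ((ZMod.intCast_zmod_eq_zero_iff_dvd _ _).mp h2.symm)
  obtain ⟨u, hu⟩ := hu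
  exact ⟨multiplicity (ℓ : ℤ) (x : ℚ).num, u, by rw [hu]; exact hxu.symm⟩

instance rl_isDiscreteValuationRing : IsDiscreteValuationRing (Rl ℓ) :=
  IsDiscreteValuationRing.ofHasUnitMulPowIrreducibleFactorization
    ⟨(ℓ : Rl ℓ), (rl_prime_l ℓ).irreducible, fun hx => rl_exists_pow_mul_unit ℓ hx⟩

theorem isIntegrallyClosed_Rl_poly : IsIntegrallyClosed (Rl ℓ)[X] := inferInstance

theorem prime_l_poly : Prime ((ℓ : (Rl ℓ)[X])) := by
  have h : (ℓ : (Rl ℓ)[X]) = Polynomial.C (ℓ : Rl ℓ) := by simp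
  rw [h, Polynomial.prime_C_iff]
  exact rl_prime_l ℓ

theorem l_dvd_poly_iff (p : (Rl ℓ)[X]) : (ℓ : (Rl ℓ)[X]) ∣ p ↔ p.map (resR ℓ) = 0 := by
  have h : (ℓ : (Rl ℓ)[X]) = Polynomial.C (ℓ : Rl ℓ) := by simp
  rw [h, Polynomial.C_dvd_iff_dvd_coeff, Polynomial.ext_iff]
  simp only [Polynomial.coeff_map, Polynomial.coeff_zero, rl_l_dvd_iff]

end

end Fermat.Agent.S28Lib
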